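/-
Item 75b GOODRED, piece M1 (helper14): valuations on number fields are discrete.

For a valuation ring `A` of a field `K` of characteristic `0` whose maximal ideal contains a
prime number `ℓ`, every `x ≠ 0` algebraic of degree `≤ d` over `ℚ` has `v(x)^(d!) ∈ v(ℓ)^ℤ`.
Consequence ("attained sup"): a family of elements of `A` lying in a finite extension of `ℚ`
has an element of largest valuation.
-/
import Mathlib

set_option autoImplicit false

namespace Fermat.Agent.GoodRed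

section Discrete

variable {K : Type*} [Field K] (A : ValuationSubring K)

/-- in a sum that vanishes, the largest valuation is attained twice -/
theorem exists_ne_valuation_eq_of_sum_eq_zero {Γ₀ : Type*} [LinearOrderedCommGroupWithZero Γ₀]
    (v : Valuation K Γ₀) {ι : Type*} [DecidableEq ι] (s : Finset ι) (t : ι → K)
    (hsum : ∑ i ∈ s, t i = 0) (i₀ : ι) (hi₀ : i₀ ∈ s) (h0 : t i₀ ≠ 0) :
    ∃ i ∈ s, ∃ j ∈ s, i ≠ j ∧ t i ≠ 0 ∧ v (t i) = v (t j) := by
  obtain ⟨i, hi, hmax⟩ := Finset.exists_max_image s (fun i => v (t i)) ⟨i₀, hi₀⟩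
  have hti : t i ≠ 0 := by
    intro h
    have h1 := hmax i₀ hi₀
    simp only [h, map_zero, le_zero_iff] at h1
    exact h0 ((map_eq_zero v).mp h1)
  by_contra hcon
  push Not at hcon
  have hlt : ∀ j ∈ s.erase i, v (t j) < v (t i) := by
    intro j hj
    have hj' := Finset.mem_erase.mp hj
    exact lt_of_le_of_ne (hmax j hj'.2) (fun h => hcon i hi j hj'.2 (Ne.symm hj'.1) hti h.symm)
  have h2 : v (∑ j ∈ s.erase i, t j) < v (t i) :=
    Valuation.map_sum_lt v ((map_ne_zero v).mpr hti) hlt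
  have h3 : ∑ j ∈ s.erase i, t j = - t i := by
    rw [← Finset.add_sum_erase s t hi] at hsum
    exact eq_neg_of_add_eq_zero_right hsum
  rw [h3, Valuation.map_neg] at h2
  exact lt_irrefl _ h2

/-- natural numbers prime to `ℓ` are units of `A` -/
theorem valuation_natCast_eq_one_of_not_dvd {ℓ : ℕ} (hℓ : ℓ.Prime)
    (hlt : A.valuation (ℓ : K) < 1) {n : ℕ} (hn : ¬ ℓ ∣ n) : A.valuation (n : K) = 1 := by
  have hcop : IsCoprime (ℓ : ℤ) (n : ℤ) :=
    Nat.isCoprime_iff_coprime.mpr ((Nat.Prime.coprime_iff_not_dvd hℓ).mpr hn)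
  obtain ⟨a, b, hab⟩ := hcop
  have h1 : (a : K) * ℓ + b * n = 1 := by exact_mod_cast congrArg (Int.cast : ℤ → K) hab
  have hle : A.valuation (n : K) ≤ 1 := (A.valuation_le_one_iff _).mpr (natCast_mem A n)
  rcases hle.lt_or_eq with hlt' | h
  · exfalso
    have ha : A.valuation (a : K) ≤ 1 := (A.valuation_le_one_iff _).mpr (intCast_mem A a)
    have hb : A.valuation (b : K) ≤ 1 := (A.valuation_le_one_iff _).mpr (intCast_mem A b)
    have h2 : A.valuation ((a : K) * ℓ + b * n) < 1 := by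
      apply Valuation.map_add_lt
      · rw [map_mul]
        exact lt_of_le_of_lt (mul_le_mul' ha le_rfl) (by rwa [one_mul])
      · rw [map_mul]
        exact lt_of_le_of_lt (mul_le_mul' hb le_rfl) (by rwa [one_mul])
    rw [h1, map_one] at h2
    exact lt_irrefl _ h2
  · exact h

theorem valuation_natCast_eq_pow {ℓ : ℕ} (hℓ : ℓ.Prime)
    (hlt : A.valuation (ℓ : K) < 1) (n : ℕ) (hn : n ≠ 0) :
    ∃ m : ℕ, A.valuation (n : K) = A.valuation (ℓ : K) ^ m := by
  obtain ⟨e, n', hn', rfl⟩ := Nat.exists_eq_pow_mul_and_not_dvd hn ℓ hℓ.ne_one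
  refine ⟨e, ?_⟩
  push_cast
  rw [map_mul, map_pow, valuation_natCast_eq_one_of_not_dvd A hℓ hlt hn', mul_one]

theorem valuation_ratCast_eq_zpow [CharZero K] {ℓ : ℕ} (hℓ : ℓ.Prime)
    (hlt : A.valuation (ℓ : K) < 1) (r : ℚ) (hr : r ≠ 0) :
    ∃ m : ℤ, A.valuation (r : K) = A.valuation (ℓ : K) ^ m := by
  have hℓ0 : A.valuation (ℓ : K) ≠ 0 :=
    (map_ne_zero _).mpr (Nat.cast_ne_zero.mpr hℓ.ne_zero)
  obtain ⟨m₁, h₁⟩ := valuation_natCast_eq_pow A hℓ hlt r.num.natAbs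
    (Int.natAbs_ne_zero.mpr (Rat.num_ne_zero.mpr hr))
  obtain ⟨m₂, h₂⟩ := valuation_natCast_eq_pow A hℓ hlt r.den r.den_ne_zero
  refine ⟨(m₁ : ℤ) - m₂, ?_⟩
  have hnum : A.valuation ((r.num : ℤ) : K) = A.valuation (ℓ : K) ^ m₁ := by
    rw [← h₁]
    rcases Int.natAbs_eq r.num with h | h
    · conv_lhs => rw [h]
      simp
    · conv_lhs => rw [h]
      simp
  rw [Rat.cast_def, map_div₀, hnum, h₂, zpow_sub₀ hℓ0, zpow_natCast, zpow_natCast]

/-- **Discreteness**: an element algebraic of degree `≤ d` over `ℚ` has `v(x)^(d!) ∈ v(ℓ)^ℤ`. -/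
theorem valuation_pow_factorial_eq_zpow [Algebra ℚ K] {ℓ : ℕ} (hℓ : ℓ.Prime)
    (hlt : A.valuation (ℓ : K) < 1) (x : K) (hx : x ≠ 0) (d : ℕ) (p : Polynomial ℚ)
    (hp : p ≠ 0) (hpx : Polynomial.aeval x p = 0) (hd : p.natDegree ≤ d) :
    ∃ m : ℤ, A.valuation x ^ d.factorial = A.valuation (ℓ : K) ^ m := by
  classical
  have : CharZero K := algebraRat.charZero K
  have hℓ0 : A.valuation (ℓ : K) ≠ 0 :=
    (map_ne_zero _).mpr (Nat.cast_ne_zero.mpr hℓ.ne_zero)
  have hx0 : A.valuation x ≠ 0 := (map_ne_zero _).mpr hx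
  set t : ℕ → K := fun i => ((p.coeff i : ℚ) : K) * x ^ i with ht
  have hsum : ∑ i ∈ Finset.range (p.natDegree + 1), t i = 0 := by
    rw [← hpx, Polynomial.aeval_eq_sum_range]
    refine Finset.sum_congr rfl fun i _ => ?_
    rw [ht, Algebra.smul_def, eq_ratCast]
  have hlead : t p.natDegree ≠ 0 := by
    rw [ht]
    refine mul_ne_zero ?_ (pow_ne_zero _ hx)
    exact Rat.cast_ne_zero.mpr (Polynomial.leadingCoeff_ne_zero.mpr hp)
  obtain ⟨i, hi, j, hj, hij, hti, hv⟩ :=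
    exists_ne_valuation_eq_of_sum_eq_zero A.valuation _ t hsum p.natDegree
      (Finset.mem_range.mpr (Nat.lt_succ_self _)) hlead
  have htj : t j ≠ 0 := by
    intro h
    rw [h, map_zero] at hv
    exact hti ((map_eq_zero _).mp hv)
  -- symmetric situation: reduce to `i < j`
  have key : ∀ i j : ℕ, i < j → j < p.natDegree + 1 → t i ≠ 0 → t j ≠ 0 →
      A.valuation (t i) = A.valuation (t j) →
      ∃ m : ℤ, A.valuation x ^ d.factorial = A.valuation (ℓ : K) ^ m := by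
    intro i j hlt' hj hti htj hv
    have hci : (p.coeff i : ℚ) ≠ 0 := by
      intro h
      apply hti
      rw [ht]
      simp [h]
    have hcj : (p.coeff j : ℚ) ≠ 0 := by
      intro h
      apply htj
      rw [ht]
      simp [h]
    obtain ⟨mi, hmi⟩ := valuation_ratCast_eq_zpow A hℓ hlt _ hci
    obtain ⟨mj, hmj⟩ := valuation_ratCast_eq_zpow A hℓ hlt _ hcj
    simp only [ht, map_mul, map_pow, hmi, hmj] at hv
    have hji : j = (j - i) + i := by omega
    have h1 : A.valuation x ^ (j - i) = A.valuation (ℓ : K) ^ (mi - mj) := by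
      have h2 : A.valuation (ℓ : K) ^ mi * A.valuation x ^ i =
          A.valuation (ℓ : K) ^ mj * A.valuation x ^ (j - i) * A.valuation x ^ i := by
        rw [hv, mul_assoc, ← pow_add, ← hji]
      have h3 := mul_right_cancel₀ (pow_ne_zero i hx0) h2
      rw [zpow_sub₀ hℓ0, h3, mul_comm, mul_div_assoc, div_self (zpow_ne_zero _ hℓ0), mul_one]
    have hdvd : (j - i) ∣ d.factorial :=
      Nat.dvd_factorial (by omega) (by omega)
    obtain ⟨q, hq⟩ := hdvd
    refine ⟨(mi - mj) * q, ?_⟩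
    rw [hq, pow_mul, h1, zpow_mul, zpow_natCast]
  rcases lt_or_gt_of_ne hij with h | h
  · exact key i j h (Finset.mem_range.mp hj) hti htj hv
  · exact key j i h (Finset.mem_range.mp hi) htj hti hv.symm

/-- `S` is `v`-discrete: some power of every valuation of a nonzero element of `S` is a power of
the valuation of a fixed nonunit. -/
def IsValDiscreteOn (S : Set K) : Prop :=
  ∃ (D : ℕ) (ϖ : K), 0 < D ∧ ϖ ≠ 0 ∧ A.valuation ϖ < 1 ∧
    ∀ x ∈ S, x ≠ 0 → ∃ m : ℤ, A.valuation x ^ D = A.valuation ϖ ^ m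

theorem IsValDiscreteOn.mono {S T : Set K} (h : IsValDiscreteOn A T) (hST : S ⊆ T) :
    IsValDiscreteOn A S := by
  obtain ⟨D, ϖ, hD, hϖ, hlt, h⟩ := h
  exact ⟨D, ϖ, hD, hϖ, hlt, fun x hx => h x (hST hx)⟩

/-- a finite extension of `ℚ` is `v`-discrete -/
theorem isValDiscreteOn_of_finiteDimensional [Algebra ℚ K] {ℓ : ℕ} (hℓ : ℓ.Prime)
    (hlt : A.valuation (ℓ : K) < 1) (E : IntermediateField ℚ K) (hE : FiniteDimensional ℚ E) :
    IsValDiscreteOn A (E : Set K) := by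
  have hℓ0 : (ℓ : K) ≠ 0 := by
    have : CharZero K := algebraRat.charZero K
    exact Nat.cast_ne_zero.mpr hℓ.ne_zero
  refine ⟨(Module.finrank ℚ E).factorial, (ℓ : K), Nat.factorial_pos _,
    hℓ0, hlt, fun x hx hx0 => ?_⟩
  have hmod : (Algebra.toModule : Module ℚ E) = E.module' := Subsingleton.elim _ _
  have hE' : @Module.Finite ℚ E _ _ Algebra.toModule := by
    rw [hmod]
    exact hE
  have hint : IsIntegral ℚ (⟨x, hx⟩ : E) := IsIntegral.of_finite ℚ _
  have hne : minpoly ℚ (⟨x, hx⟩ : E) ≠ 0 := minpoly.ne_zero hint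
  have hev : Polynomial.aeval x (minpoly ℚ (⟨x, hx⟩ : E)) = 0 := by
    have h := minpoly.aeval ℚ (⟨x, hx⟩ : E)
    have h2 := congrArg (algebraMap E K) h
    rw [map_zero, ← Polynomial.aeval_algebraMap_apply] at h2
    exact h2
  have hdeg : (minpoly ℚ (⟨x, hx⟩ : E)).natDegree ≤ Module.finrank ℚ E := by
    have h := @minpoly.natDegree_le ℚ E _ _ _ hE' (⟨x, hx⟩ : E) _
    rw [hmod] at h
    exact h
  exact valuation_pow_factorial_eq_zpow A hℓ hlt x hx0 _ _ hne hev hdeg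

/-- **attained sup**: a nonzero family of elements of `A` in a `v`-discrete set has an element of
largest valuation. -/
theorem exists_max_valuation {S : Set K} (hS : IsValDiscreteOn A S) {ι : Type*} (g : ι → K)
    (hgS : ∀ n, g n ∈ S) (hgA : ∀ n, g n ∈ A) (n₁ : ι) (h1 : g n₁ ≠ 0) :
    ∃ n₀, g n₀ ≠ 0 ∧ ∀ n, A.valuation (g n) ≤ A.valuation (g n₀) := by
  classical
  obtain ⟨D, ϖ, hD, hϖ, hlt, h⟩ := hS
  have hϖ0 : 0 < A.valuation ϖ := zero_lt_iff.mpr ((map_ne_zero _).mpr hϖ)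
  -- exponents are natural numbers
  have hnat : ∀ n, g n ≠ 0 → ∃ m : ℕ, A.valuation (g n) ^ D = A.valuation ϖ ^ m := by
    intro n hn
    obtain ⟨m, hm⟩ := h (g n) (hgS n) hn
    have hle : A.valuation (g n) ^ D ≤ 1 :=
      pow_le_one₀ zero_le ((A.valuation_le_one_iff _).mpr (hgA n))
    rw [hm] at hle
    have hm0 : 0 ≤ m := by
      by_contra hneg
      push Not at hneg
      have : 1 < A.valuation ϖ ^ m := by
        have h5 : A.valuation ϖ ^ (-m) < 1 := by
          obtain ⟨k, hk⟩ : ∃ k : ℕ, -m = (k + 1 : ℕ) := ⟨(-m - 1).toNat, by omega⟩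
          rw [hk, zpow_natCast]
          exact pow_lt_one₀ zero_le hlt (Nat.succ_ne_zero k)
        rw [zpow_neg] at h5
        have h6 : 0 < A.valuation ϖ ^ m := zpow_pos hϖ0 m
        by_contra h7
        push Not at h7
        have h8 : 1 ≤ (A.valuation ϖ ^ m)⁻¹ := (one_le_inv₀ h6).mpr h7
        exact absurd h5 (not_lt.mpr h8)
      exact absurd hle (not_le.mpr this)
    refine ⟨m.toNat, ?_⟩
    rw [hm, ← zpow_natCast, Int.toNat_of_nonneg hm0]
  have hex : ∃ m : ℕ, ∃ n, g n ≠ 0 ∧ A.valuation (g n) ^ D = A.valuation ϖ ^ m := by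
    obtain ⟨m, hm⟩ := hnat n₁ h1
    exact ⟨m, n₁, h1, hm⟩
  obtain ⟨n₀, hn₀, hm₀⟩ := Nat.find_spec hex
  refine ⟨n₀, hn₀, fun n => ?_⟩
  by_cases hn : g n = 0
  · rw [hn, map_zero]
    exact zero_le
  obtain ⟨m, hm⟩ := hnat n hn
  have hmin : Nat.find hex ≤ m := Nat.find_min' hex ⟨n, hn, hm⟩
  have hpow : A.valuation (g n) ^ D ≤ A.valuation (g n₀) ^ D := by
    rw [hm, hm₀]
    exact pow_le_pow_of_le_one zero_le hlt.le hmin
  by_contra hcon
  push Not at hcon
  exact absurd hpow (not_le.mpr (pow_lt_pow_left₀ hcon zero_le hD.ne'))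

end Discrete

end Fermat.Agent.GoodRed
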