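/-
Item 75b GOODRED, piece M1 (helper14): bounded Laurent series over a valuation ring of `ℚ̄`.

`A` is a valuation ring of a field `K` algebraic over `ℚ`, whose maximal ideal contains a prime
number `ℓ`.  A Laurent series over `K` is `NFInt` if its coefficients lie in `A` and in a finite
extension of `ℚ`.  Such a series, if nonzero, is a constant times a primitive series (the sup of
the valuations of the coefficients is attained because the valuation is discrete on number
fields).  Every element of the modular function field is a quotient of two `NFInt` series of the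
function field; consequently (`exists_primitive_smul`) it is `c·a/b` with `a`, `b` primitive.
-/
import Mathlib
import Fermat.Agent.GoodRed.Discrete
import Fermat.Prelude.Def_ModularCurve_ReductionModL

set_option autoImplicit false

noncomputable section

namespace Fermat.Agent.GoodRed

open ModularCurve HahnSeries

section Lift

variable {K : Type*} [Field K] (A : ValuationSubring K)

/-- the Laurent series over `A` with the same coefficients -/
def liftSeries (g : LaurentSeries K) (h : ∀ n, g.coeff n ∈ A) : LaurentSeries A :=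
  ⟨fun n => ⟨g.coeff n, h n⟩, g.isPWO_support.mono (by
    intro n hn
    simp only [Function.mem_support, ne_eq] at hn ⊢
    intro h0
    exact hn (Subtype.ext h0))⟩

@[simp]
theorem coeffMap_liftSeries (g : LaurentSeries K) (h : ∀ n, g.coeff n ∈ A) :
    coeffMap A.subtype (liftSeries A g h) = g := by
  ext n
  rfl

theorem coeffMap_valSubtype_injective : Function.Injective (coeffMap A.subtype) := by
  intro x y h
  ext n
  have := congrArg (fun z => z.coeff n) h
  simpa using this

theorem coeff_coeffMap_valSubtype_mem (a : LaurentSeries A) (n : ℤ) :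
    (coeffMap A.subtype a).coeff n ∈ A := by
  rw [coeffMap_coeff]
  exact (a.coeff n).2

/-- a series over `A` is primitive iff one of its coefficients is a unit -/
theorem coeffMap_residue_ne_zero_iff (a : LaurentSeries A) :
    coeffMap (IsLocalRing.residue A) a ≠ 0 ↔ ∃ n, A.valuation ((a.coeff n : A) : K) = 1 := by
  constructor
  · intro h
    by_contra hcon
    push Not at hcon
    apply h
    ext n
    rw [coeffMap_coeff, HahnSeries.coeff_zero, IsLocalRing.residue_eq_zero_iff,
      ValuationSubring.valuation_lt_one_iff]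
    exact lt_of_le_of_ne (A.valuation_le_one _) (hcon n)
  · rintro ⟨n, hn⟩ h
    have h1 := congrArg (fun z => z.coeff n) h
    simp only [coeffMap_coeff, HahnSeries.coeff_zero] at h1
    rw [IsLocalRing.residue_eq_zero_iff, ValuationSubring.valuation_lt_one_iff] at h1
    exact absurd hn (ne_of_lt h1)

/-- coefficients of a product lie in any subring containing the coefficients of the factors -/
theorem coeff_mul_mem_subring (R : Subring K) {x y : LaurentSeries K}
    (hx : ∀ n, x.coeff n ∈ R) (hy : ∀ n, y.coeff n ∈ R) (n : ℤ) : (x * y).coeff n ∈ R := by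
  rw [HahnSeries.coeff_mul]
  exact Subring.sum_mem _ fun ij _ => R.mul_mem (hx _) (hy _)

theorem coeff_C_mem_subring (R : Subring K) {c : K} (hc : c ∈ R) (n : ℤ) :
    (HahnSeries.C c : LaurentSeries K).coeff n ∈ R := by
  rw [HahnSeries.C_apply, HahnSeries.coeff_single]
  split_ifs
  · exact hc
  · exact R.zero_mem

end Lift

section NF

variable {K : Type*} [Field K] [Algebra ℚ K] (A : ValuationSubring K)

/-- coefficients in `A` and in a finite extension of `ℚ` -/
def NFInt (g : LaurentSeries K) : Prop :=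
  ∃ E : IntermediateField ℚ K, FiniteDimensional ℚ E ∧ ∀ n, g.coeff n ∈ E ∧ g.coeff n ∈ A

variable {A}

theorem NFInt.coeff_mem {g : LaurentSeries K} (h : NFInt A g) (n : ℤ) : g.coeff n ∈ A := by
  obtain ⟨E, -, hE⟩ := h
  exact (hE n).2

theorem nfInt_iff_subring {g : LaurentSeries K} :
    NFInt A g ↔ ∃ E : IntermediateField ℚ K, FiniteDimensional ℚ E ∧
      ∀ n, g.coeff n ∈ E.toSubalgebra.toSubring ⊓ A.toSubring := Iff.rfl

theorem NFInt.mul {x y : LaurentSeries K} (hx : NFInt A x) (hy : NFInt A y) :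
    NFInt A (x * y) := by
  obtain ⟨E₁, h₁, hE₁⟩ := hx
  obtain ⟨E₂, h₂, hE₂⟩ := hy
  refine ⟨E₁ ⊔ E₂, IntermediateField.finiteDimensional_sup E₁ E₂, fun n => ?_⟩
  exact coeff_mul_mem_subring ((E₁ ⊔ E₂).toSubalgebra.toSubring ⊓ A.toSubring)
    (fun m => ⟨(le_sup_left : E₁ ≤ E₁ ⊔ E₂) (hE₁ m).1, (hE₁ m).2⟩)
    (fun m => ⟨(le_sup_right : E₂ ≤ E₁ ⊔ E₂) (hE₂ m).1, (hE₂ m).2⟩) n

theorem NFInt.add {x y : LaurentSeries K} (hx : NFInt A x) (hy : NFInt A y) :
    NFInt A (x + y) := by
  obtain ⟨E₁, h₁, hE₁⟩ := hx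
  obtain ⟨E₂, h₂, hE₂⟩ := hy
  refine ⟨E₁ ⊔ E₂, IntermediateField.finiteDimensional_sup E₁ E₂, fun n => ?_⟩
  rw [HahnSeries.coeff_add]
  exact ⟨add_mem ((le_sup_left : E₁ ≤ E₁ ⊔ E₂) (hE₁ n).1)
    ((le_sup_right : E₂ ≤ E₁ ⊔ E₂) (hE₂ n).1), A.add_mem _ _ (hE₁ n).2 (hE₂ n).2⟩

theorem NFInt.neg {x : LaurentSeries K} (hx : NFInt A x) : NFInt A (-x) := by
  obtain ⟨E₁, h₁, hE₁⟩ := hx
  refine ⟨E₁, h₁, fun n => ?_⟩
  rw [HahnSeries.coeff_neg]
  exact ⟨neg_mem (hE₁ n).1, A.neg_mem _ (hE₁ n).2⟩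

theorem nfInt_zero : NFInt A (0 : LaurentSeries K) :=
  ⟨⊥, inferInstance, fun n => by
    rw [HahnSeries.coeff_zero]
    exact ⟨zero_mem _, A.zero_mem⟩⟩

theorem nfInt_C {c : K} (hc : c ∈ A) (halg : IsIntegral ℚ c) :
    NFInt A (HahnSeries.C c : LaurentSeries K) := by
  refine ⟨IntermediateField.adjoin ℚ {c}, IntermediateField.adjoin.finiteDimensional halg,
    fun n => ?_⟩
  exact coeff_C_mem_subring
    ((IntermediateField.adjoin ℚ {c}).toSubalgebra.toSubring ⊓ A.toSubring)
    ⟨IntermediateField.mem_adjoin_simple_self ℚ c, hc⟩ n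

theorem nfInt_one : NFInt A (1 : LaurentSeries K) := by
  refine ⟨⊥, inferInstance, fun n => ?_⟩
  rw [HahnSeries.coeff_one]
  split_ifs
  · exact ⟨one_mem _, A.one_mem⟩
  · exact ⟨zero_mem _, A.zero_mem⟩

/-- series with integer coefficients -/
theorem nfInt_coeffMap_int (z : LaurentSeries ℤ) :
    NFInt A (coeffMap (Int.castRingHom K) z) := by
  refine ⟨⊥, inferInstance, fun n => ?_⟩
  rw [coeffMap_coeff]
  exact ⟨by simp, by simp⟩

/-- **attained sup**: a nonzero `NFInt` series is a constant times a primitive series. -/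
theorem NFInt.exists_primitive {ℓ : ℕ} (hℓ : ℓ.Prime) (hlt : A.valuation (ℓ : K) < 1)
    {g : LaurentSeries K} (hg : NFInt A g) (hg0 : g ≠ 0) :
    ∃ (c : K) (g₀ : LaurentSeries A), c ≠ 0 ∧ c ∈ A ∧
      coeffMap (IsLocalRing.residue A) g₀ ≠ 0 ∧ NFInt A (coeffMap A.subtype g₀) ∧
      g = HahnSeries.C c * coeffMap A.subtype g₀ := by
  obtain ⟨E, hE, hcoef⟩ := hg
  have hdisc := isValDiscreteOn_of_finiteDimensional A hℓ hlt E hE
  obtain ⟨n₁, hn₁⟩ : ∃ n, g.coeff n ≠ 0 := by
    by_contra hcon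
    push Not at hcon
    exact hg0 (HahnSeries.ext (funext hcon))
  obtain ⟨n₀, hn₀, hmax⟩ := exists_max_valuation A hdisc (fun n => g.coeff n)
    (fun n => (hcoef n).1) (fun n => (hcoef n).2) n₁ hn₁
  set c := g.coeff n₀ with hc
  have hmem : ∀ n, (HahnSeries.C c⁻¹ * g).coeff n ∈ A := by
    intro n
    rw [HahnSeries.C_mul_eq_smul, HahnSeries.coeff_smul, smul_eq_mul,
      ← A.valuation_le_one_iff, map_mul, map_inv₀]
    have h0 : A.valuation c ≠ 0 := (map_ne_zero _).mpr hn₀
    rw [inv_mul_le_iff₀ (zero_lt_iff.mpr h0), mul_one]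
    exact hmax n
  have hmemE : ∀ n, (HahnSeries.C c⁻¹ * g).coeff n ∈ E := by
    intro n
    rw [HahnSeries.C_mul_eq_smul, HahnSeries.coeff_smul, smul_eq_mul]
    exact mul_mem (inv_mem (hcoef n₀).1) (hcoef n).1
  refine ⟨c, liftSeries A (HahnSeries.C c⁻¹ * g) hmem, hn₀, (hcoef n₀).2, ?_, ?_, ?_⟩
  · rw [coeffMap_residue_ne_zero_iff]
    refine ⟨n₀, ?_⟩
    show A.valuation ((HahnSeries.C c⁻¹ * g).coeff n₀) = 1
    rw [HahnSeries.C_mul_eq_smul, HahnSeries.coeff_smul, smul_eq_mul, ← hc,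
      inv_mul_cancel₀ hn₀, map_one]
  · rw [coeffMap_liftSeries]
    exact ⟨E, hE, fun n => ⟨hmemE n, hmem n⟩⟩
  · rw [coeffMap_liftSeries, ← mul_assoc, ← map_mul, mul_inv_cancel₀ hn₀, map_one, one_mul]


variable (A) in
/-- bounded series: a nonzero constant multiple is `NFInt` -/
def IsBddNF (g : LaurentSeries K) : Prop :=
  ∃ c : K, c ≠ 0 ∧ c ∈ A ∧ NFInt A (HahnSeries.C c * g)

omit [Algebra ℚ K] in
variable (A) in
/-- every element of `K` has a denominator in `A` -/
theorem exists_denom (c : K) : ∃ y : K, y ≠ 0 ∧ y ∈ A ∧ c * y ∈ A := by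
  rcases A.mem_or_inv_mem c with h | h
  · exact ⟨1, one_ne_zero, A.one_mem, by rwa [mul_one]⟩
  · by_cases hc : c = 0
    · exact ⟨1, one_ne_zero, A.one_mem, by rw [hc, zero_mul]; exact A.zero_mem⟩
    · exact ⟨c⁻¹, inv_ne_zero hc, h, by rw [mul_inv_cancel₀ hc]; exact A.one_mem⟩

theorem NFInt.isBddNF {g : LaurentSeries K} (h : NFInt A g) : IsBddNF A g :=
  ⟨1, one_ne_zero, A.one_mem, by rwa [map_one, one_mul]⟩

theorem isBddNF_zero : IsBddNF A (0 : LaurentSeries K) := nfInt_zero.isBddNF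

theorem IsBddNF.add (halg : ∀ c : K, IsIntegral ℚ c) {x y : LaurentSeries K}
    (hx : IsBddNF A x) (hy : IsBddNF A y) : IsBddNF A (x + y) := by
  obtain ⟨c₁, h₁, hA₁, hx⟩ := hx
  obtain ⟨c₂, h₂, hA₂, hy⟩ := hy
  refine ⟨c₁ * c₂, mul_ne_zero h₁ h₂, A.mul_mem _ _ hA₁ hA₂, ?_⟩
  have e : HahnSeries.C (c₁ * c₂) * (x + y) =
      HahnSeries.C c₂ * (HahnSeries.C c₁ * x) + HahnSeries.C c₁ * (HahnSeries.C c₂ * y) := by
    rw [map_mul]
    ring
  rw [e]
  exact ((nfInt_C hA₂ (halg _)).mul hx).add ((nfInt_C hA₁ (halg _)).mul hy)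

theorem IsBddNF.mul {x y : LaurentSeries K}
    (hx : IsBddNF A x) (hy : IsBddNF A y) : IsBddNF A (x * y) := by
  obtain ⟨c₁, h₁, hA₁, hx⟩ := hx
  obtain ⟨c₂, h₂, hA₂, hy⟩ := hy
  refine ⟨c₁ * c₂, mul_ne_zero h₁ h₂, A.mul_mem _ _ hA₁ hA₂, ?_⟩
  have e : HahnSeries.C (c₁ * c₂) * (x * y) =
      (HahnSeries.C c₁ * x) * (HahnSeries.C c₂ * y) := by
    rw [map_mul]
    ring
  rw [e]
  exact hx.mul hy

theorem IsBddNF.C_mul (halg : ∀ c : K, IsIntegral ℚ c) (c : K) {x : LaurentSeries K}
    (hx : IsBddNF A x) : IsBddNF A (HahnSeries.C c * x) := by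
  obtain ⟨c₁, h₁, hA₁, hx⟩ := hx
  obtain ⟨y, hy0, hyA, hcy⟩ := exists_denom A c
  refine ⟨c₁ * y, mul_ne_zero h₁ hy0, A.mul_mem _ _ hA₁ hyA, ?_⟩
  have e : HahnSeries.C (c₁ * y) * (HahnSeries.C c * x) =
      HahnSeries.C (c * y) * (HahnSeries.C c₁ * x) := by
    rw [map_mul, map_mul]
    ring
  rw [e]
  exact (nfInt_C hcy (halg _)).mul hx

theorem IsBddNF.smul (halg : ∀ c : K, IsIntegral ℚ c) (c : K) {x : LaurentSeries K}
    (hx : IsBddNF A x) : IsBddNF A (c • x) := by
  rw [← HahnSeries.C_mul_eq_smul]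
  exact hx.C_mul halg c

/-- a nonzero bounded series is a constant times a primitive series -/
theorem IsBddNF.exists_primitive {ℓ : ℕ} (hℓ : ℓ.Prime) (hlt : A.valuation (ℓ : K) < 1)
    {g : LaurentSeries K} (hg : IsBddNF A g) (hg0 : g ≠ 0) :
    ∃ (c : K) (g₀ : LaurentSeries A), c ≠ 0 ∧
      coeffMap (IsLocalRing.residue A) g₀ ≠ 0 ∧ NFInt A (coeffMap A.subtype g₀) ∧
      g = HahnSeries.C c * coeffMap A.subtype g₀ := by
  obtain ⟨c₁, h₁, -, hx⟩ := hg
  have hne : HahnSeries.C c₁ * g ≠ 0 := mul_ne_zero (HahnSeries.C_ne_zero h₁) hg0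
  obtain ⟨c, g₀, hc, -, hprim, hnf, he⟩ := hx.exists_primitive hℓ hlt hne
  refine ⟨c₁⁻¹ * c, g₀, mul_ne_zero (inv_ne_zero h₁) hc, hprim, hnf, ?_⟩
  rw [map_mul, mul_assoc, ← he, ← mul_assoc, ← map_mul, inv_mul_cancel₀ h₁, map_one, one_mul]

end NF

section Frac

variable {K : Type*} [Field K] [Algebra ℚ K] (A : ValuationSubring K)
variable (F : IntermediateField K (LaurentSeries K))

/-- `g` is a quotient of two `NFInt` series of `F` -/
def IsFracNF (g : LaurentSeries K) : Prop :=
  ∃ a b : LaurentSeries K, a ∈ F ∧ b ∈ F ∧ b ≠ 0 ∧ NFInt A a ∧ NFInt A b ∧ g * b = a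

variable {A F}

theorem IsFracNF.of_nfInt {g : LaurentSeries K} (hg : g ∈ F) (h : NFInt A g) : IsFracNF A F g :=
  ⟨g, 1, hg, one_mem _, one_ne_zero, h, nfInt_one, mul_one g⟩

theorem IsFracNF.add {x y : LaurentSeries K} (hx : IsFracNF A F x) (hy : IsFracNF A F y) :
    IsFracNF A F (x + y) := by
  obtain ⟨a, b, ha, hb, hb0, hna, hnb, hab⟩ := hx
  obtain ⟨a', b', ha', hb', hb0', hna', hnb', hab'⟩ := hy
  refine ⟨a * b' + a' * b, b * b', add_mem (mul_mem ha hb') (mul_mem ha' hb), mul_mem hb hb',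
    mul_ne_zero hb0 hb0', (hna.mul hnb').add (hna'.mul hnb), hnb.mul hnb', ?_⟩
  rw [← hab, ← hab']
  ring

theorem IsFracNF.mul {x y : LaurentSeries K} (hx : IsFracNF A F x) (hy : IsFracNF A F y) :
    IsFracNF A F (x * y) := by
  obtain ⟨a, b, ha, hb, hb0, hna, hnb, hab⟩ := hx
  obtain ⟨a', b', ha', hb', hb0', hna', hnb', hab'⟩ := hy
  refine ⟨a * a', b * b', mul_mem ha ha', mul_mem hb hb',
    mul_ne_zero hb0 hb0', hna.mul hna', hnb.mul hnb', ?_⟩
  rw [← hab, ← hab']
  ring

theorem IsFracNF.neg {x : LaurentSeries K} (hx : IsFracNF A F x) : IsFracNF A F (-x) := by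
  obtain ⟨a, b, ha, hb, hb0, hna, hnb, hab⟩ := hx
  exact ⟨-a, b, neg_mem ha, hb, hb0, hna.neg, hnb, by rw [← hab]; ring⟩

theorem IsFracNF.inv {x : LaurentSeries K} (hx : IsFracNF A F x) : IsFracNF A F x⁻¹ := by
  by_cases hx0 : x = 0
  · rw [hx0, inv_zero]
    exact IsFracNF.of_nfInt (zero_mem _) nfInt_zero
  obtain ⟨a, b, ha, hb, hb0, hna, hnb, hab⟩ := hx
  have ha0 : a ≠ 0 := by
    rw [← hab]
    exact mul_ne_zero hx0 hb0
  refine ⟨b, a, hb, ha, ha0, hnb, hna, ?_⟩
  rw [← hab, ← mul_assoc, inv_mul_cancel₀ hx0, one_mul]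

theorem isFracNF_C (halg : ∀ c : K, IsIntegral ℚ c) (c : K) :
    IsFracNF A F (HahnSeries.C c : LaurentSeries K) := by
  have hCmem : ∀ d : K, (HahnSeries.C d : LaurentSeries K) ∈ F := by
    intro d
    have h := F.algebraMap_mem d
    rwa [algebraMap_laurentSeries_eq_single] at h
  obtain ⟨y, hy0, hyA, hcy⟩ := exists_denom A c
  refine ⟨HahnSeries.C (c * y), HahnSeries.C y, hCmem _, hCmem _, HahnSeries.C_ne_zero hy0,
    nfInt_C hcy (halg _), nfInt_C hyA (halg _), ?_⟩
  rw [map_mul]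

end Frac

section Modular

variable {K : Type*} [Field K] [Algebra ℚ K] (A : ValuationSubring K)
variable (N : ℕ)

/-- the generators `j(q^d)` over `K` have integer coefficients -/
theorem coeffEmb_jqd_eq (d : ℕ) [NeZero d] :
    coeffEmb K (qExpand ℚ d jq) = coeffMap (Int.castRingHom K) (qExpand ℤ d (jqModC ℤ)) := by
  rw [coeffEmb, coeffMap_qExpand, coeffMap_qExpand, ← jqModC_rat, coeffMap_jqModC,
    coeffMap_jqModC]

theorem coeffEmb_jqd_eq' (d : ℕ) [NeZero d] :
    coeffEmb K (qExpand ℚ d jq) = qExpand K d (jqModC K) := by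
  rw [coeffEmb, coeffMap_qExpand, ← jqModC_rat, coeffMap_jqModC]

variable {A N}

/-- every element of the modular function field over `K` is a quotient of `NFInt` series -/
theorem isFracNF_of_mem (halg : ∀ c : K, IsIntegral ℚ c) {g : LaurentSeries K}
    (hg : g ∈ laurentBaseChange K (modularFunctionFieldFull N)) :
    IsFracNF A (laurentBaseChange K (modularFunctionFieldFull N)) g := by
  rw [mem_laurentBaseChange_iff] at hg
  induction hg using Subfield.closure_induction with
  | mem y hy =>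
      rcases hy with ⟨a, rfl⟩ | ⟨z, hz, rfl⟩
      · rw [algebraMap_laurentSeries_eq_single]
        exact isFracNF_C halg a
      · -- second induction, over the function field over `ℚ`
        have hz' : z ∈ IntermediateField.adjoin ℚ (divisorExpansions N) := hz
        induction hz' using IntermediateField.adjoin_induction with
        | mem y hy =>
            obtain ⟨d, hne, hd, rfl⟩ := hy
            refine IsFracNF.of_nfInt (coeffEmb_mem_laurentBaseChange K (jqd_mem_full N hd)) ?_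
            rw [coeffEmb_jqd_eq]
            exact nfInt_coeffMap_int _
        | algebraMap r =>
            have e : coeffEmb K (algebraMap ℚ (LaurentSeries ℚ) r) =
                HahnSeries.C (algebraMap ℚ K r) := by
              rw [algebraMap_laurentSeries_eq_single, coeffEmb, coeffMap_single]
              rfl
            rw [e]
            exact isFracNF_C halg _
        | add x y hx hy ihx ihy =>
            rw [map_add]
            exact (ihx hx).add (ihy hy)
        | inv x hx ihx =>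
            rw [map_inv₀]
            exact (ihx hx).inv
        | mul x y hx hy ihx ihy =>
            rw [map_mul]
            exact (ihx hx).mul (ihy hy)
  | one => exact IsFracNF.of_nfInt (one_mem _) nfInt_one
  | add x y _ _ hx hy => exact hx.add hy
  | neg x _ hx => exact hx.neg
  | inv x _ hx => exact hx.inv
  | mul x y _ _ hx hy => exact hx.mul hy


/-- an element integral over `ℚ` has valuation `≤ 1` as soon as all rationals have -/
theorem valuation_le_one_of_isIntegral_rat {Γ₀ : Type*} [LinearOrderedCommGroupWithZero Γ₀]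
    (v : Valuation K Γ₀) (hv : ∀ r : ℚ, v (algebraMap ℚ K r) ≤ 1) {x : K}
    (hx : IsIntegral ℚ x) : v x ≤ 1 := by
  obtain ⟨f, hm, hf⟩ := hx
  by_cases hn : f.natDegree = 0
  · rw [Polynomial.natDegree_eq_zero] at hn
    obtain ⟨c, rfl⟩ := hn
    have hc : c = 1 := by
      have := hm.leadingCoeff
      rwa [Polynomial.leadingCoeff_C] at this
    rw [hc] at hf
    simp at hf
  simp only [Polynomial.eval₂_eq_sum_range, Finset.sum_range_succ, hm.coeff_natDegree, map_one,
    one_mul, add_eq_zero_iff_eq_neg] at hf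
  apply_fun v at hf
  simp only [Valuation.map_neg, map_pow] at hf
  contrapose! hf
  refine ne_of_lt (v.map_sum_lt ?_ ?_)
  · simp [hn, (hf.trans' (zero_lt_one)).ne']
  · simp only [Finset.mem_range, map_mul, map_pow]
    intro _ hi
    exact mul_lt_of_le_one_of_lt (hv _) <| pow_lt_pow_right₀ hf hi

/-- a proper valuation ring of a field algebraic over `ℚ` contains a prime number in its maximal
ideal -/
theorem exists_prime_valuation_lt_one (halg : ∀ c : K, IsIntegral ℚ c) (hA : A ≠ ⊤) :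
    ∃ ℓ : ℕ, ℓ.Prime ∧ A.valuation (ℓ : K) < 1 := by
  -- some element is not in `A`
  obtain ⟨x, hx⟩ : ∃ x : K, x ∉ A := by
    by_contra hcon
    push Not at hcon
    exact hA (eq_top_iff.mpr fun x _ => hcon x)
  -- some rational has valuation `> 1`
  obtain ⟨r, hr⟩ : ∃ r : ℚ, 1 < A.valuation (algebraMap ℚ K r) := by
    by_contra hcon
    push Not at hcon
    exact hx ((A.valuation_le_one_iff x).mp
      (valuation_le_one_of_isIntegral_rat A.valuation hcon (halg x)))
  have hchar : CharZero K := algebraRat.charZero K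
  -- hence some nonzero natural number has valuation `< 1`
  obtain ⟨n, hn0, hn⟩ : ∃ n : ℕ, n ≠ 0 ∧ A.valuation (n : K) < 1 := by
    refine ⟨r.den, r.den_ne_zero, ?_⟩
    by_contra hcon
    have h1 : A.valuation ((r.den : ℕ) : K) = 1 :=
      le_antisymm ((A.valuation_le_one_iff _).mpr (natCast_mem A _)) (not_lt.mp hcon)
    have h2 : A.valuation ((r.num : ℤ) : K) ≤ 1 :=
      (A.valuation_le_one_iff _).mpr (intCast_mem A _)
    rw [eq_ratCast, Rat.cast_def, map_div₀, h1, div_one] at hr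
    exact absurd h2 (not_le.mpr hr)
  -- induction on the factorisation
  have key : ∀ n : ℕ, n ≠ 0 → A.valuation (n : K) < 1 →
      ∃ ℓ : ℕ, ℓ.Prime ∧ A.valuation (ℓ : K) < 1 := by
    intro n
    induction n using Nat.recOnMul with
    | zero => intro h; exact absurd rfl h
    | one =>
        intro _ h
        rw [Nat.cast_one, map_one] at h
        exact absurd h (lt_irrefl _)
    | prime p hp => exact fun _ h => ⟨p, hp, h⟩
    | mul a b iha ihb =>
        intro hab h
        have ha0 : a ≠ 0 := fun h0 => hab (by rw [h0, zero_mul])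
        have hb0 : b ≠ 0 := fun h0 => hab (by rw [h0, mul_zero])
        by_cases ha : A.valuation (a : K) < 1
        · exact iha ha0 ha
        · refine ihb hb0 ?_
          have h1 : A.valuation (a : K) = 1 :=
            le_antisymm ((A.valuation_le_one_iff _).mpr (natCast_mem A _)) (not_lt.mp ha)
          rwa [Nat.cast_mul, map_mul, h1, one_mul] at h
  exact key n hn0 hn

variable (F : IntermediateField K (LaurentSeries K))

omit [Algebra ℚ K] in
theorem C_mem_intermediateField (d : K) : (HahnSeries.C d : LaurentSeries K) ∈ F := by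
  have h := F.algebraMap_mem d
  rwa [algebraMap_laurentSeries_eq_single] at h

variable {F}

/-- a nonzero `NFInt` series of `F` is a constant times a primitive series of `F` -/
theorem NFInt.exists_primitive_mem {ℓ : ℕ} (hℓ : ℓ.Prime) (hlt : A.valuation (ℓ : K) < 1)
    {g : LaurentSeries K} (hg : IsBddNF A g) (hgF : g ∈ F) (hg0 : g ≠ 0) :
    ∃ (c : K) (g₀ : LaurentSeries A), c ≠ 0 ∧ coeffMap A.subtype g₀ ∈ F ∧
      coeffMap (IsLocalRing.residue A) g₀ ≠ 0 ∧ NFInt A (coeffMap A.subtype g₀) ∧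
      g = HahnSeries.C c * coeffMap A.subtype g₀ := by
  obtain ⟨c, g₀, hc, hprim, hnf, he⟩ := hg.exists_primitive hℓ hlt hg0
  refine ⟨c, g₀, hc, ?_, hprim, hnf, he⟩
  have : coeffMap A.subtype g₀ = HahnSeries.C c⁻¹ * g := by
    rw [he, ← mul_assoc, ← map_mul, inv_mul_cancel₀ hc, map_one, one_mul]
  rw [this]
  exact mul_mem (C_mem_intermediateField F _) hgF

/-- general form of `exists_primitive_smul` -/
theorem IsFracNF.exists_primitive_smul {ℓ : ℕ} (hℓ : ℓ.Prime) (hlt : A.valuation (ℓ : K) < 1)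
    {f : LaurentSeries K} (hf : IsFracNF A F f) (hf0 : f ≠ 0) :
    ∃ (a b : LaurentSeries A),
      coeffMap A.subtype a ∈ F ∧ coeffMap A.subtype b ∈ F ∧
      coeffMap (IsLocalRing.residue A) a ≠ 0 ∧ coeffMap (IsLocalRing.residue A) b ≠ 0 ∧
      NFInt A (coeffMap A.subtype a) ∧ NFInt A (coeffMap A.subtype b) ∧
      ∃ c : K, c ≠ 0 ∧ f * coeffMap A.subtype b = HahnSeries.C c * coeffMap A.subtype a := by
  obtain ⟨a', b', ha', hb', hb0', hna', hnb', hab'⟩ := hf
  have ha0' : a' ≠ 0 := by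
    rw [← hab']
    exact mul_ne_zero hf0 hb0'
  obtain ⟨ca, a, hca, haF, hpa, hnfa, hea⟩ :=
    NFInt.exists_primitive_mem hℓ hlt hna'.isBddNF ha' ha0'
  obtain ⟨cb, b, hcb, hbF, hpb, hnfb, heb⟩ :=
    NFInt.exists_primitive_mem hℓ hlt hnb'.isBddNF hb' hb0'
  refine ⟨a, b, haF, hbF, hpa, hpb, hnfa, hnfb, cb⁻¹ * ca, mul_ne_zero (inv_ne_zero hcb) hca, ?_⟩
  have h1 : f * (HahnSeries.C cb * coeffMap A.subtype b) =
      HahnSeries.C ca * coeffMap A.subtype a := by
    rw [← heb, ← hea, hab']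
  have h2 : f * coeffMap A.subtype b =
      HahnSeries.C cb⁻¹ * (f * (HahnSeries.C cb * coeffMap A.subtype b)) := by
    have : (HahnSeries.C cb⁻¹ : LaurentSeries K) * HahnSeries.C cb = 1 := by
      rw [← map_mul, inv_mul_cancel₀ hcb, map_one]
    calc f * coeffMap A.subtype b
        = ((HahnSeries.C cb⁻¹ : LaurentSeries K) * HahnSeries.C cb) *
            (f * coeffMap A.subtype b) := by rw [this, one_mul]
      _ = _ := by ring
  rw [h2, h1, map_mul, mul_assoc]

end Modular

/-- **M1, first part**: every nonzero element of the modular function field over `ℚ̄` is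
`c · a / b` with `a`, `b` primitive series of the function field with coefficients in `A`. -/
theorem exists_primitive_smul (N : ℕ) [NeZero N] (A : ValuationSubring (AlgebraicClosure ℚ))
    (hA : A ≠ ⊤) (f : LaurentSeries (AlgebraicClosure ℚ)) (hf : f ∈ modularFunctionFieldBar N)
    (hf0 : f ≠ 0) :
    ∃ (a b : LaurentSeries A),
      coeffMap A.subtype a ∈ modularFunctionFieldBar N ∧
      coeffMap A.subtype b ∈ modularFunctionFieldBar N ∧
      coeffMap (IsLocalRing.residue A) a ≠ 0 ∧ coeffMap (IsLocalRing.residue A) b ≠ 0 ∧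
      ∃ c : AlgebraicClosure ℚ, c ≠ 0 ∧
        f * coeffMap A.subtype b = HahnSeries.C c * coeffMap A.subtype a := by
  have halg : ∀ c : AlgebraicClosure ℚ, IsIntegral ℚ c := fun c =>
    ((AlgebraicClosure.isAlgebraic ℚ).isAlgebraic c).isIntegral
  obtain ⟨ℓ, hℓ, hlt⟩ := exists_prime_valuation_lt_one halg hA
  obtain ⟨a, b, ha, hb, hpa, hpb, -, -, c, hc, h⟩ :=
    (isFracNF_of_mem (A := A) halg hf).exists_primitive_smul hℓ hlt hf0
  exact ⟨a, b, ha, hb, hpa, hpb, c, hc, h⟩

end Fermat.Agent.GoodRed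

end
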