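/-
Item 75b GOODRED, piece M1 (helper14): orthonormal bases by echelon form on `q`-coefficients,
and the residue field of a valuation ring of an algebraically closed field.
-/
import Mathlib
import Fermat.Agent.GoodRed.Bounded

set_option autoImplicit false

noncomputable section

namespace Fermat.Agent.GoodRed

open ModularCurve HahnSeries

section AlgClosed

/-- the residue field of a valuation ring of an algebraically closed field is algebraically
closed -/
theorem isAlgClosed_residueField_of_isAlgClosed {K : Type*} [Field K] [IsAlgClosed K]
    (A : ValuationSubring K) : IsAlgClosed (IsLocalRing.ResidueField A) := by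
  refine IsAlgClosed.of_exists_root _ fun p hp hirr => ?_
  obtain ⟨q, hq, hqdeg, hqm⟩ := Polynomial.lifts_and_natDegree_eq_and_monic
    ((Polynomial.mem_lifts p).mpr
      (Polynomial.map_surjective _ IsLocalRing.residue_surjective p)) hp
  have hdeg : (q.map (algebraMap A K)).degree ≠ 0 := by
    rw [Polynomial.degree_map_eq_of_injective (FaithfulSMul.algebraMap_injective A K)]
    intro h0
    have h1 : q.natDegree = 0 := Polynomial.natDegree_eq_zero_iff_degree_le_zero.mpr h0.le
    rw [hqdeg] at h1
    exact Polynomial.not_irreducible_C _
      (by rw [← Polynomial.eq_C_of_natDegree_eq_zero h1]; exact hirr)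
  obtain ⟨x, hx⟩ := IsAlgClosed.exists_root (q.map (algebraMap A K)) hdeg
  have hint : IsIntegral A x := ⟨q, hqm, by rwa [Polynomial.IsRoot, Polynomial.eval_map] at hx⟩
  obtain ⟨y, rfl⟩ := IsIntegrallyClosed.isIntegral_iff.mp hint
  refine ⟨IsLocalRing.residue A y, ?_⟩
  rw [Polynomial.IsRoot, Polynomial.eval_map, Polynomial.eval₂_at_apply] at hx
  have hy : q.eval y = 0 := FaithfulSMul.algebraMap_injective A K (by rw [hx, map_zero])
  rw [← hq, Polynomial.eval_map, Polynomial.eval₂_at_apply, hy, map_zero]

/-- the residue field of a valuation ring of `ℚ̄` is algebraically closed -/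
theorem isAlgClosed_residueField (A : ValuationSubring (AlgebraicClosure ℚ)) :
    IsAlgClosed (IsLocalRing.ResidueField A) :=
  isAlgClosed_residueField_of_isAlgClosed A

end AlgClosed

section Echelon

variable {K : Type*} [Field K] (A : ValuationSubring K)

/-- every nonzero element is a constant times a primitive series -/
def HasPrimitives (V : Submodule K (LaurentSeries K)) : Prop :=
  ∀ g ∈ V, g ≠ 0 → ∃ (c : K) (h : LaurentSeries A), c ≠ 0 ∧
    coeffMap (IsLocalRing.residue A) h ≠ 0 ∧ g = c • coeffMap A.subtype h

/-- the `m`-th coefficient, as a linear form -/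
def coeffLin (R : Type*) [Field R] (m : ℤ) : LaurentSeries R →ₗ[R] R where
  toFun f := f.coeff m
  map_add' _ _ := HahnSeries.coeff_add
  map_smul' _ _ := HahnSeries.coeff_smul

@[simp]
theorem coeffLin_apply (R : Type*) [Field R] (m : ℤ) (f : LaurentSeries R) :
    coeffLin R m f = f.coeff m := rfl

/-- **echelon form**: a finite-dimensional space of bounded series with attained sups has a
basis of series over `A` whose reductions are linearly independent. -/
theorem exists_echelon (n : ℕ) : ∀ (V : Submodule K (LaurentSeries K)), HasPrimitives A V →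
    Module.Finite K V → Module.finrank K V = n →
    ∃ e : Fin n → LaurentSeries A, (∀ i, coeffMap A.subtype (e i) ∈ V) ∧
      Submodule.span K (Set.range fun i => coeffMap A.subtype (e i)) = V ∧
      LinearIndependent (IsLocalRing.ResidueField A)
        (fun i => coeffMap (IsLocalRing.residue A) (e i)) := by
  induction n with
  | zero =>
    intro V hV hfin hrank
    have := hfin
    refine ⟨Fin.elim0, fun i => i.elim0, ?_, linearIndependent_empty_type⟩
    have hbot : V = ⊥ := Submodule.finrank_eq_zero.mp hrank
    rw [hbot, Submodule.span_eq_bot]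
    rintro x ⟨i, -⟩
    exact i.elim0
  | succ n ih =>
    intro V hV hfin hrank
    have := hfin
    obtain ⟨⟨g, hgV⟩, hg0⟩ := Module.finrank_pos_iff_exists_ne_zero.mp
      (by rw [hrank]; exact Nat.succ_pos n)
    have hg0' : g ≠ 0 := fun h => hg0 (Subtype.ext h)
    obtain ⟨c, h, hc, hprim, hgc⟩ := hV g hgV hg0'
    set u := coeffMap A.subtype h with hu
    have huV : u ∈ V := by
      have e1 : u = c⁻¹ • g := by rw [hgc, smul_smul, inv_mul_cancel₀ hc, one_smul]
      rw [e1]
      exact V.smul_mem _ hgV
    obtain ⟨m, hm⟩ := (coeffMap_residue_ne_zero_iff A h).mp hprim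
    have hum : u.coeff m ≠ 0 := by
      rw [hu, coeffMap_coeff]
      intro h0
      have h1 : ((h.coeff m : A) : K) = 0 := h0
      rw [h1, map_zero] at hm
      exact zero_ne_one hm
    have hu0 : u ≠ 0 := fun h0 => hum (by rw [h0]; rfl)
    set V'' := V ⊓ LinearMap.ker (coeffLin K m) with hV''
    have hle : V'' ≤ V := inf_le_left
    have : Module.Finite K V'' := Submodule.finiteDimensional_of_le hle
    have hdisj : Submodule.span K {u} ⊓ V'' = ⊥ := by
      rw [eq_bot_iff]
      rintro x ⟨hx1, hx2⟩
      obtain ⟨a, rfl⟩ := Submodule.mem_span_singleton.mp hx1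
      have h3 : coeffLin K m (a • u) = 0 := hx2.2
      rw [map_smul, coeffLin_apply, smul_eq_mul] at h3
      rcases mul_eq_zero.mp h3 with h4 | h4
      · rw [h4, zero_smul]
        exact Submodule.zero_mem _
      · exact absurd h4 hum
    have hsup : Submodule.span K {u} ⊔ V'' = V := by
      apply le_antisymm
      · exact sup_le ((Submodule.span_singleton_le_iff_mem u V).mpr huV) hle
      · intro x hx
        have hdec : x = (x.coeff m / u.coeff m) • u + (x - (x.coeff m / u.coeff m) • u) := by
          abel
        rw [hdec]
        refine Submodule.add_mem_sup (Submodule.smul_mem _ _ (Submodule.mem_span_singleton_self u))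
          ⟨V.sub_mem hx (V.smul_mem _ huV), ?_⟩
        show coeffLin K m (x - (x.coeff m / u.coeff m) • u) = 0
        rw [map_sub, map_smul, coeffLin_apply, coeffLin_apply, smul_eq_mul,
          div_mul_cancel₀ _ hum, sub_self]
    have hrank'' : Module.finrank K V'' = n := by
      have h5 := Submodule.finrank_sup_add_finrank_inf_eq (Submodule.span K {u}) V''
      rw [hsup, hdisj, finrank_bot, finrank_span_singleton hu0, hrank] at h5
      omega
    obtain ⟨e'', he''V, hspan, hind⟩ := ih V'' (fun g hg => hV g (hle hg)) inferInstance hrank''
    refine ⟨Fin.cons h e'', ?_, ?_, ?_⟩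
    · intro i
      refine Fin.cases ?_ (fun j => ?_) i
      · simpa using huV
      · simpa using hle (he''V j)
    · have hr : (Set.range fun i =>
          coeffMap A.subtype ((Fin.cons h e'' : Fin (n + 1) → LaurentSeries A) i)) =
          insert u (Set.range fun i => coeffMap A.subtype (e'' i)) := by
        ext x
        constructor
        · rintro ⟨i, rfl⟩
          refine Fin.cases ?_ (fun j => ?_) i
          · left
            simp [hu]
          · right
            exact ⟨j, by simp⟩
        · rintro (rfl | ⟨j, rfl⟩)
          · exact ⟨0, by simp [hu]⟩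
          · exact ⟨j.succ, by simp⟩
      rw [hr, Submodule.span_insert, hspan, hsup]
    · have hcons : (fun i => coeffMap (IsLocalRing.residue A)
          ((Fin.cons h e'' : Fin (n + 1) → LaurentSeries A) i)) =
          Fin.cons (coeffMap (IsLocalRing.residue A) h)
            (fun i => coeffMap (IsLocalRing.residue A) (e'' i)) := by
        funext i
        refine Fin.cases ?_ (fun j => ?_) i <;> simp
      rw [hcons, linearIndependent_finCons]
      refine ⟨hind, fun hmem => ?_⟩
      have hψ : ∀ x ∈ Submodule.span (IsLocalRing.ResidueField A)
          (Set.range fun i => coeffMap (IsLocalRing.residue A) (e'' i)), x.coeff m = 0 := by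
        intro x hx
        induction hx using Submodule.span_induction with
        | mem x hx =>
            obtain ⟨j, rfl⟩ := hx
            rw [coeffMap_coeff]
            have h6 : coeffLin K m (coeffMap A.subtype (e'' j)) = 0 := (he''V j).2
            rw [coeffLin_apply, coeffMap_coeff] at h6
            have h7 : (e'' j).coeff m = 0 := Subtype.ext h6
            rw [h7, map_zero]
        | zero => rfl
        | add x y _ _ hx hy => rw [HahnSeries.coeff_add, hx, hy, add_zero]
        | smul a x _ hx => rw [HahnSeries.coeff_smul, hx, smul_zero]
      have h8 := hψ _ hmem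
      rw [coeffMap_coeff, IsLocalRing.residue_eq_zero_iff,
        ValuationSubring.valuation_lt_one_iff] at h8
      exact absurd hm (ne_of_lt h8)

end Echelon

end Fermat.Agent.GoodRed

end
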