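/-
Item 75b GOODRED, piece M1d part 1 (helper5): the abstract argument for `hred`.

Setting: `A` a valuation ring of `L` with residue field `k`; `F ⊂ L((q))`, `Fk ⊂ k((q))` function
fields generated by the images of a set `G ⊂ A((q))`; `x₀ ∈ A((q))` with a pole mod `𝔪`.
If `[F : L(x₀)] ≤ [Fk : k(x̄₀)]` (degree preservation (★)) then the reduction of every
`y ∈ A((q))` with `y ∈ F` lies in `Fk`.
Helper lemmas are prefixed `hr_`.
-/
import Mathlib
import Fermat.Prelude.Def_ModularCurve_ReductionModL
import Fermat.Agent.S28lib.Core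

set_option autoImplicit false

noncomputable section

namespace Fermat.Agent.GoodRed

open ModularCurve IntermediateField Polynomial

/-! ### evaluation of polynomials with constant coefficients at a Laurent series -/

section Ev

variable {R S : Type*} [CommRing R] [CommRing S]

/-- evaluation of a polynomial with constant coefficients at a Laurent series -/
def hr_ev (x : LaurentSeries R) : R[X] →+* LaurentSeries R :=
  Polynomial.eval₂RingHom HahnSeries.C x

theorem hr_ev_apply (x : LaurentSeries R) (P : R[X]) : hr_ev x P = P.eval₂ HahnSeries.C x := rfl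

theorem hr_coeffMap_C (f : R →+* S) (a : R) :
    coeffMap f (HahnSeries.C a : LaurentSeries R) = HahnSeries.C (f a) := by
  rw [HahnSeries.C_apply, HahnSeries.C_apply, coeffMap_single]

theorem hr_coeffMap_ev (f : R →+* S) (x : LaurentSeries R) (P : R[X]) :
    coeffMap f (hr_ev x P) = hr_ev (coeffMap f x) (P.map f) := by
  rw [hr_ev_apply, hr_ev_apply, Polynomial.hom_eval₂, Polynomial.eval₂_map]
  congr 1
  ext a : 1
  exact hr_coeffMap_C f a

end Ev

section Abstract

variable {L : Type*} [Field L] (A : ValuationSubring L)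

/-- lift of a polynomial with coefficients in `A` -/
def hr_liftPoly (P : L[X]) (h : ∀ m, P.coeff m ∈ A) : (↥A)[X] :=
  ∑ m ∈ P.support, Polynomial.monomial m (⟨P.coeff m, h m⟩ : A)

theorem hr_map_liftPoly (P : L[X]) (h : ∀ m, P.coeff m ∈ A) :
    (hr_liftPoly A P h).map A.subtype = P := by
  rw [hr_liftPoly, Polynomial.map_sum]
  simp only [Polynomial.map_monomial]
  exact (P.as_sum_support).symm

theorem hr_coeff_liftPoly (P : L[X]) (h : ∀ m, P.coeff m ∈ A) (m : ℕ) :
    (((hr_liftPoly A P h).coeff m : A) : L) = P.coeff m := by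
  have := congrArg (fun Q => Q.coeff m) (hr_map_liftPoly A P h)
  simpa [Polynomial.coeff_map] using this

theorem hr_iotaA_injective : Function.Injective (coeffMap A.subtype) := by
  intro x y h
  ext n
  have := congrArg (fun z => z.coeff n) h
  simpa using this

/-- a nonzero family of polynomials over `L` can be scaled to a primitive family over `A` -/
theorem hr_exists_primitive {r : ℕ} (P : Fin r → L[X]) (hP : P ≠ 0) :
    ∃ (c : L) (Q : Fin r → (↥A)[X]), c ≠ 0 ∧ (∀ i, (Q i).map A.subtype = Polynomial.C c * P i) ∧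
      ∃ i, (Q i).map (IsLocalRing.residue A) ≠ 0 := by
  classical
  -- the finite set of index pairs
  set T : Finset (Σ _ : Fin r, ℕ) := Finset.univ.sigma fun i => (P i).support with hT
  have hne : T.Nonempty := by
    obtain ⟨i, hi⟩ : ∃ i, P i ≠ 0 := by
      by_contra hcon
      push Not at hcon
      exact hP (funext hcon)
    obtain ⟨m, hm⟩ : ∃ m, (P i).coeff m ≠ 0 := by
      by_contra hcon
      push Not at hcon
      exact hi (Polynomial.ext fun m => by rw [hcon m, Polynomial.coeff_zero])
    exact ⟨⟨i, m⟩, Finset.mem_sigma.mpr ⟨Finset.mem_univ _, Polynomial.mem_support_iff.mpr hm⟩⟩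
  obtain ⟨⟨i₀, m₀⟩, h₀, hmax⟩ :=
    Finset.exists_max_image T (fun p => A.valuation ((P p.1).coeff p.2)) hne
  have hc₀ : (P i₀).coeff m₀ ≠ 0 :=
    Polynomial.mem_support_iff.mp (Finset.mem_sigma.mp h₀).2
  set c : L := ((P i₀).coeff m₀)⁻¹ with hc
  have hcne : c ≠ 0 := inv_ne_zero hc₀
  have hmem : ∀ i m, (Polynomial.C c * P i).coeff m ∈ A := by
    intro i m
    rw [Polynomial.coeff_C_mul]
    by_cases h0 : (P i).coeff m = 0
    · rw [h0, mul_zero]; exact A.zero_mem
    · have hle := hmax ⟨i, m⟩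
        (Finset.mem_sigma.mpr ⟨Finset.mem_univ _, Polynomial.mem_support_iff.mpr h0⟩)
      rw [← A.valuation_le_one_iff, map_mul, hc, map_inv₀]
      have hpos : A.valuation ((P i₀).coeff m₀) ≠ 0 := (_root_.map_ne_zero _).mpr hc₀
      rw [inv_mul_le_iff₀ (zero_lt_iff.mpr hpos), mul_one]
      exact hle
  refine ⟨c, fun i => hr_liftPoly A (Polynomial.C c * P i) (hmem i), hcne,
    fun i => hr_map_liftPoly A _ _, i₀, fun h0 => ?_⟩
  have h1 := congrArg (fun Q => Q.coeff m₀) h0
  simp only [Polynomial.coeff_map, Polynomial.coeff_zero] at h1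
  have h2 : (hr_liftPoly A (Polynomial.C c * P i₀) (hmem i₀)).coeff m₀ = 1 := by
    apply Subtype.ext
    rw [hr_coeff_liftPoly, Polynomial.coeff_C_mul, hc, inv_mul_cancel₀ hc₀]
    rfl
  rw [h2, map_one] at h1
  exact one_ne_zero h1

/-- polynomial-linear independence over the constants and `x` -/
def hr_PolyLI {R : Type*} [CommRing R] {r : ℕ} (x : LaurentSeries R)
    (Y : Fin r → LaurentSeries R) : Prop :=
  ∀ Q : Fin r → R[X], ∑ i, hr_ev x (Q i) * Y i = 0 → Q = 0

/-- **H1**: polynomial-linear independence of the reductions lifts -/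
theorem hr_polyLI_lift {r : ℕ} (x₀ : LaurentSeries A) (Y : Fin r → LaurentSeries A)
    (h : hr_PolyLI (coeffMap (IsLocalRing.residue A) x₀)
      (fun i => coeffMap (IsLocalRing.residue A) (Y i))) :
    hr_PolyLI (coeffMap A.subtype x₀) (fun i => coeffMap A.subtype (Y i)) := by
  intro P hsum
  by_contra hP
  obtain ⟨c, Q, hc, hQ, i, hi⟩ := hr_exists_primitive A P hP
  set z : LaurentSeries A := ∑ i, hr_ev x₀ (Q i) * Y i with hz
  have hιz : coeffMap A.subtype z = 0 := by
    rw [hz, map_sum]
    have : ∀ i, coeffMap A.subtype (hr_ev x₀ (Q i) * Y i) =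
        HahnSeries.C c * (hr_ev (coeffMap A.subtype x₀) (P i) * coeffMap A.subtype (Y i)) := by
      intro i
      rw [map_mul, hr_coeffMap_ev, hQ i, map_mul, mul_assoc]
      congr 1
      rw [hr_ev_apply, Polynomial.eval₂_C]
    rw [Finset.sum_congr rfl fun i _ => this i, ← Finset.mul_sum, hsum, mul_zero]
  have hz0 : z = 0 := hr_iotaA_injective A (by rw [hιz, map_zero])
  have hred : ∑ i, hr_ev (coeffMap (IsLocalRing.residue A) x₀)
      ((Q i).map (IsLocalRing.residue A)) * coeffMap (IsLocalRing.residue A) (Y i) = 0 := by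
    have := congrArg (coeffMap (IsLocalRing.residue A)) hz0
    rw [hz, map_sum, map_zero] at this
    rw [← this]
    refine Finset.sum_congr rfl fun i _ => ?_
    rw [map_mul, hr_coeffMap_ev]
  have := h (fun i => (Q i).map (IsLocalRing.residue A)) hred
  exact hi (congrFun this i)

/-- the coercion of `aeval u P`, `u ∈ F ⊂ K((q))` -/
theorem hr_coe_aeval {K : Type*} [Field K] (F : IntermediateField K (LaurentSeries K))
    (u : F) (P : K[X]) :
    ((Polynomial.aeval u P : F) : LaurentSeries K) = hr_ev (u : LaurentSeries K) P := by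
  have h1 : ((Polynomial.aeval u P : F) : LaurentSeries K) = F.val (Polynomial.aeval u P) := rfl
  rw [h1, ← Polynomial.aeval_algHom_apply, hr_ev_apply, Polynomial.aeval_def]
  congr 1
  ext a : 1
  rw [algebraMap_laurentSeries_eq_single, HahnSeries.C_apply]

/-- **V1**: a family of integral elements of `F` with polynomially independent reductions has at
most `[F : L(x₀)]` elements -/
theorem hr_card_le_finrank {r : ℕ} (F : IntermediateField L (LaurentSeries L))
    (x₀ : LaurentSeries A) (hx₀ : coeffMap A.subtype x₀ ∈ F)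
    (Y : Fin r → LaurentSeries A) (hY : ∀ i, coeffMap A.subtype (Y i) ∈ F)
    (h : hr_PolyLI (coeffMap (IsLocalRing.residue A) x₀)
      (fun i => coeffMap (IsLocalRing.residue A) (Y i)))
    [FiniteDimensional L⟮(⟨coeffMap A.subtype x₀, hx₀⟩ : F)⟯ F] :
    r ≤ Module.finrank L⟮(⟨coeffMap A.subtype x₀, hx₀⟩ : F)⟯ F := by
  classical
  set u : F := ⟨coeffMap A.subtype x₀, hx₀⟩ with hu
  have hLI := hr_polyLI_lift A x₀ Y h
  have hli : LinearIndependent L⟮u⟯ (fun i => (⟨coeffMap A.subtype (Y i), hY i⟩ : F)) := by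
    rw [Fintype.linearIndependent_iff]
    intro g hg
    -- write the coefficients as fractions
    have hfrac : ∀ i, ∃ R S : L[X], Polynomial.aeval u S ≠ 0 ∧
        ((g i : L⟮u⟯) : F) * Polynomial.aeval u S = Polynomial.aeval u R := by
      intro i
      obtain ⟨R, S, hRS⟩ := (IntermediateField.mem_adjoin_simple_iff L ((g i : L⟮u⟯) : F)).mp
        (g i).2
      by_cases hS : Polynomial.aeval u S = 0
      · refine ⟨0, 1, by simp, ?_⟩
        rw [hRS, hS, div_zero]
        simp
      · exact ⟨R, S, hS, by rw [hRS, div_mul_cancel₀ _ hS]⟩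
    choose R S hS hRS using hfrac
    set P : Fin r → L[X] := fun i => R i * ∏ l ∈ Finset.univ.erase i, S l with hP
    have hD : ∀ i, Polynomial.aeval u (P i) =
        ((g i : L⟮u⟯) : F) * ∏ l, Polynomial.aeval u (S l) := by
      intro i
      rw [hP, map_mul, map_prod, ← hRS i, mul_assoc,
        Finset.mul_prod_erase Finset.univ (fun l => Polynomial.aeval u (S l)) (Finset.mem_univ i)]
    have hsum : ∑ i, hr_ev (coeffMap A.subtype x₀) (P i) * coeffMap A.subtype (Y i) = 0 := by
      have h1 : ∑ i, Polynomial.aeval u (P i) * (⟨coeffMap A.subtype (Y i), hY i⟩ : F) = 0 := by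
        simp only [hD]
        have h2 : ∀ i, ((g i : L⟮u⟯) : F) * (∏ l, Polynomial.aeval u (S l)) *
            (⟨coeffMap A.subtype (Y i), hY i⟩ : F) =
            (∏ l, Polynomial.aeval u (S l)) * (g i • (⟨coeffMap A.subtype (Y i), hY i⟩ : F)) := by
          intro i
          rw [IntermediateField.smul_def, smul_eq_mul]
          ring
        rw [Finset.sum_congr rfl fun i _ => h2 i, ← Finset.mul_sum, hg, mul_zero]
      have h3 : ((∑ i, Polynomial.aeval u (P i) * (⟨coeffMap A.subtype (Y i), hY i⟩ : F) : F) :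
          LaurentSeries L) = 0 := by rw [h1]; rfl
      rw [← h3]
      push_cast
      refine Finset.sum_congr rfl fun i _ => ?_
      rw [hr_coe_aeval]
    have hP0 := hLI P hsum
    intro i
    have h4 : Polynomial.aeval u (P i) = 0 := by rw [congrFun hP0 i]; simp
    rw [hD i] at h4
    have h5 : (∏ l, Polynomial.aeval u (S l)) ≠ 0 := Finset.prod_ne_zero_iff.mpr fun l _ => hS l
    have h6 : ((g i : L⟮u⟯) : F) = 0 := (mul_eq_zero.mp h4).resolve_right h5
    exact Subtype.ext h6
  have := hli.fintype_card_le_finrank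
  simpa using this

/-! ### the ring generated by the integral generators -/

/-- the ring of integral elements generated by the constants and `G` -/
def hr_RA (G : Set (LaurentSeries A)) : Subring (LaurentSeries A) :=
  Subring.closure (Set.range (HahnSeries.C : A →+* LaurentSeries A) ∪ G)

theorem hr_ι_mem (F : IntermediateField L (LaurentSeries L)) (G : Set (LaurentSeries A))
    (hGF : ∀ g ∈ G, coeffMap A.subtype g ∈ F) {a : LaurentSeries A} (ha : a ∈ hr_RA A G) :
    coeffMap A.subtype a ∈ F := by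
  have hle : hr_RA A G ≤ F.toSubring.comap (coeffMap A.subtype) := by
    rw [hr_RA, Subring.closure_le]
    rintro x (⟨c, rfl⟩ | hx)
    · show coeffMap A.subtype (HahnSeries.C c) ∈ F
      rw [hr_coeffMap_C, HahnSeries.C_apply, ← algebraMap_laurentSeries_eq_single]
      exact F.algebraMap_mem _
    · exact hGF x hx
  exact hle ha

theorem hr_red_mem (Fk : IntermediateField (IsLocalRing.ResidueField A)
      (LaurentSeries (IsLocalRing.ResidueField A))) (G : Set (LaurentSeries A))
    (hGk : ∀ g ∈ G, coeffMap (IsLocalRing.residue A) g ∈ Fk) {a : LaurentSeries A}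
    (ha : a ∈ hr_RA A G) : coeffMap (IsLocalRing.residue A) a ∈ Fk := by
  have hle : hr_RA A G ≤ Fk.toSubring.comap (coeffMap (IsLocalRing.residue A)) := by
    rw [hr_RA, Subring.closure_le]
    rintro x (⟨c, rfl⟩ | hx)
    · show coeffMap (IsLocalRing.residue A) (HahnSeries.C c) ∈ Fk
      rw [hr_coeffMap_C, HahnSeries.C_apply, ← algebraMap_laurentSeries_eq_single]
      exact Fk.algebraMap_mem _
    · exact hGk x hx
  exact hle ha

/-- **R1**: every element of `k(red G)` is a quotient of reductions of integral elements -/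
theorem hr_frac (G : Set (LaurentSeries A))
    {w : LaurentSeries (IsLocalRing.ResidueField A)}
    (hw : w ∈ IntermediateField.adjoin (IsLocalRing.ResidueField A)
      (coeffMap (IsLocalRing.residue A) '' G)) :
    ∃ a ∈ hr_RA A G, ∃ b ∈ hr_RA A G, coeffMap (IsLocalRing.residue A) b ≠ 0 ∧
      w * coeffMap (IsLocalRing.residue A) b = coeffMap (IsLocalRing.residue A) a := by
  have hG : ∀ g ∈ G, g ∈ hr_RA A G := fun g hg => Subring.subset_closure (Or.inr hg)
  have hC : ∀ c : A, (HahnSeries.C c : LaurentSeries A) ∈ hr_RA A G :=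
    fun c => Subring.subset_closure (Or.inl ⟨c, rfl⟩)
  induction hw using IntermediateField.adjoin_induction with
  | mem x hx =>
    obtain ⟨g, hg, rfl⟩ := hx
    exact ⟨g, hG g hg, 1, (hr_RA A G).one_mem, by rw [map_one]; exact one_ne_zero,
      by rw [map_one, mul_one]⟩
  | algebraMap c =>
    obtain ⟨c', rfl⟩ := IsLocalRing.residue_surjective c
    refine ⟨HahnSeries.C c', hC c', 1, (hr_RA A G).one_mem, by rw [map_one]; exact one_ne_zero,
      ?_⟩
    rw [map_one, mul_one, hr_coeffMap_C, HahnSeries.C_apply, algebraMap_laurentSeries_eq_single]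
  | add x y _ _ hx hy =>
    obtain ⟨a₁, ha₁, b₁, hb₁, hb₁0, h₁⟩ := hx
    obtain ⟨a₂, ha₂, b₂, hb₂, hb₂0, h₂⟩ := hy
    refine ⟨a₁ * b₂ + a₂ * b₁, (hr_RA A G).add_mem ((hr_RA A G).mul_mem ha₁ hb₂)
      ((hr_RA A G).mul_mem ha₂ hb₁), b₁ * b₂, (hr_RA A G).mul_mem hb₁ hb₂, ?_, ?_⟩
    · rw [map_mul]; exact mul_ne_zero hb₁0 hb₂0
    · rw [map_mul, map_add, map_mul, map_mul, ← h₁, ← h₂]; ring
  | inv x _ hx =>
    obtain ⟨a, ha, b, hb, hb0, h⟩ := hx
    by_cases hx0 : x = 0
    · refine ⟨0, (hr_RA A G).zero_mem, 1, (hr_RA A G).one_mem,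
        by rw [map_one]; exact one_ne_zero, ?_⟩
      rw [hx0, inv_zero, zero_mul, map_zero]
    · have ha0 : coeffMap (IsLocalRing.residue A) a ≠ 0 := by
        rw [← h]; exact mul_ne_zero hx0 hb0
      refine ⟨b, hb, a, ha, ha0, ?_⟩
      rw [← h, ← mul_assoc, inv_mul_cancel₀ hx0, one_mul]
  | mul x y _ _ hx hy =>
    obtain ⟨a₁, ha₁, b₁, hb₁, hb₁0, h₁⟩ := hx
    obtain ⟨a₂, ha₂, b₂, hb₂, hb₂0, h₂⟩ := hy
    refine ⟨a₁ * a₂, (hr_RA A G).mul_mem ha₁ ha₂, b₁ * b₂, (hr_RA A G).mul_mem hb₁ hb₂, ?_, ?_⟩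
    · rw [map_mul]; exact mul_ne_zero hb₁0 hb₂0
    · rw [map_mul, map_mul, ← h₁, ← h₂]; ring

theorem hr_ev_mem {K : Type*} [Field K] (F : IntermediateField K (LaurentSeries K))
    {x : LaurentSeries K} (hx : x ∈ F) (P : K[X]) : hr_ev x P ∈ F := by
  have := hr_coe_aeval F ⟨x, hx⟩ P
  rw [← this]
  exact (Polynomial.aeval (⟨x, hx⟩ : F) P).2

theorem hr_ev_injective {K : Type*} [Field K] {x : LaurentSeries K} (hx : x.order < 0) :
    Function.Injective (hr_ev x) :=
  Fermat.Agent.S28lib.coreEv_injective x hx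

/-- **the abstract `hred`**: degree preservation implies that reductions of integral elements
of `F` lie in `Fk`. -/
theorem hr_hred (F : IntermediateField L (LaurentSeries L))
    (Fk : IntermediateField (IsLocalRing.ResidueField A)
      (LaurentSeries (IsLocalRing.ResidueField A)))
    (G : Set (LaurentSeries A)) (hGF : ∀ g ∈ G, coeffMap A.subtype g ∈ F)
    (hFk : Fk = IntermediateField.adjoin (IsLocalRing.ResidueField A)
      (coeffMap (IsLocalRing.residue A) '' G))
    (x₀ : LaurentSeries A) (hx₀ : coeffMap A.subtype x₀ ∈ F)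
    (hx₀k : coeffMap (IsLocalRing.residue A) x₀ ∈ Fk)
    (hord : (coeffMap (IsLocalRing.residue A) x₀).order < 0)
    [FiniteDimensional L⟮(⟨coeffMap A.subtype x₀, hx₀⟩ : F)⟯ F]
    (hdeg : Module.finrank L⟮(⟨coeffMap A.subtype x₀, hx₀⟩ : F)⟯ F ≤
      Module.finrank (IsLocalRing.ResidueField A)⟮(⟨coeffMap (IsLocalRing.residue A) x₀, hx₀k⟩ :
        Fk)⟯ Fk)
    (y : LaurentSeries A) (hy : coeffMap A.subtype y ∈ F) :
    coeffMap (IsLocalRing.residue A) y ∈ Fk := by
  classical
  by_contra hyk
  set ub : Fk := ⟨coeffMap (IsLocalRing.residue A) x₀, hx₀k⟩ with hub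
  set n' := Module.finrank (IsLocalRing.ResidueField A)⟮ub⟯ Fk with hn'
  have hpos : 0 < Module.finrank L⟮(⟨coeffMap A.subtype x₀, hx₀⟩ : F)⟯ F := Module.finrank_pos
  have hn'pos : 0 < n' := lt_of_lt_of_le hpos hdeg
  have hfinK : Module.Finite (IsLocalRing.ResidueField A)⟮ub⟯ Fk :=
    Module.finite_of_finrank_pos hn'pos
  let b := Module.finBasis (IsLocalRing.ResidueField A)⟮ub⟯ Fk
  have hGk : ∀ g ∈ G, coeffMap (IsLocalRing.residue A) g ∈ Fk := fun g hg => by
    rw [hFk]; exact IntermediateField.subset_adjoin _ _ ⟨g, hg, rfl⟩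
  have hfr : ∀ i, ∃ a ∈ hr_RA A G, ∃ b' ∈ hr_RA A G, coeffMap (IsLocalRing.residue A) b' ≠ 0 ∧
      ((b i : Fk) : LaurentSeries (IsLocalRing.ResidueField A)) *
        coeffMap (IsLocalRing.residue A) b' = coeffMap (IsLocalRing.residue A) a := fun i =>
    hr_frac A G ((le_of_eq hFk) (b i).2)
  choose aa haa bb hbb hbb0 hab using hfr
  set B : LaurentSeries A := ∏ l, bb l with hB
  have hBmem : B ∈ hr_RA A G := Subring.prod_mem _ fun l _ => hbb l
  have hB0 : coeffMap (IsLocalRing.residue A) B ≠ 0 := by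
    rw [hB, map_prod]; exact Finset.prod_ne_zero_iff.mpr fun l _ => hbb0 l
  set Y₀ : Fin n' → LaurentSeries A := fun i => aa i * ∏ l ∈ Finset.univ.erase i, bb l with hY₀
  have hY₀mem : ∀ i, Y₀ i ∈ hr_RA A G := fun i =>
    (hr_RA A G).mul_mem (haa i) (Subring.prod_mem _ fun l _ => hbb l)
  have hY₀red : ∀ i, coeffMap (IsLocalRing.residue A) (Y₀ i) =
      ((b i : Fk) : LaurentSeries (IsLocalRing.ResidueField A)) *
        coeffMap (IsLocalRing.residue A) B := by
    intro i
    rw [hY₀, map_mul, ← hab i, hB, mul_assoc, ← map_mul,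
      Finset.mul_prod_erase Finset.univ bb (Finset.mem_univ i)]
  set Y : Fin (n' + 1) → LaurentSeries A := Fin.snoc Y₀ (y * B) with hY
  have hYF : ∀ j, coeffMap A.subtype (Y j) ∈ F := by
    intro j
    refine Fin.lastCases ?_ (fun i => ?_) j
    · rw [hY, Fin.snoc_last, map_mul]
      exact F.mul_mem hy (hr_ι_mem A F G hGF hBmem)
    · rw [hY, Fin.snoc_castSucc]
      exact hr_ι_mem A F G hGF (hY₀mem i)
  have hLI : hr_PolyLI (coeffMap (IsLocalRing.residue A) x₀)
      (fun j => coeffMap (IsLocalRing.residue A) (Y j)) := by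
    intro Q hsum
    rw [Fin.sum_univ_castSucc] at hsum
    simp only [hY, Fin.snoc_last, Fin.snoc_castSucc, hY₀red, map_mul] at hsum
    have hsum' : (∑ i : Fin n', hr_ev (coeffMap (IsLocalRing.residue A) x₀) (Q i.castSucc) *
          ((b i : Fk) : LaurentSeries (IsLocalRing.ResidueField A)) +
        hr_ev (coeffMap (IsLocalRing.residue A) x₀) (Q (Fin.last n')) *
          coeffMap (IsLocalRing.residue A) y) * coeffMap (IsLocalRing.residue A) B = 0 := by
      rw [← hsum, add_mul, Finset.sum_mul]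
      congr 1
      · refine Finset.sum_congr rfl fun i _ => ?_
        ring
      · ring
    have hsum2 := (mul_eq_zero.mp hsum').resolve_right hB0
    have hlast : Q (Fin.last n') = 0 := by
      by_contra hQ
      have hev : hr_ev (coeffMap (IsLocalRing.residue A) x₀) (Q (Fin.last n')) ≠ 0 := by
        intro h0
        exact hQ (hr_ev_injective hord (by rw [h0, map_zero]))
      apply hyk
      have h1 : coeffMap (IsLocalRing.residue A) y =
          -(∑ i : Fin n', hr_ev (coeffMap (IsLocalRing.residue A) x₀) (Q i.castSucc) *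
            ((b i : Fk) : LaurentSeries (IsLocalRing.ResidueField A))) *
          (hr_ev (coeffMap (IsLocalRing.residue A) x₀) (Q (Fin.last n')))⁻¹ := by
        field_simp
        linear_combination hsum2
      rw [h1]
      refine Fk.mul_mem (Fk.neg_mem (Fk.sum_mem fun i _ => Fk.mul_mem (hr_ev_mem Fk hx₀k _)
        (b i).2)) (Fk.inv_mem (hr_ev_mem Fk hx₀k _))
    rw [hlast, map_zero, zero_mul, add_zero] at hsum2
    -- a relation in `Fk` over `k(ub)`
    have hmem : ∀ P : (IsLocalRing.ResidueField A)[X],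
        Polynomial.aeval ub P ∈ (IsLocalRing.ResidueField A)⟮ub⟯ := fun P =>
      IntermediateField.algebra_adjoin_le_adjoin _ _ (Polynomial.aeval_mem_adjoin_singleton _ _)
    have hrel : ∑ i : Fin n', (⟨Polynomial.aeval ub (Q i.castSucc), hmem _⟩ :
        (IsLocalRing.ResidueField A)⟮ub⟯) • b i = 0 := by
      apply Subtype.ext
      rw [show ((0 : Fk) : LaurentSeries (IsLocalRing.ResidueField A)) = 0 from rfl, ← hsum2]
      push_cast
      refine Finset.sum_congr rfl fun i _ => ?_
      rw [IntermediateField.smul_def, smul_eq_mul]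
      push_cast
      rw [hr_coe_aeval]
    have hzero := Fintype.linearIndependent_iff.mp b.linearIndependent _ hrel
    have hall : ∀ j, Q j = 0 := by
      intro j
      refine Fin.lastCases ?_ (fun i => ?_) j
      · exact hlast
      · have h1 := hzero i
        have h2 : Polynomial.aeval ub (Q i.castSucc) = 0 := congrArg Subtype.val h1
        have h3 : hr_ev (coeffMap (IsLocalRing.residue A) x₀) (Q i.castSucc) = 0 := by
          rw [← hr_coe_aeval Fk ub, h2]; rfl
        exact hr_ev_injective hord (by rw [h3, map_zero])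
    exact funext hall
  have hcard := hr_card_le_finrank A F x₀ hx₀ Y hYF hLI
  omega

end Abstract

end Fermat.Agent.GoodRed

end
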