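/-
Item 75b GOODRED, piece M1d part 2 (helper5): `hred` for the modular function fields from the
degree preservation (★):  if `[F_N : ℚ̄(j)] ≤ [F_{N,k} : k(j̄)]` then the reduction of every
integral `q`-expansion in `F_N` lies in `F_{N,k}`.
-/
import Mathlib
import Fermat.Agent.GoodRed.HredAlg
import Fermat.Agent.GM.Defs
import Fermat.Agent.S24lib.Defs

set_option autoImplicit false

noncomputable section

namespace Fermat.Agent.GoodRed

open ModularCurve IntermediateField Polynomial Fermat.Agent.S24lib Fermat.Agent.GM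

/-- `K(u⁻¹) = K(u)` -/
theorem hr_adjoin_inv {K E : Type*} [Field K] [Field E] [Algebra K E] (u : E) :
    K⟮u⁻¹⟯ = K⟮u⟯ := by
  apply le_antisymm
  · rw [IntermediateField.adjoin_simple_le_iff]
    exact inv_mem (IntermediateField.mem_adjoin_simple_self K u)
  · rw [IntermediateField.adjoin_simple_le_iff]
    have := inv_mem (IntermediateField.mem_adjoin_simple_self K u⁻¹)
    rwa [inv_inv] at this

/-- the integral generators `j(q^d)`, `d ∣ N`, as series over a ring -/
def hr_gens (R : Type*) [CommRing R] (N : ℕ) : Set (LaurentSeries R) :=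
  {x | ∃ (d : ℕ) (_ : NeZero d), d ∣ N ∧ x = qExpand R d (jqModC R)}

theorem hr_coeffMap_gen {R S : Type*} [CommRing R] [CommRing S] (f : R →+* S) (d : ℕ) [NeZero d] :
    coeffMap f (qExpand R d (jqModC R)) = qExpand S d (jqModC S) := by
  rw [coeffMap_qExpand, coeffMap_jqModC]

theorem hr_image_gens {R : Type*} [CommRing R] {K : Type*} [Field K] (f : R →+* K) (N : ℕ) :
    coeffMap f '' hr_gens R N = divisorExpansionsC K N := by
  ext x
  constructor
  · rintro ⟨g, ⟨d, hd, hdN, rfl⟩, rfl⟩
    exact ⟨d, hd, hdN, hr_coeffMap_gen f d⟩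
  · rintro ⟨d, hd, hdN, rfl⟩
    exact ⟨qExpand R d (jqModC R), ⟨d, hd, hdN, rfl⟩, hr_coeffMap_gen f d⟩

theorem hr_order_jqModC (K : Type*) [Field K] : (jqModC K).order < 0 := by
  have h1 : (jqModC K).coeff (-1 : ℤ) ≠ 0 := by
    rw [coeff_jqModC_neg_one]; exact one_ne_zero
  have := HahnSeries.order_le_of_coeff_ne_zero h1
  omega

theorem hr_gen_mem_bar (N : ℕ) [NeZero N] (A : ValuationSubring Kbar) :
    ∀ g ∈ hr_gens A N, coeffMap A.subtype g ∈ modularFunctionFieldBar N := by
  rintro g ⟨d, hd, hdN, rfl⟩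
  rw [hr_coeffMap_gen]
  have h := coeffEmb_mem_laurentBaseChange Kbar (jqd_mem_full N hdN)
  have h2 : coeffEmb Kbar (qExpand ℚ d jq) = qExpand Kbar d (jqModC Kbar) := by
    rw [← jqModC_rat]
    exact hr_coeffMap_gen (algebraMap ℚ Kbar) d
  rwa [h2] at h

/-- **M1d**: degree preservation (★) implies `hred`: the reduction of an integral `q`-expansion
in `F_N` lies in `F_{N,k}`. -/
theorem hred_of_finrank (N : ℕ) [NeZero N] (A : ValuationSubring Kbar)
    (hpos : 0 < Module.finrank Kbar⟮(jF N)⁻¹⟯ (FF N))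
    (hdeg : Module.finrank Kbar⟮(jF N)⁻¹⟯ (FF N) ≤
      Module.finrank (IsLocalRing.ResidueField A)⟮(jk (IsLocalRing.ResidueField A) N)⁻¹⟯
        (Fk (IsLocalRing.ResidueField A) N)) :
    ∀ y : LaurentSeries A, coeffMap A.subtype y ∈ modularFunctionFieldBar N →
      coeffMap (IsLocalRing.residue A) y ∈
        modularFunctionFieldFullC (IsLocalRing.ResidueField A) N := by
  intro y hy
  have hx₀ : coeffMap A.subtype (jqModC A) ∈ modularFunctionFieldBar N := by
    have := hr_gen_mem_bar N A (qExpand A 1 (jqModC A)) ⟨1, inferInstance, one_dvd N, rfl⟩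
    rwa [qExpand_one_apply] at this
  have hx₀k : coeffMap (IsLocalRing.residue A) (jqModC A) ∈
      modularFunctionFieldFullC (IsLocalRing.ResidueField A) N := by
    rw [coeffMap_jqModC]
    exact jqModC_mem_full _ N
  have hjF : jF N = ⟨coeffMap A.subtype (jqModC A), hx₀⟩ := by
    apply Subtype.ext
    show coeffEmb Kbar jq = coeffMap A.subtype (jqModC A)
    rw [coeffMap_jqModC, ← jqModC_rat]
    exact coeffMap_jqModC (algebraMap ℚ Kbar)
  have hjk : jk (IsLocalRing.ResidueField A) N =
      ⟨coeffMap (IsLocalRing.residue A) (jqModC A), hx₀k⟩ := by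
    apply Subtype.ext
    show jqModC (IsLocalRing.ResidueField A) = coeffMap (IsLocalRing.residue A) (jqModC A)
    rw [coeffMap_jqModC]
  rw [hr_adjoin_inv] at hpos hdeg
  rw [hr_adjoin_inv] at hdeg
  rw [hjF] at hpos hdeg
  rw [hjk] at hdeg
  have hfin : FiniteDimensional
      Kbar⟮(⟨coeffMap A.subtype (jqModC A), hx₀⟩ : ↥(modularFunctionFieldBar N))⟯
      ↥(modularFunctionFieldBar N) := Module.finite_of_finrank_pos hpos
  have hord : (coeffMap (IsLocalRing.residue A) (jqModC A)).order < 0 := by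
    rw [coeffMap_jqModC]
    exact hr_order_jqModC _
  have hFk : modularFunctionFieldFullC (IsLocalRing.ResidueField A) N =
      IntermediateField.adjoin (IsLocalRing.ResidueField A)
        (coeffMap (IsLocalRing.residue A) '' hr_gens A N) := by
    rw [hr_image_gens]
    rfl
  exact hr_hred A (modularFunctionFieldBar N)
    (modularFunctionFieldFullC (IsLocalRing.ResidueField A) N) (hr_gens A N)
    (hr_gen_mem_bar N A) hFk (jqModC A) hx₀ hx₀k hord hdeg y hy

end Fermat.Agent.GoodRed

end
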