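/-
Item 75b / M2 (helper12), part 1: the function field `F_{N,k} = k(j(q^d) : d ∣ N) ⊆ k((q))` over an
arbitrary field `k` is a function field of one variable: `j` is transcendental and every generator
`j(q^d)` is algebraic over `k(j)` (reduction of the characteristic-zero modular relation, which is
made primitive over `ℤ` first).  Hence `F_{N,k} / k(j)` is finite.
-/
import Mathlib
import Fermat.Prelude.Def_ModularCurve_X0ModL
import Fermat.Agent.S28lib.SymRat

set_option autoImplicit false

noncomputable section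

namespace Fermat.Agent.GoodRed

open scoped MatrixGroups
open ModularCurve ModularCurve.IgusaScheme HahnSeries IntermediateField Fermat.Agent.S28lib

/-! ### Pairs and algebraic dependence -/

section Gen

/-- the pair `(f, j)` indexed by `Option Unit` -/
def mrPair {A : Type*} (f j : A) : Option Unit → A := fun o => o.elim f (fun _ => j)

@[simp] lemma mrPair_none {A : Type*} (f j : A) : mrPair f j none = f := rfl

@[simp] lemma mrPair_some {A : Type*} (f j : A) (u : Unit) : mrPair f j (some u) = j := rfl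

lemma mrPair_map {A B : Type*} (φ : A → B) (f j : A) :
    φ ∘ mrPair f j = mrPair (φ f) (φ j) := by
  funext o
  cases o <;> rfl

lemma mr_range_const {A : Type*} (j : A) : Set.range (fun _ : Unit => j) = {j} := by
  ext y
  simp [eq_comm]

variable {K A : Type*} [Field K] [Field A] [Algebra K A]

theorem mr_algInd_iff (f j : A) :
    AlgebraicIndependent K (mrPair f j) ↔
      Transcendental K j ∧ Transcendental (Algebra.adjoin K ({j} : Set A)) f := by
  have h := AlgebraicIndependent.option_iff (R := K) (x := fun _ : Unit => j) (a := f)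
  have h2 : AlgebraicIndependent K (fun _ : Unit => j) ↔ Transcendental K j :=
    algebraicIndependent_unique_type_iff (x := fun _ : Unit => j)
  rw [mr_range_const, h2] at h
  exact h

theorem mr_not_algInd_of_isAlgebraic {f j : A} (halg : IsAlgebraic K⟮j⟯ f) :
    ¬ AlgebraicIndependent K (mrPair f j) := by
  intro h
  exact ((mr_algInd_iff f j).1 h).2 (isAlgebraic_adjoin_iff.1 halg)

theorem mr_isAlgebraic_of_not_algInd {f j : A} (hj : Transcendental K j)
    (h : ¬ AlgebraicIndependent K (mrPair f j)) : IsAlgebraic K⟮j⟯ f := by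
  by_contra hna
  apply h
  rw [mr_algInd_iff]
  exact ⟨hj, fun halg => hna (isAlgebraic_adjoin_iff.2 halg)⟩

end Gen

/-! ### `j` is transcendental -/

section Trans

variable (k : Type*) [Field k]

/-- `j` is transcendental over the constants, in every characteristic. -/
theorem mr_transcendental_jqModC : Transcendental k (jqModC k) := by
  rw [transcendental_iff]
  intro p hp
  by_contra hne
  have h := congrArg (fun f : LaurentSeries k => f.coeff (-(p.natDegree : ℤ))) hp
  simp only [HahnSeries.coeff_zero] at h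
  rw [Polynomial.aeval_def, Polynomial.eval₂_eq_sum_range, HahnSeries.coeff_sum,
    Finset.sum_range_succ] at h
  simp only [algebraMap_laurentSeries_eq_single, HahnSeries.coeff_single_zero_mul] at h
  rw [Finset.sum_eq_zero, zero_add, coeff_jqModC_pow_self, mul_one] at h
  · exact hne (Polynomial.leadingCoeff_eq_zero.1 h)
  · intro i hi
    rw [coeff_jqModC_pow_of_lt k (b := i), mul_zero]
    have := Finset.mem_range.1 hi
    omega

end Trans

/-! ### The modular relation in characteristic zero -/

/-- Every element of the function field over `ℚ` is algebraic over `ℚ(j)`. -/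
theorem mr_isAlgebraic_rat (d : ℕ) [NeZero d] (f : ↥(modularFunctionFieldFull d)) :
    IsAlgebraic ↥ℚ⟮jFull d⟯ f := by
  classical
  obtain ⟨P, hPm, hPc, hP⟩ := sym_rat d f
  have hroot : Polynomial.aeval f P = 0 := by
    set q₀ : SL(2, ℤ) ⧸ CongruenceSubgroup.Gamma0 d :=
      ((1 : SL(2, ℤ)) : SL(2, ℤ) ⧸ CongruenceSubgroup.Gamma0 d) with hq₀
    apply (sig d q₀).injective
    rw [map_zero, Polynomial.aeval_def, Polynomial.hom_eval₂, Algebra.algebraMap_self,
      RingHom.comp_id, ← Polynomial.eval_map, hP q₀, Polynomial.eval_prod]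
    apply Finset.prod_eq_zero (Finset.mem_univ q₀)
    rw [Polynomial.eval_sub, Polynomial.eval_X, Polynomial.eval_C, sub_self]
  have hlift : P ∈ Polynomial.lifts (algebraMap ↥ℚ⟮jFull d⟯ ↥(modularFunctionFieldFull d)) := by
    rw [Polynomial.lifts_iff_coeff_lifts]
    intro n
    exact ⟨⟨P.coeff n, hPc n⟩, rfl⟩
  obtain ⟨Q, hQ, -, hQm⟩ := Polynomial.lifts_and_degree_eq_and_monic hlift hPm
  have hint : IsIntegral ↥ℚ⟮jFull d⟯ f := by
    refine ⟨Q, hQm, ?_⟩
    rw [← Polynomial.aeval_def, ← Polynomial.aeval_map_algebraMap ↥(modularFunctionFieldFull d),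
      hQ]
    exact hroot
  exact hint.isAlgebraic

/-- In characteristic zero `j(q^d)` and `j` are algebraically dependent. -/
theorem mr_not_algInd_rat (d : ℕ) [NeZero d] :
    ¬ AlgebraicIndependent ℚ (mrPair (qExpand ℚ d (jqModC ℚ)) (jqModC ℚ)) := by
  intro hAI
  have h1 := mr_not_algInd_of_isAlgebraic (mr_isAlgebraic_rat d
    (⟨qExpand ℚ d jq, jqd_mem_full d dvd_rfl⟩ : ↥(modularFunctionFieldFull d)))
  apply h1
  apply AlgebraicIndependent.of_comp
    (SubringClass.subtype (modularFunctionFieldFull d)).toRatAlgHom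
  rw [mrPair_map]
  exact hAI

/-! ### The relation over `ℤ` -/

theorem mr_coeffMap_injective {R S : Type*} [CommRing R] [CommRing S] (f : R →+* S)
    (hf : Function.Injective f) : Function.Injective (coeffMap f) := by
  intro x y h
  ext n
  apply hf
  have := congrArg (fun z : LaurentSeries S => z.coeff n) h
  simpa using this

theorem mr_coeffMap_pair {R S : Type*} [CommRing R] [CommRing S] (f : R →+* S) (d : ℕ)
    [NeZero d] : mrPair (coeffMap f (qExpand R d (jqModC R))) (coeffMap f (jqModC R)) =
      mrPair (qExpand S d (jqModC S)) (jqModC S) := by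
  rw [coeffMap_qExpand, coeffMap_jqModC]

/-- a ring homomorphism as a `ℤ`-algebra homomorphism, for arbitrary `ℤ`-algebra instances -/
def mrIntAlgHom {A B : Type*} [CommRing A] [CommRing B] [Algebra ℤ A] [Algebra ℤ B]
    (φ : A →+* B) : A →ₐ[ℤ] B :=
  { φ with
    commutes' := fun r => by
      show φ (algebraMap ℤ A r) = algebraMap ℤ B r
      rw [eq_intCast (algebraMap ℤ A) r, eq_intCast (algebraMap ℤ B) r, map_intCast] }

@[simp] lemma mrIntAlgHom_apply {A B : Type*} [CommRing A] [CommRing B] [Algebra ℤ A]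
    [Algebra ℤ B] (φ : A →+* B) (a : A) : mrIntAlgHom φ a = φ a := rfl

/-- `j(q^d)` and `j` are algebraically dependent over `ℤ`. -/
theorem mr_not_algInd_int (d : ℕ) [NeZero d] :
    ¬ AlgebraicIndependent ℤ (mrPair (qExpand ℤ d (jqModC ℤ)) (jqModC ℤ)) := by
  intro hAI
  have hinj : Function.Injective (mrIntAlgHom (coeffMap (Int.castRingHom ℚ))) :=
    mr_coeffMap_injective _ (RingHom.injective_int (Int.castRingHom ℚ))
  have h1 := hAI.map' hinj
  rw [mrPair_map] at h1
  have h2 : mrPair (mrIntAlgHom (coeffMap (Int.castRingHom ℚ)) (qExpand ℤ d (jqModC ℤ)))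
      (mrIntAlgHom (coeffMap (Int.castRingHom ℚ)) (jqModC ℤ)) =
      mrPair (qExpand ℚ d (jqModC ℚ)) (jqModC ℚ) := mr_coeffMap_pair _ d
  rw [h2] at h1
  have : @IsScalarTower ℤ ℚ (LaurentSeries ℚ) Algebra.toSMul Algebra.toSMul Algebra.toSMul :=
    IsScalarTower.of_algebraMap_eq (fun r => by
      rw [eq_intCast (algebraMap ℤ ℚ) r, eq_intCast (algebraMap ℤ (LaurentSeries ℚ)) r,
        map_intCast])
  have : Algebra.IsAlgebraic ℤ ℚ := IsLocalization.isAlgebraic (S := ℚ) (nonZeroDivisors ℤ)
  exact mr_not_algInd_rat d (h1.extendScalars ℚ)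

/-! ### Reduction of the relation -/

theorem mr_intCast_laurent_ne_zero {n : ℤ} (hn : n ≠ 0) : ((n : ℤ) : LaurentSeries ℤ) ≠ 0 := by
  intro h
  have h1 : (HahnSeries.C (n : ℤ) : LaurentSeries ℤ) = ((n : ℤ) : LaurentSeries ℤ) :=
    map_intCast (HahnSeries.C : ℤ →+* LaurentSeries ℤ) n
  rw [h, ← map_zero (HahnSeries.C : ℤ →+* LaurentSeries ℤ)] at h1
  exact hn (HahnSeries.C_injective h1)

/-- There is a polynomial relation between `j(q^d)` and `j` over `ℤ` which does not vanish
identically over the field `k`. -/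
theorem mr_exists_rel (k : Type*) [Field k] (d : ℕ) [NeZero d] :
    ∃ P : MvPolynomial (Option Unit) ℤ,
      MvPolynomial.eval₂ (Int.castRingHom (LaurentSeries ℤ))
        (mrPair (qExpand ℤ d (jqModC ℤ)) (jqModC ℤ)) P = 0 ∧
      MvPolynomial.map (Int.castRingHom k) P ≠ 0 := by
  classical
  have h0 := mr_not_algInd_int d
  rw [algebraicIndependent_iff] at h0
  push Not at h0
  obtain ⟨P, hP0, hPne⟩ := h0
  have hP : MvPolynomial.eval₂ (Int.castRingHom (LaurentSeries ℤ))
      (mrPair (qExpand ℤ d (jqModC ℤ)) (jqModC ℤ)) P = 0 := by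
    rw [← hP0, MvPolynomial.aeval_def]
    congr 1
    exact RingHom.ext_int _ _
  obtain ⟨p, hp⟩ := CharP.exists k
  rcases CharP.char_is_prime_or_zero k p with hprime | hzero
  · -- positive characteristic: strip the powers of `p`
    have hnu : ¬ IsUnit (MvPolynomial.C (p : ℤ) : MvPolynomial (Option Unit) ℤ) := by
      intro h
      have h1 := h.map (MvPolynomial.constantCoeff (R := ℤ) (σ := Option Unit))
      rw [MvPolynomial.constantCoeff_C, Int.isUnit_iff] at h1
      have := hprime.two_le
      omega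
    obtain ⟨n, a, hna, hPa⟩ := WfDvdMonoid.max_power_factor' hPne hnu
    refine ⟨a, ?_, ?_⟩
    · rw [hPa, MvPolynomial.eval₂_mul, MvPolynomial.eval₂_pow, MvPolynomial.eval₂_C] at hP
      rcases mul_eq_zero.1 hP with h | h
      · exfalso
        have hp0 : ((p : ℤ)) ≠ 0 := by exact_mod_cast hprime.ne_zero
        exact mr_intCast_laurent_ne_zero hp0 (eq_zero_of_pow_eq_zero h)
      · exact h
    · intro hmap
      apply hna
      rw [MvPolynomial.C_dvd_iff_map_hom_eq_zero (Int.castRingHom k) (p : ℤ)
        (fun r => by rw [eq_intCast]; exact CharP.intCast_eq_zero_iff k p r)]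
      exact hmap
  · -- characteristic zero
    subst hzero
    have : CharZero k := CharP.charP_to_charZero k
    refine ⟨P, hP, ?_⟩
    intro hmap
    apply hPne
    apply MvPolynomial.map_injective (Int.castRingHom k) (RingHom.injective_int _)
    rw [hmap, map_zero]

/-! ### The function field over an arbitrary field -/

section AnyField

variable (k : Type*) [Field k]

/-- `j(q^d)` and `j` are algebraically dependent over any field. -/
theorem mr_not_algInd (d : ℕ) [NeZero d] :
    ¬ AlgebraicIndependent k (mrPair (qExpand k d (jqModC k)) (jqModC k)) := by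
  intro hAI
  obtain ⟨P, hP, hPk⟩ := mr_exists_rel k d
  apply hPk
  apply hAI.eq_zero_of_aeval_eq_zero
  rw [MvPolynomial.aeval_def, MvPolynomial.eval₂_map]
  have h1 := congrArg (coeffMap (Int.castRingHom k)) hP
  rw [map_zero, MvPolynomial.eval₂_comp_left (coeffMap (Int.castRingHom k)), mrPair_map,
    mr_coeffMap_pair] at h1
  rw [← h1]
  congr 1
  exact RingHom.ext_int _ _

/-- `j(q^d)` is algebraic over `k(j)` (inside `k((q))`). -/
theorem mr_isAlgebraic_jd (d : ℕ) [NeZero d] :
    IsAlgebraic k⟮jqModC k⟯ (qExpand k d (jqModC k)) :=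
  mr_isAlgebraic_of_not_algInd (mr_transcendental_jqModC k) (mr_not_algInd k d)

variable (N : ℕ)

/-- `j` as an element of `F_{N,k}`. -/
def jbarC : ↥(modularFunctionFieldFullC k N) := ⟨jqModC k, jqModC_mem_full k N⟩

@[simp] lemma coe_jbarC : ((jbarC k N : ↥(modularFunctionFieldFullC k N)) : LaurentSeries k) =
    jqModC k := rfl

/-- `j(q^d)` as an element of `F_{N,k}`, for `d ∣ N`. -/
def jdbarC (d : ℕ) [NeZero d] (hd : d ∣ N) : ↥(modularFunctionFieldFullC k N) :=
  ⟨qExpand k d (jqModC k), jqModCd_mem_full k N hd⟩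

@[simp] lemma coe_jdbarC (d : ℕ) [NeZero d] (hd : d ∣ N) :
    ((jdbarC k N d hd : ↥(modularFunctionFieldFullC k N)) : LaurentSeries k) =
      qExpand k d (jqModC k) := rfl

/-- `jbar` is transcendental over `k`. -/
theorem mr_transcendental_jbarC : Transcendental k (jbarC k N) := by
  intro h
  exact mr_transcendental_jqModC k (IntermediateField.isAlgebraic_iff.1 h)

/-- the generators are algebraic over `k(jbar)` -/
theorem mr_isAlgebraic_jdbarC (d : ℕ) [NeZero d] (hd : d ∣ N) :
    IsAlgebraic k⟮jbarC k N⟯ (jdbarC k N d hd) := by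
  apply mr_isAlgebraic_of_not_algInd (mr_transcendental_jbarC k N)
  intro hAI
  apply mr_not_algInd k d
  have h1 := hAI.map' (f := (modularFunctionFieldFullC k N).val) Subtype.val_injective
  rw [mrPair_map] at h1
  exact h1

end AnyField

/-! ### Finiteness of `F_{N,k} / k(jbar)` -/

section Finite

variable (k : Type*) [Field k] (N : ℕ) [NeZero N]

theorem mr_finite_divisorExpansionsC : (divisorExpansionsC k N).Finite := by
  classical
  refine Set.Finite.subset ((N.divisors : Set ℕ).toFinite.image
    (fun d : ℕ => if h : d = 0 then (0 : LaurentSeries k) else @qExpand k _ d ⟨h⟩ (jqModC k))) ?_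
  rintro x ⟨d, hne, hd, rfl⟩
  refine ⟨d, ?_, ?_⟩
  · simp [Nat.mem_divisors, hd, NeZero.ne N]
  · simp only [dif_neg (NeZero.ne d)]

/-- the generators `j(q^d)`, `d ∣ N`, as a subset of `F_{N,k}` -/
def mrGens : Set ↥(modularFunctionFieldFullC k N) :=
  {y | (y : LaurentSeries k) ∈ divisorExpansionsC k N}

theorem mr_finite_gens : (mrGens k N).Finite :=
  (mr_finite_divisorExpansionsC k N).preimage Subtype.val_injective.injOn

omit [NeZero N] in
theorem mr_isIntegral_of_mem_gens {y : ↥(modularFunctionFieldFullC k N)}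
    (hy : y ∈ mrGens k N) : IsIntegral k⟮jbarC k N⟯ y := by
  obtain ⟨d, hne, hd, hyd⟩ := hy
  have : y = jdbarC k N d hd := Subtype.ext hyd
  rw [this]
  exact (mr_isAlgebraic_jdbarC k N d hd).isIntegral

omit [NeZero N] in
theorem mr_exists_mem_adjoin_gens (x : LaurentSeries k)
    (hx : x ∈ IntermediateField.adjoin k (divisorExpansionsC k N)) :
    ∃ y : ↥(modularFunctionFieldFullC k N),
      y ∈ IntermediateField.adjoin k⟮jbarC k N⟯ (mrGens k N) ∧ (y : LaurentSeries k) = x := by
  induction hx using IntermediateField.adjoin_induction with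
  | mem t ht =>
    exact ⟨⟨t, IntermediateField.subset_adjoin k _ ht⟩,
      IntermediateField.subset_adjoin _ _ ht, rfl⟩
  | algebraMap c =>
    have hc : algebraMap k ↥(modularFunctionFieldFullC k N) c ∈ k⟮jbarC k N⟯ :=
      (k⟮jbarC k N⟯).algebraMap_mem c
    exact ⟨algebraMap k ↥(modularFunctionFieldFullC k N) c,
      (IntermediateField.adjoin k⟮jbarC k N⟯ (mrGens k N)).algebraMap_mem ⟨_, hc⟩, rfl⟩
  | add x y hx hy ihx ihy =>
    obtain ⟨a, ha, rfl⟩ := ihx
    obtain ⟨b, hb, rfl⟩ := ihy
    exact ⟨a + b, add_mem ha hb, rfl⟩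
  | inv x hx ihx =>
    obtain ⟨a, ha, rfl⟩ := ihx
    exact ⟨a⁻¹, inv_mem ha, rfl⟩
  | mul x y hx hy ihx ihy =>
    obtain ⟨a, ha, rfl⟩ := ihx
    obtain ⟨b, hb, rfl⟩ := ihy
    exact ⟨a * b, mul_mem ha hb, rfl⟩

theorem mr_adjoin_gens_eq_top :
    IntermediateField.adjoin k⟮jbarC k N⟯ (mrGens k N) = ⊤ := by
  rw [eq_top_iff]
  rintro ⟨x, hx⟩ -
  obtain ⟨y, hy, hyx⟩ := mr_exists_mem_adjoin_gens k N x hx
  have : y = ⟨x, hx⟩ := Subtype.ext hyx
  rw [← this]
  exact hy

/-- `F_{N,k}` is finite over `k(jbar)`, for every field `k`. -/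
theorem mr_finiteDimensional : FiniteDimensional k⟮jbarC k N⟯ ↥(modularFunctionFieldFullC k N) := by
  have : Finite (mrGens k N) := mr_finite_gens k N
  have hfin : FiniteDimensional k⟮jbarC k N⟯
      (IntermediateField.adjoin k⟮jbarC k N⟯ (mrGens k N)) :=
    IntermediateField.finiteDimensional_adjoin (fun y hy => mr_isIntegral_of_mem_gens k N hy)
  rw [mr_adjoin_gens_eq_top] at hfin
  exact (IntermediateField.topEquiv (F := k⟮jbarC k N⟯)
    (E := ↥(modularFunctionFieldFullC k N))).toLinearEquiv.finiteDimensional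

end Finite

end Fermat.Agent.GoodRed
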