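/-
Item 75b / M2 (helper12), part 2: for EVERY algebraically closed field `k` (any characteristic) and
every `N ≠ 0`, `jbar` is a separating element of `F_{N,k} = modularFunctionFieldFullC k N`:
`FFSep k (jbarC k N)`.  Hence `RRHyp k F_{N,k}` (Riemann–Roch), `HasCanonicalDivisor`,
`genus = genusFF` and the Hurwitz bounds are available at every level.

Proof: `F_{N,k} / k(jbar)` is finite (`ModAlg.lean`); Mathlib's separable generation gives some
separating element; `d/dq` is a `k`-derivation of `F_{N,k}` into `k((q))` with
`(d/dq) jbar = -q⁻² + … ≠ 0`, hence `d jbar ≠ 0` in `Ω[F/k]` and `jbar` itself is separating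
(`FFSep.of_finite_of_derivation`).
-/
import Mathlib
import Fermat.Agent.GoodRed.ModAlg
import Fermat.Agent.FFlib.FSSepGen
import Fermat.Agent.S24lib.FFLaurentDeriv
import Fermat.Agent.RRlib.InstSep
import Fermat.Agent.RRlib.InstSepKaehler
import Fermat.Agent.RRlib.Hurwitz

set_option autoImplicit false

noncomputable section

namespace Fermat.Agent.GoodRed

open ModularCurve HahnSeries IntermediateField AlgebraicCurve KaehlerDifferential
open Fermat.Agent.S24lib Fermat.Agent.FFlib Fermat.Agent.RRlib

variable (k : Type*) [Field k] (N : ℕ)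

/-- `(d/dq) j ≠ 0` in every characteristic. -/
theorem mr_derivative_jqModC_ne_zero : LaurentSeries.derivative k (jqModC k) ≠ 0 := by
  intro h
  have h1 := congrArg (fun f : LaurentSeries k => f.coeff (-2)) h
  simp only [HahnSeries.coeff_zero] at h1
  rw [lsCoeff_derivative] at h1
  have h2 : (-2 : ℤ) + 1 = -1 := by norm_num
  rw [h2, coeff_jqModC_neg_one] at h1
  simp at h1

/-- `d jbar ≠ 0` in `Ω[F_{N,k} / k]`. -/
theorem mr_D_jbarC_ne_zero : D k ↥(modularFunctionFieldFullC k N) (jbarC k N) ≠ 0 := by
  have hsF : ∀ (a : ↥(modularFunctionFieldFullC k N)) (x : LaurentSeries k),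
      a • x = (a : LaurentSeries k) * x := fun a x => rfl
  have hsk : ∀ (c : k) (x : LaurentSeries k), c • x = HahnSeries.C c * x := fun c x => by
    ext n
    rw [HahnSeries.coeff_smul, HahnSeries.C_apply, HahnSeries.coeff_single_zero_mul, smul_eq_mul]
  have hconst : ∀ c : k, ((algebraMap k ↥(modularFunctionFieldFullC k N) c :
      ↥(modularFunctionFieldFullC k N)) : LaurentSeries k) = HahnSeries.C c := by
    intro c
    show algebraMap k (LaurentSeries k) c = HahnSeries.C c
    rw [algebraMap_laurentSeries_eq_single]
    rfl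
  have hsF' : ∀ (c : k) (a : ↥(modularFunctionFieldFullC k N)),
      ((c • a : ↥(modularFunctionFieldFullC k N)) : LaurentSeries k) =
        HahnSeries.C c * (a : LaurentSeries k) := fun c a => by
    rw [Algebra.smul_def, IntermediateField.coe_mul, hconst]
  have : IsScalarTower k ↥(modularFunctionFieldFullC k N) (LaurentSeries k) := ⟨fun c a x => by
    rw [hsF, hsk, hsF, hsF', mul_assoc]⟩
  let δ : Derivation k ↥(modularFunctionFieldFullC k N) (LaurentSeries k) :=
    Derivation.mk'
      { toFun := fun a => LaurentSeries.derivative k (a : LaurentSeries k)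
        map_add' := fun a b => by
          rw [IntermediateField.coe_add, map_add]
        map_smul' := fun c a => by
          rw [RingHom.id_apply, hsk, hsF', lsDerivative_mul, lsDerivative_C, mul_zero,
            add_zero] }
      (fun a b => by
        show LaurentSeries.derivative k ((a * b : ↥(modularFunctionFieldFullC k N)) :
          LaurentSeries k) = a • LaurentSeries.derivative k (b : LaurentSeries k) +
            b • LaurentSeries.derivative k (a : LaurentSeries k)
        rw [IntermediateField.coe_mul, lsDerivative_mul, hsF, hsF])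
  intro h0
  have h1 : δ (jbarC k N) = 0 := by
    rw [← Derivation.liftKaehlerDifferential_comp_D δ (jbarC k N), h0, map_zero]
  exact mr_derivative_jqModC_ne_zero k h1

variable [NeZero N]

/-- **`jbar` is a separating element of `F_{N,k}`**, for every algebraically closed field `k`
and every level `N ≠ 0`. -/
theorem mr_ffSep [IsAlgClosed k] : FFSep k (jbarC k N) :=
  FFSep.of_finite_of_D_ne_zero (mr_finiteDimensional k N) (mr_D_jbarC_ne_zero k N)

/-- **Riemann–Roch hypotheses for `F_{N,k}`**, for every algebraically closed field `k`. -/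
theorem mr_rrHyp [IsAlgClosed k] : RRHyp k ↥(modularFunctionFieldFullC k N) :=
  haveI := mr_ffSep k N
  rrHyp_of_ffSep (jbarC k N)

/-- `Ω[F_{N,k} / k]` has canonical divisors (`HasCanonicalDivisor`). -/
theorem mr_hasCanonicalDivisor [IsAlgClosed k] :
    HasCanonicalDivisor (K := k) (F := ↥(modularFunctionFieldFullC k N)) :=
  haveI := mr_ffSep k N
  fsHasCanonicalDivisor (x := jbarC k N)

/-- The Kähler genus of `F_{N,k}` is its Riemann–Roch genus. -/
theorem mr_genus_eq_genusFF [IsAlgClosed k]
    [HasCanonicalDivisor (K := k) (F := ↥(modularFunctionFieldFullC k N))] :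
    genus k ↥(modularFunctionFieldFullC k N) = genusFF k ↥(modularFunctionFieldFullC k N) :=
  haveI := mr_ffSep k N
  fsGenus_eq_genusFF (x := jbarC k N)

/-- Every place of `F_{N,k}` has degree one and `F_{N,k}` has places. -/
theorem mr_nonempty_place [IsAlgClosed k] :
    Nonempty (Place k ↥(modularFunctionFieldFullC k N)) :=
  haveI := mr_ffSep k N
  fsNonempty_place (K := k) (x := jbarC k N)

/-- **Hurwitz bound for `jbar : X₀(N)_k → P¹`** (any characteristic): for every finite set `C` of
values, `Σ_{c ∈ C} (n − #jbar⁻¹(c)) − n − #jbar⁻¹(∞) ≤ 2g − 2`, `n = [F_{N,k} : k(jbar)]`. -/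
theorem mr_hurwitz_genus_le [IsAlgClosed k] (C : Finset k) :
    ∑ c ∈ C, ((Module.finrank k⟮jbarC k N⟯ ↥(modularFunctionFieldFullC k N) : ℤ)
          - (Nat.card {v : Place k ↥(modularFunctionFieldFullC k N) //
              0 < v.ord (jbarC k N - algebraMap k ↥(modularFunctionFieldFullC k N) c)} : ℤ))
        - (Module.finrank k⟮jbarC k N⟯ ↥(modularFunctionFieldFullC k N) : ℤ)
        - (Nat.card {v : Place k ↥(modularFunctionFieldFullC k N) //
              0 < v.ord (jbarC k N)⁻¹} : ℤ)
      ≤ 2 * (genusFF k ↥(modularFunctionFieldFullC k N) : ℤ) - 2 :=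
  haveI := mr_ffSep k N
  fsHurwitz_genus_le (x := jbarC k N) C

end Fermat.Agent.GoodRed
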