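/-
Item 75a GOODRED-a, DS5 inputs (iv) and (viii) (helper19): degrees.

* (iv)   `[F_M : F_N] = [F_{M,k} : F_{N,k}]`  (both are `ψ(M)/ψ(N)`),
* (viii) the pole divisor of `j` in `F_M` and of `j̄` in `F_{M,k}` have degree `ψ(M)`;
         `j̄` is not constant.

The characteristic `ℓ` side uses (★) `[F_{M,k} : k(j̄)] = ψ(M)` in the form of the fibre data over
the cusps (`GM/CuspsFinal.lean`), which enters as a hypothesis `Nonempty (FiberData …)`
(= the conclusion of GM-R).
-/
import Mathlib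
import Fermat.Agent.GM.CuspsFinal
import Fermat.Agent.HeckeBar.ModDeg
import Fermat.Agent.FFlib.FSPrincipal
import Fermat.Agent.FFlib.Bridge
import Fermat.Agent.GoodRed.ModRR

set_option autoImplicit false

noncomputable section

namespace Fermat.Agent.GoodRed

open AlgebraicCurve ModularCurve IntermediateField CongruenceSubgroup
open Fermat.Agent.S24lib Fermat.Agent.FFlib Fermat.Agent.GM Fermat.Agent.HeckeBar
open scoped MatrixGroups

/-! ### the degree of the pole divisor -/

section Generic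

variable {K F : Type*} [Field K] [Field F] [Algebra K F] [IsAlgClosed K]

/-- the pole divisor of a separating element `x` has degree `[F : K(x)]` -/
theorem dd_degree_poles {x : F} [h : FFSep K x] (D : Divisor K F)
    (hD : ∀ v : Place K F, D v = max 0 (-(v.ord x))) :
    Divisor.degree D = (Module.finrank K⟮x⟯ F : ℤ) := by
  obtain ⟨s, hs, hsum⟩ := fsExists_poles (K := K) (x := x)
  have hsupp : D.support ⊆ s := by
    intro v hv
    rw [Finsupp.mem_support_iff, hD v] at hv
    rw [hs]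
    by_contra hcon
    apply hv
    rw [max_eq_left]
    omega
  rw [fsDegree_eq_sum (x := x) D s hsupp]
  have : ∀ v ∈ s, D v = -(v.ord x) := by
    intro v hv
    rw [hD v, max_eq_right]
    have := (hs v).1 hv
    omega
  rw [Finset.sum_congr rfl this, Finset.sum_neg_distrib, hsum, neg_neg]

/-- the pole divisor of `x`, for `x⁻¹` separating -/
theorem dd_degree_poles_inv {x : F} [h : FFSep K x⁻¹] (D : Divisor K F)
    (hD : ∀ v : Place K F, D v = max 0 (-(v.ord x))) :
    Divisor.degree D = (Module.finrank K⟮x⁻¹⟯ F : ℤ) := by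
  haveI : FFSep K x := by
    have := FFSep.of_adjoin_eq (K := K) (x := x⁻¹) (y := x) (by
      have := fsAdjoin_inv (K := K) x
      exact this.symm)
    exact this
  rw [dd_degree_poles (x := x) D hD, fsFinrank_of_adjoin_eq (fsAdjoin_inv (K := K) x).symm]

end Generic

/-! ### characteristic `0` -/

section CharZero

variable (M : ℕ) [NeZero M]

/-- the pole divisor of `j` in `F_M` has degree `ψ(M)` -/
theorem dd_degree_poles_jF (D : Divisor Kbar (FF M))
    (hD : ∀ v : Place Kbar (FF M), D v = max 0 (-(v.ord (jF M)))) :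
    Divisor.degree D = (dedekindPsi M : ℤ) := by
  haveI := fin_ffData M
  haveI : FFSep Kbar (jF M) := FFSep.of_ffData
  rw [dd_degree_poles (x := jF M) D hD, fin_finrank]

end CharZero

/-! ### characteristic `ℓ` -/

section CharL

variable {k : Type} [Field k] [IsAlgClosed k]

/-- the pole divisor of `j̄` in `F_{M,k}` has degree `ψ(M)` -/
theorem dd_degree_poles_jk (M : ℕ) [NeZero M]
    (hD : Nonempty (FiberData k (Fk k M) k ((jk k M)⁻¹) (SL(2, ℤ) ⧸ Gamma0 M) ModularGroup.T))
    (X : Divisor k (Fk k M))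
    (hX : ∀ w : Place k (Fk k M), X w = max 0 (-(w.ord (jk k M)))) :
    Divisor.degree X = (dedekindPsi M : ℤ) := by
  haveI : FFSep k ((jk k M)⁻¹) := ffSep_jk_inv_of_fiberData M hD
  rw [dd_degree_poles_inv (x := jk k M) X hX, finrank_Fk_of_fiberData M hD]

omit [IsAlgClosed k] in
/-- `j̄` is not constant -/
theorem dd_jk_nonconst (M : ℕ) [NeZero M] :
    jk k M ∉ Set.range (algebraMap k (Fk k M)) := by
  rintro ⟨c, hc⟩
  have h1 : ((jk k M : Fk k M) : LaurentSeries k).coeff (-1) = 1 := by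
    rw [coe_jk, coeff_jqModC_neg_one]
  rw [← hc] at h1
  have h2 : ((algebraMap k (Fk k M) c : Fk k M) : LaurentSeries k)
      = algebraMap k (LaurentSeries k) c := rfl
  rw [h2, algebraMap_laurentSeries_eq_single, HahnSeries.coeff_single_of_ne (by norm_num)] at h1
  exact zero_ne_one h1

/-- **(iv)** for the characteristic `ℓ` side: `ψ(N)·[F_{M,k} : F_{N,k}] = ψ(M)` -/
theorem dd_dedekindPsi_mul_finrankAlong_inclK (N M : ℕ) [NeZero N] [NeZero M] (h : N ∣ M)
    (hDN : Nonempty (FiberData k (Fk k N) k ((jk k N)⁻¹) (SL(2, ℤ) ⧸ Gamma0 N) ModularGroup.T))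
    (hDM : Nonempty (FiberData k (Fk k M) k ((jk k M)⁻¹) (SL(2, ℤ) ⧸ Gamma0 M) ModularGroup.T)) :
    dedekindPsi N * finrankAlong k (inclK k h) = dedekindPsi M := by
  have h1 := finrank_adjoin_mul_finrankAlong (inclK k h) ((jk k N)⁻¹)
  rw [map_inv₀, inclK_jk, finrank_Fk_of_fiberData N hDN, finrank_Fk_of_fiberData M hDM] at h1
  exact h1

/-- **(iv)** `[F_M : F_N] = [F_{M,k} : F_{N,k}]`, as `finrankAlong`. -/
theorem dd_finrankAlong_eq (N M : ℕ) [NeZero N] [NeZero M] (h : N ∣ M)
    (hDN : Nonempty (FiberData k (Fk k N) k ((jk k N)⁻¹) (SL(2, ℤ) ⧸ Gamma0 N) ModularGroup.T))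
    (hDM : Nonempty (FiberData k (Fk k M) k ((jk k M)⁻¹) (SL(2, ℤ) ⧸ Gamma0 M) ModularGroup.T)) :
    finrankAlong Kbar (inclBar N M h) = finrankAlong k (inclK k h) := by
  have h1 := dedekindPsi_mul_finrankAlong_inclBar N M h
  have h2 := dd_dedekindPsi_mul_finrankAlong_inclK N M h hDN hDM
  have h3 := dedekindPsi_pos N
  exact Nat.eq_of_mul_eq_mul_left h3 (h1.trans h2.symm)

/-- **(iv)** `[F_M : F_N] = [F_{M,k} : F_{N,k}]`, with the algebra structures `algebraAlong
(inclBar N M h)` and `algK k h`. -/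
theorem dd_finrank_eq (N M : ℕ) [NeZero N] [NeZero M] (h : N ∣ M)
    (hDN : Nonempty (FiberData k (Fk k N) k ((jk k N)⁻¹) (SL(2, ℤ) ⧸ Gamma0 N) ModularGroup.T))
    (hDM : Nonempty (FiberData k (Fk k M) k ((jk k M)⁻¹) (SL(2, ℤ) ⧸ Gamma0 M) ModularGroup.T)) :
    letI := algebraAlong (inclBar N M h)
    letI := algK k h
    Module.finrank (FF N) (FF M) = Module.finrank (Fk k N) (Fk k M) :=
  dd_finrankAlong_eq N M h hDN hDM

/-- `[F_{M,k} : F_{N,k}]` is positive, so the extension is finite -/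
theorem dd_finite_algK (N M : ℕ) [NeZero N] [NeZero M] (h : N ∣ M)
    (hDN : Nonempty (FiberData k (Fk k N) k ((jk k N)⁻¹) (SL(2, ℤ) ⧸ Gamma0 N) ModularGroup.T))
    (hDM : Nonempty (FiberData k (Fk k M) k ((jk k M)⁻¹) (SL(2, ℤ) ⧸ Gamma0 M) ModularGroup.T)) :
    letI := algK k h
    FiniteDimensional (Fk k N) (Fk k M) := by
  letI := algK k h
  have h2 := dd_dedekindPsi_mul_finrankAlong_inclK N M h hDN hDM
  have h3 := dedekindPsi_pos M
  rw [← h2] at h3
  exact Module.finite_of_finrank_pos (Nat.pos_of_mul_pos_left h3)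

end CharL

/-! ### the exact signatures of `NOTES/DS5_signatures.lean.txt`

`k` is any field and (★) is the hypothesis `finrank k(j̄⁻¹) F_{N,k} = ψ(N)`. -/

section Exact

variable (k : Type) [Field k] {N M : ℕ} [NeZero N] [NeZero M] (h : N ∣ M)

/-- `ψ(N) · [F_{M,k} : F_{N,k}] = ψ(M)` -/
theorem dedekindPsi_mul_finrankAlong_inclK
    (hN : Module.finrank k⟮(jk k N)⁻¹⟯ (Fk k N) = dedekindPsi N)
    (hM : Module.finrank k⟮(jk k M)⁻¹⟯ (Fk k M) = dedekindPsi M) :
    dedekindPsi N * finrankAlong k (inclK k h) = dedekindPsi M := by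
  have h1 := finrank_adjoin_mul_finrankAlong (inclK k h) ((jk k N)⁻¹)
  rw [map_inv₀, inclK_jk, hN, hM] at h1
  exact h1

theorem finrankAlong_inclK_eq
    (hN : Module.finrank k⟮(jk k N)⁻¹⟯ (Fk k N) = dedekindPsi N)
    (hM : Module.finrank k⟮(jk k M)⁻¹⟯ (Fk k M) = dedekindPsi M) :
    finrankAlong Kbar (inclBar N M h) = finrankAlong k (inclK k h) := by
  have h1 := dedekindPsi_mul_finrankAlong_inclBar N M h
  have h2 := dedekindPsi_mul_finrankAlong_inclK k h hN hM
  exact Nat.eq_of_mul_eq_mul_left (dedekindPsi_pos N) (h1.trans h2.symm)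

theorem finiteAlong_inclK
    (hN : Module.finrank k⟮(jk k N)⁻¹⟯ (Fk k N) = dedekindPsi N)
    (hM : Module.finrank k⟮(jk k M)⁻¹⟯ (Fk k M) = dedekindPsi M) :
    FiniteAlong k (inclK k h) := by
  letI := algebraAlong (inclK k h)
  have h2 := dedekindPsi_mul_finrankAlong_inclK k h hN hM
  have h3 := dedekindPsi_pos M
  rw [← h2] at h3
  exact Module.finite_of_finrank_pos (Nat.pos_of_mul_pos_left h3)

theorem isIntegral_inclK
    (hN : Module.finrank k⟮(jk k N)⁻¹⟯ (Fk k N) = dedekindPsi N)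
    (hM : Module.finrank k⟮(jk k M)⁻¹⟯ (Fk k M) = dedekindPsi M) :
    (inclK k h).toRingHom.IsIntegral := by
  letI := algebraAlong (inclK k h)
  haveI : Module.Finite (Fk k N) (Fk k M) := finiteAlong_inclK k h hN hM
  exact fun x => Algebra.IsIntegral.isIntegral (R := Fk k N) x

/-- `j̄` is not constant -/
theorem jk_not_mem_range (N : ℕ) [NeZero N] :
    jk k N ∉ Set.range (algebraMap k (Fk k N)) :=
  dd_jk_nonconst N

/-- `deg (j)_∞ = ψ(M)` in `F_M` (char 0; only `≤` is needed) -/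
theorem degree_poles_jF_le (M : ℕ) [NeZero M] (D : Divisor Kbar (FF M))
    (hD : ∀ v : Place Kbar (FF M), D v = max 0 (-(v.ord (jF M)))) :
    Divisor.degree D ≤ dedekindPsi M :=
  (dd_degree_poles_jF M D hD).le

/-- `deg (j̄)_∞ = ψ(M)` in `F_{M,k}` (only `≥` is needed), from (★) -/
theorem le_degree_poles_jk [IsAlgClosed k] (M : ℕ) [NeZero M]
    (hM : Module.finrank k⟮(jk k M)⁻¹⟯ (Fk k M) = dedekindPsi M)
    (X : Divisor k (Fk k M))
    (hX : ∀ w : Place k (Fk k M), X w = max 0 (-(w.ord (jk k M)))) :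
    (dedekindPsi M : ℤ) ≤ Divisor.degree X := by
  haveI : FFSep k (jk k M) := mr_ffSep k M
  rw [dd_degree_poles (x := jk k M) X hX, ← fsFinrank_of_adjoin_eq (fsAdjoin_inv (K := k) (jk k M)),
    hM]

end Exact

end Fermat.Agent.GoodRed

end
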