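/-
Item 75a/DS5 input (vi) (helper5): the NORM FORMULA `ord_v (N_{F'/F} f) = ∑_{w | v} ord_w f` in ANY
characteristic, for a finite separable extension `F'/F` of function fields all of whose places
have degree one.  (Item 74's `loc_normFormula` needs characteristic zero, because Mathlib's
`Ideal.relNorm_eq_pow_of_isMaximal` wants a perfect fraction field.)
Route: `relNorm Q = 𝔪_v ^ a_Q` with `a_Q ≥ 1`; `∑ a_Q e_Q = n` (norm of a uniformiser) and
`∑ e_Q = n` (`GM/FundId.lean`) give `a_Q = 1`.   Helper lemmas are prefixed `nfs_`.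
-/
import Mathlib
import Fermat.Agent.GM.FundId
import Fermat.Agent.FFlib.FSPrincipal

set_option autoImplicit false
set_option linter.style.haveILetI false
set_option linter.unusedSectionVars false

noncomputable section

namespace Fermat.Agent.GoodRed

open AlgebraicCurve IsDedekindDomain WithZero IsLocalRing Fermat.Agent.S24lib
  Fermat.Agent.HeckeBar Fermat.Agent.GM

variable {K F F' : Type*} [Field K] [Field F] [Field F'] [Algebra K F] [Algebra K F']
  [Algebra F F'] [IsScalarTower K F F'] [FiniteDimensional F F'] [Algebra.IsSeparable F F']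

variable (v : Place K F)

/-- the exponent of the relative norm of a prime of `B_v` -/
def nfs_a (Q : HeightOneSpectrum (locB v F')) : ℤ :=
  FractionalIdeal.count F v.heightOneSpectrum
    ((Ideal.relNorm v.toValuationSubring Q.asIdeal : Ideal v.toValuationSubring) :
      FractionalIdeal (nonZeroDivisors v.toValuationSubring) F)

/-- count of the relative norm, with the exponents `a_Q` -/
theorem nfs_count_relNorm_gen
    (s : Finset (HeightOneSpectrum (locB v F'))) (hs : ∀ Q, Q ∈ s)
    (I : Ideal (locB v F')) (hI : I ≠ 0) :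
    FractionalIdeal.count F v.heightOneSpectrum
        ((Ideal.relNorm v.toValuationSubring I : Ideal v.toValuationSubring) :
          FractionalIdeal (nonZeroDivisors v.toValuationSubring) F)
      = ∑ Q ∈ s, nfs_a v Q * FractionalIdeal.count F' Q
          (I : FractionalIdeal (nonZeroDivisors (locB v F')) F') := by
  classical
  induction I using UniqueFactorizationMonoid.induction_on_prime with
  | h₁ => exact absurd rfl hI
  | h₂ x hx =>
    have hx' : x = ⊤ := Ideal.isUnit_iff.1 hx
    subst hx'
    rw [Ideal.relNorm_top, FractionalIdeal.coeIdeal_top, FractionalIdeal.coeIdeal_top,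
      FractionalIdeal.count_one]
    symm
    apply Finset.sum_eq_zero
    intro Q _
    rw [FractionalIdeal.count_one F' Q, mul_zero]
  | h₃ J Q₀ hJ hQ₀ ih =>
    have hQ₀ne : Q₀ ≠ ⊥ := hQ₀.ne_zero
    have hQ₀p : Q₀.IsPrime := Ideal.isPrime_of_prime hQ₀
    let Q₀' : HeightOneSpectrum (locB v F') := ⟨Q₀, hQ₀p, hQ₀ne⟩
    have hJne : (Ideal.relNorm v.toValuationSubring J) ≠ ⊥ := by
      rw [Ne, Ideal.relNorm_eq_bot_iff]; exact hJ
    have hQne : (Ideal.relNorm v.toValuationSubring Q₀) ≠ ⊥ := by
      rw [Ne, Ideal.relNorm_eq_bot_iff]; exact hQ₀ne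
    rw [map_mul, FractionalIdeal.coeIdeal_mul, FractionalIdeal.coeIdeal_mul,
      FractionalIdeal.count_mul F _ (FractionalIdeal.coeIdeal_ne_zero.2 hQne)
        (FractionalIdeal.coeIdeal_ne_zero.2 hJne), ih hJ]
    have h2 : ∀ Q ∈ s, nfs_a v Q * FractionalIdeal.count F' Q
          (((Q₀ : Ideal (locB v F')) : FractionalIdeal (nonZeroDivisors (locB v F')) F') *
            ((J : Ideal (locB v F')) : FractionalIdeal (nonZeroDivisors (locB v F')) F'))
        = (if Q = Q₀' then nfs_a v Q₀' else 0) + nfs_a v Q * FractionalIdeal.count F' Q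
            ((J : Ideal (locB v F')) : FractionalIdeal (nonZeroDivisors (locB v F')) F') := by
      intro Q _
      rw [FractionalIdeal.count_mul F' Q (FractionalIdeal.coeIdeal_ne_zero.2 hQ₀ne)
        (FractionalIdeal.coeIdeal_ne_zero.2 hJ), mul_add]
      congr 1
      have := FractionalIdeal.count_maximal F' Q Q₀'
      rw [this]
      by_cases h : Q = Q₀'
      · rw [if_pos h, if_pos h.symm, mul_one, h]
      · rw [if_neg h, if_neg (fun h' => h h'.symm), mul_zero]
    rw [Finset.sum_congr rfl h2, Finset.sum_add_distrib, Finset.sum_ite_eq' s Q₀', if_pos (hs Q₀')]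
    rfl

/-- `a_Q ≥ 1` -/
theorem nfs_a_pos (Q : HeightOneSpectrum (locB v F')) : 1 ≤ nfs_a v Q := by
  have hlo : Q.asIdeal.LiesOver (maximalIdeal v.toValuationSubring) := nf_liesOver v Q
  have hle : Ideal.relNorm v.toValuationSubring Q.asIdeal ≤ maximalIdeal v.toValuationSubring := by
    have h1 := Ideal.relNorm_le_comap (R := v.toValuationSubring) Q.asIdeal
    have h2 : Ideal.comap (algebraMap v.toValuationSubring (locB v F')) Q.asIdeal =
        maximalIdeal v.toValuationSubring := hlo.over.symm
    rwa [h2] at h1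
  have hne : (Ideal.relNorm v.toValuationSubring Q.asIdeal) ≠ ⊥ := by
    rw [Ne, Ideal.relNorm_eq_bot_iff]; exact Q.ne_bot
  have hmono := FractionalIdeal.count_mono (K := F) v.heightOneSpectrum
    (FractionalIdeal.coeIdeal_ne_zero.2 hne)
    (FractionalIdeal.coeIdeal_le_coeIdeal F |>.2 hle)
  have h1 : FractionalIdeal.count F v.heightOneSpectrum
      ((maximalIdeal v.toValuationSubring : Ideal v.toValuationSubring) :
        FractionalIdeal (nonZeroDivisors v.toValuationSubring) F) = 1 :=
    FractionalIdeal.count_self F v.heightOneSpectrum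
  rw [h1] at hmono
  exact hmono

section Count

variable [HasPrincipalDivisors K F']

/-- `∑_Q e_Q = n`, the sum over the primes of `B_v` -/
theorem nfs_sum_e (hdeg' : ∀ w : Place K F', w.deg = 1)
    (s : Finset (HeightOneSpectrum (locB v F'))) (hs : ∀ Q, Q ∈ s) :
    ∑ Q ∈ s, ((locPlace v Q).ramificationIndex F : ℤ) = (Module.finrank F F' : ℤ) := by
  classical
  rw [← fid_sum_ramificationIndex v hdeg']
  refine Finset.sum_bij' (fun Q _ => locPlace v Q)
    (fun w hw => locPrime v w (Place.mem_fiber.1 hw)) ?_ ?_ ?_ ?_ ?_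
  · intro Q _
    exact Place.mem_fiber.2 (locPlace_restrict v Q)
  · intro w _
    exact hs _
  · intro Q _
    exact locPrime_locPlace v Q
  · intro w hw
    exact locPlace_locPrime v w (Place.mem_fiber.1 hw)
  · intro Q _
    rfl

/-- `∑_Q a_Q e_Q = n`: the norm of a uniformiser of `O_v` -/
theorem nfs_sum_a_e
    (s : Finset (HeightOneSpectrum (locB v F'))) (hs : ∀ Q, Q ∈ s) :
    ∑ Q ∈ s, nfs_a v Q * ((locPlace v Q).ramificationIndex F : ℤ)
      = (Module.finrank F F' : ℤ) := by
  classical
  obtain ⟨π, hπ⟩ := ffExistsIrreducible v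
  have hπ0 : (π : F) ≠ 0 := by
    simpa [ne_eq, ZeroMemClass.coe_eq_zero] using hπ.ne_zero
  set b : locB v F' := algebraMap v.toValuationSubring (locB v F') π with hb
  have hbF : (b : F') = algebraMap F F' (π : F) := rfl
  have hb0F : (b : F') ≠ 0 := by
    rw [hbF]; exact (map_ne_zero (algebraMap F F')).2 hπ0
  have hb0 : b ≠ 0 := fun h => hb0F (by rw [h]; rfl)
  have hspan : (Ideal.span {b} : Ideal (locB v F')) ≠ 0 := by
    rw [Ne, Ideal.zero_eq_bot, Ideal.span_singleton_eq_bot]; exact hb0
  have hord : ∀ Q : HeightOneSpectrum (locB v F'),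
      FractionalIdeal.count F' Q
        ((Ideal.span {b} : Ideal (locB v F')) : FractionalIdeal (nonZeroDivisors (locB v F')) F')
        = ((locPlace v Q).ramificationIndex F : ℤ) := by
    intro Q
    rw [← nf_ord_locPlace_eq_count v Q b hb0, hbF, (locPlace v Q).ord_restrict,
      locPlace_restrict, v.ord_coe_irreducible hπ, mul_one]
  have hgen := nfs_count_relNorm_gen v s hs (Ideal.span {b}) hspan
  rw [Finset.sum_congr rfl (fun Q _ => by rw [hord Q])] at hgen
  rw [← hgen, Ideal.relNorm_singleton]
  have hN : algebraMap v.toValuationSubring F (Algebra.intNorm v.toValuationSubring (locB v F') b)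
      = Algebra.norm F (algebraMap (locB v F') F' b) :=
    Algebra.algebraMap_intNorm (A := v.toValuationSubring) (K := F) (L := F') (B := locB v F') b
  have hN' : ((Algebra.intNorm v.toValuationSubring (locB v F') b : v.toValuationSubring) : F)
      = (π : F) ^ Module.finrank F F' := by
    have h1 : algebraMap (locB v F') F' b = algebraMap F F' (π : F) := rfl
    rw [h1, Algebra.norm_algebraMap] at hN
    exact hN
  have hN0 : Algebra.intNorm v.toValuationSubring (locB v F') b ≠ 0 := by
    intro h0
    rw [h0] at hN'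
    exact pow_ne_zero _ hπ0 hN'.symm
  rw [← nf_ord_eq_count v _ hN0, hN', ← zpow_natCast, v.ord_zpow, v.ord_coe_irreducible hπ, mul_one]

/-- all the exponents `a_Q` are one -/
theorem nfs_a_eq_one (hdeg' : ∀ w : Place K F', w.deg = 1)
    (Q : HeightOneSpectrum (locB v F')) : nfs_a v Q = 1 := by
  classical
  haveI : Finite (HeightOneSpectrum (locB v F')) := nf_finite_primes v
  letI : Fintype (HeightOneSpectrum (locB v F')) := Fintype.ofFinite _
  have h1 := nfs_sum_e v hdeg' Finset.univ (fun Q => Finset.mem_univ Q)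
  have h2 := nfs_sum_a_e (F' := F') v Finset.univ (fun Q => Finset.mem_univ Q)
  have h3 : ∑ Q : HeightOneSpectrum (locB v F'),
      (nfs_a v Q - 1) * ((locPlace v Q).ramificationIndex F : ℤ) = 0 := by
    have : ∀ Q : HeightOneSpectrum (locB v F'),
        (nfs_a v Q - 1) * ((locPlace v Q).ramificationIndex F : ℤ)
        = nfs_a v Q * ((locPlace v Q).ramificationIndex F : ℤ)
          - ((locPlace v Q).ramificationIndex F : ℤ) := fun Q => by ring
    rw [Finset.sum_congr rfl (fun Q _ => this Q), Finset.sum_sub_distrib, h1, h2, sub_self]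
  have hnn : ∀ Q ∈ (Finset.univ : Finset (HeightOneSpectrum (locB v F'))),
      0 ≤ (nfs_a v Q - 1) * ((locPlace v Q).ramificationIndex F : ℤ) := by
    intro Q _
    apply mul_nonneg
    · have := nfs_a_pos v Q
      omega
    · exact_mod_cast Nat.zero_le _
  have h4 := (Finset.sum_eq_zero_iff_of_nonneg hnn).1 h3 Q (Finset.mem_univ Q)
  have hpos : (0 : ℤ) < ((locPlace v Q).ramificationIndex F : ℤ) := by
    exact_mod_cast (locPlace v Q).ramificationIndex_pos (F := F)
  rcases mul_eq_zero.1 h4 with h | h
  · omega
  · omega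

/-- **count of the relative norm**: `ord_v (N I) = ∑_Q ord_Q I`, in any characteristic. -/
theorem nfs_count_relNorm (hdeg' : ∀ w : Place K F', w.deg = 1)
    (s : Finset (HeightOneSpectrum (locB v F'))) (hs : ∀ Q, Q ∈ s)
    (I : Ideal (locB v F')) (hI : I ≠ 0) :
    FractionalIdeal.count F v.heightOneSpectrum
        ((Ideal.relNorm v.toValuationSubring I : Ideal v.toValuationSubring) :
          FractionalIdeal (nonZeroDivisors v.toValuationSubring) F)
      = ∑ Q ∈ s, FractionalIdeal.count F' Q
          (I : FractionalIdeal (nonZeroDivisors (locB v F')) F') := by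
  rw [nfs_count_relNorm_gen v s hs I hI]
  refine Finset.sum_congr rfl fun Q _ => ?_
  rw [nfs_a_eq_one v hdeg' Q, one_mul]

/-- norm formula for elements of `B_v` -/
theorem nfs_ord_norm_of_mem (hdeg' : ∀ w : Place K F', w.deg = 1)
    (s : Finset (HeightOneSpectrum (locB v F'))) (hs : ∀ Q, Q ∈ s)
    (b : locB v F') (hb : b ≠ 0) :
    v.ord (Algebra.norm F (b : F')) = ∑ Q ∈ s, (locPlace v Q).ord (b : F') := by
  have hN : algebraMap v.toValuationSubring F (Algebra.intNorm v.toValuationSubring (locB v F') b)
      = Algebra.norm F (algebraMap (locB v F') F' b) :=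
    Algebra.algebraMap_intNorm (A := v.toValuationSubring) (K := F) (L := F') (B := locB v F') b
  have hN0 : Algebra.intNorm v.toValuationSubring (locB v F') b ≠ 0 := by
    intro h0
    rw [h0, map_zero] at hN
    have h1 : (b : F') = 0 := Algebra.norm_eq_zero_iff.1 hN.symm
    exact hb (Subtype.ext h1)
  have hspan : (Ideal.span {b} : Ideal (locB v F')) ≠ 0 := by
    rw [Ne, Ideal.zero_eq_bot, Ideal.span_singleton_eq_bot]; exact hb
  calc v.ord (Algebra.norm F (b : F'))
      = v.ord ((Algebra.intNorm v.toValuationSubring (locB v F') b : v.toValuationSubring) : F) := by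
        rw [← show algebraMap (locB v F') F' b = (b : F') from rfl, ← hN]; rfl
    _ = FractionalIdeal.count F v.heightOneSpectrum
          ((Ideal.relNorm v.toValuationSubring (Ideal.span {b}) : Ideal v.toValuationSubring) :
            FractionalIdeal (nonZeroDivisors v.toValuationSubring) F) := by
        rw [nf_ord_eq_count v _ hN0, Ideal.relNorm_singleton]
    _ = ∑ Q ∈ s, FractionalIdeal.count F' Q
          ((Ideal.span {b} : Ideal (locB v F')) :
            FractionalIdeal (nonZeroDivisors (locB v F')) F') :=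
        nfs_count_relNorm v hdeg' s hs _ hspan
    _ = ∑ Q ∈ s, (locPlace v Q).ord (b : F') :=
        Finset.sum_congr rfl fun Q _ => (nf_ord_locPlace_eq_count v Q b hb).symm

/-- norm formula, in terms of the primes of `B_v` -/
theorem nfs_ord_norm (hdeg' : ∀ w : Place K F', w.deg = 1)
    (s : Finset (HeightOneSpectrum (locB v F'))) (hs : ∀ Q, Q ∈ s)
    (f : F') (hf : f ≠ 0) :
    v.ord (Algebra.norm F f) = ∑ Q ∈ s, (locPlace v Q).ord f := by
  obtain ⟨a, b, hb, rfl⟩ := IsFractionRing.div_surjective (A := locB v F') f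
  have hb0 : (b : locB v F') ≠ 0 := nonZeroDivisors.ne_zero hb
  have hbF : algebraMap (locB v F') F' b ≠ 0 := by
    intro h0; exact hb0 (Subtype.ext h0)
  have ha0 : a ≠ 0 := by
    rintro rfl
    rw [map_zero, zero_div] at hf
    exact hf rfl
  have haF : algebraMap (locB v F') F' a ≠ 0 := by
    intro h0; exact ha0 (Subtype.ext h0)
  have hNa : Algebra.norm F (algebraMap (locB v F') F' a) ≠ 0 := Algebra.norm_ne_zero_iff.2 haF
  have hNb : Algebra.norm F (algebraMap (locB v F') F' b) ≠ 0 := Algebra.norm_ne_zero_iff.2 hbF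
  have hdiv : Algebra.norm F (algebraMap (locB v F') F' a / algebraMap (locB v F') F' b)
      = Algebra.norm F (algebraMap (locB v F') F' a) /
        Algebra.norm F (algebraMap (locB v F') F' b) := by
    rw [eq_div_iff hNb, ← map_mul, div_mul_cancel₀ _ hbF]
  rw [hdiv, ffOrd_div v hNa hNb]
  have h1 := nfs_ord_norm_of_mem v hdeg' s hs a ha0
  have h2 := nfs_ord_norm_of_mem v hdeg' s hs b hb0
  have h1' : v.ord (Algebra.norm F (algebraMap (locB v F') F' a))
      = ∑ Q ∈ s, (locPlace v Q).ord (algebraMap (locB v F') F' a) := h1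
  have h2' : v.ord (Algebra.norm F (algebraMap (locB v F') F' b))
      = ∑ Q ∈ s, (locPlace v Q).ord (algebraMap (locB v F') F' b) := h2
  rw [h1', h2', ← Finset.sum_sub_distrib]
  refine Finset.sum_congr rfl fun Q _ => ?_
  rw [ffOrd_div _ haF hbF]

/-- **The norm formula** `ord_v (N f) = ∑_{w | v} ord_w f` for a finite SEPARABLE extension of
function fields, in ANY characteristic, when all places of `F'` have degree one. -/
theorem loc_normFormula_sep (hdeg' : ∀ w : Place K F', w.deg = 1) :
    Divisor.PushforwardNormFormula K F F' := by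
  classical
  intro f hf D hD v
  haveI : Finite (HeightOneSpectrum (locB v F')) := nf_finite_primes v
  letI : Fintype (HeightOneSpectrum (locB v F')) := Fintype.ofFinite _
  rw [nf_pushforward_apply v hdeg' Finset.univ (fun Q => Finset.mem_univ Q) D,
    nfs_ord_norm v hdeg' Finset.univ (fun Q => Finset.mem_univ Q) f hf]
  exact Finset.sum_congr rfl fun Q _ => hD _

end Count

end Fermat.Agent.GoodRed

namespace Fermat.Agent.GoodRed

open AlgebraicCurve IntermediateField Fermat.Agent.S24lib Fermat.Agent.FFlib Fermat.Agent.GM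

variable {K F F' : Type*} [Field K] [Field F] [Field F'] [Algebra K F] [Algebra K F']

/-- **Norm formula** in the `Along` language, abstract hypotheses: `F'/φ(F)` finite SEPARABLE,
ANY characteristic, all places of `F'` of degree one, principal divisors on `F'`. -/
theorem normFormulaAlong_of_sep [HasPrincipalDivisors K F'] (φ : F →ₐ[K] F')
    (hfin : FiniteAlong K φ)
    (hsep : letI := algebraAlong φ; Algebra.IsSeparable F F')
    (hdeg' : ∀ w : Place K F', w.deg = 1) :
    NormFormulaAlong K φ hfin := by
  letI := algebraAlong φ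
  haveI := isScalarTower_along φ
  haveI : Module.Finite F F' := hfin
  haveI : Algebra.IsSeparable F F' := hsep
  exact loc_normFormula_sep hdeg'

/-- **DS5 (vi)**: the norm formula for function fields over an algebraically closed field of ANY
characteristic, `F'` finite separable over `K(φ x)`, `x ∈ F`. -/
theorem normFormulaAlong_of_ffSep [IsAlgClosed K] (φ : F →ₐ[K] F') {x : F}
    [h' : FFSep K (φ x)] (hfin : FiniteAlong K φ) :
    NormFormulaAlong K φ hfin := by
  letI := algebraAlong φ
  haveI := isScalarTower_along φ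
  haveI h'' : FFSep K (algebraMap F F' x) := h'
  haveI : HasPrincipalDivisors K F' := ⟨fun f _ => fsExists_principal (x := algebraMap F F' x) f⟩
  haveI : Algebra.IsAlgebraic K⟮algebraMap F F' x⟯ F' :=
    haveI := h''.fin
    Algebra.IsAlgebraic.of_finite _ _
  exact normFormulaAlong_of_sep φ hfin (fid_finite_separable (K := K) (x := x)).2
    (fun w => ffDeg_eq_one w h''.trans)

end Fermat.Agent.GoodRed

end
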