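/-
Item 75a/DS5 input (vi) in characteristic `ℓ` (helper5): the NORM FORMULA for the tower
`F_{N,k} ⊆ F_{M,k}` (`N ∣ M`), `k` algebraically closed of ANY characteristic.
From `GoodRed/NormSep.lean` (norm formula for finite separable extensions) and helper12's
`mr_ffSep` (`F_{M,k}` is finite separable over `k(j̄)`).
-/
import Mathlib
import Fermat.Agent.GM.Defs
import Fermat.Agent.GoodRed.ModRR
import Fermat.Agent.GoodRed.NormSep

set_option autoImplicit false
set_option synthInstance.maxHeartbeats 400000

noncomputable section

namespace Fermat.Agent.GoodRed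

open AlgebraicCurve ModularCurve IntermediateField
open Fermat.Agent.S24lib Fermat.Agent.HeckeBar Fermat.Agent.GM Fermat.Agent.FFlib

variable (k : Type) [Field k] {N M : ℕ} [NeZero N] [NeZero M] (h : N ∣ M)

/-- **DS5 (vi), char `ℓ`**: the norm formula for `F_{M,k} / F_{N,k}`. -/
theorem normFormulaAlong_inclK [IsAlgClosed k] (hfin : FiniteAlong k (inclK k h)) :
    NormFormulaAlong k (inclK k h) hfin := by
  have : FFSep k (inclK k h (jk k N)) := by
    rw [inclK_jk]
    exact mr_ffSep k M
  exact normFormulaAlong_of_ffSep (inclK k h) (x := jk k N) hfin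

end Fermat.Agent.GoodRed

end
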