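/-
Item 75 GOODRED (architect helper5): interface file.

`ConstRed A π O`-data: a function field `F/K` with a valuation ring `O` of `F` lying over a
valuation ring `A` of the constant field `K`, whose residue field is a function field `Fk/k`
("constant reduction").  Everything is phrased with the Prelude's `Place`, `Divisor`,
`riemannRochSpace` and the RR library `Fermat.Agent.RRlib` (item 65).
Blueprint: NOTES/GOODRED_blueprint.md.
-/
import Mathlib
import Fermat.Agent.RRlib.Defs

set_option autoImplicit false

noncomputable section

namespace Fermat.Agent.GoodRed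

open AlgebraicCurve Fermat.Agent.RRlib

variable {K F k Fk : Type*} [Field K] [Field F] [Algebra K F] [Field k] [Field Fk] [Algebra k Fk]

/-- A constant reduction: `O` is a valuation ring of `F` over the valuation ring `A` of `K`,
`red : O → Fk` is onto (so its kernel is the maximal ideal of `O`), compatible with the residue map
`π : A → k`; the value group of `O` is that of `A` (`exists_unit_smul`), and every
finite-dimensional `K`-subspace of `F` has an orthonormal basis (`exists_orthonormal`). -/
structure ConstRed (A : ValuationSubring K) (π : A →+* k) (Fk : Type*) [Field Fk] [Algebra k Fk]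
    (F : Type*) [Field F] [Algebra K F] where
  /-- the valuation ring of `F` -/
  O : ValuationSubring F
  /-- the reduction map -/
  red : O →+* Fk
  π_surjective : Function.Surjective π
  red_surjective : Function.Surjective red
  algebraMap_mem : ∀ a : A, algebraMap K F (a : K) ∈ O
  red_algebraMap : ∀ a : A, red ⟨algebraMap K F (a : K), algebraMap_mem a⟩ = algebraMap k Fk (π a)
  exists_unit_smul : ∀ f : F, f ≠ 0 →
    ∃ c : K, c ≠ 0 ∧ algebraMap K F c * f ∈ O ∧ (algebraMap K F c * f)⁻¹ ∈ O
  exists_orthonormal : ∀ V : Submodule K F, Module.Finite K V →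
    ∃ (n : ℕ) (b : Fin n → O), Submodule.span K (Set.range fun i => ((b i : O) : F)) = V ∧
      LinearIndependent k (fun i => red (b i))

namespace ConstRed

variable {A : ValuationSubring K} {π : A →+* k} (R : ConstRed A π Fk F)

/-- `W(D) = red (L(D) ∩ O)`, as a set. -/
def redSet (D : Divisor K F) : Set Fk :=
  {w | ∃ x : R.O, (x : F) ∈ riemannRochSpace (K := K) D ∧ R.red x = w}

/-- `W(D) = red (L(D) ∩ O)`, the `k`-span (it is already a `k`-subspace, see `mem_W_iff`). -/
def W (D : Divisor K F) : Submodule k Fk :=
  Submodule.span k (R.redSet D)

/-- the polar divisor of a function: `Q ↦ max (0, -ord_Q w)` is not needed; we use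
`IsPolarBound W X`: every element of `W` lies in `L(X)`. -/
def IsPolarBound (W : Submodule k Fk) (X : Divisor k Fk) : Prop :=
  W ≤ riemannRochSpace (K := k) X

/-- `r` is a place reduction for `R`: degree preserving and `r_*(div y) = div (red y)` for all
units `y` of `O`. -/
def IsPlaceRed [RRBase K F] (r : Place K F → Place k Fk) : Prop :=
  (∀ P, (r P).deg = P.deg) ∧
    ∀ y : R.O, R.red y ≠ 0 →
      ∀ Q : Place k Fk, Finsupp.mapDomain r (divOf (K := K) ((y : R.O) : F)) Q = Q.ord (R.red y)

end ConstRed

end Fermat.Agent.GoodRed

end
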