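/-
Item 75a GOODRED-a (architect helper26): DESCENT of the place reduction along a tower, interface.

Setting: function fields `F ⊆ F'` over `K` and `Fk ⊆ Fk'` over `k`, constant reductions `R` of `F`
and `R'` of `F'` which are compatible (`ConstRed.IsTower`) and of the same degree
(`[F' : F] = [Fk' : Fk]`).  If `F'` has a place reduction `r'` with the lifting property (F3)
(Theorem C of 75b, available at the auxiliary levels `M`), then `F` has a place reduction `r` with
`r (P'|F) = (r' P')|Fk`.  No hypothesis on the genus of `F`, `Fk`.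
Blueprint: NOTES/GOODRED_a_blueprint.md; signatures: NOTES/GOODRED_a_signatures.lean.txt.
-/
import Mathlib
import Fermat.Agent.GoodRed.Defs
import Fermat.Prelude.Def_AlgebraicCurve_DivisorPushPull

set_option autoImplicit false

noncomputable section

namespace Fermat.Agent.GoodRed

open AlgebraicCurve Fermat.Agent.RRlib

variable {K F F' k Fk Fk' : Type*} [Field K] [Field F] [Field F'] [Algebra K F] [Algebra K F']
  [Algebra F F'] [IsScalarTower K F F']
  [Field k] [Field Fk] [Field Fk'] [Algebra k Fk] [Algebra k Fk'] [Algebra Fk Fk']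
  [IsScalarTower k Fk Fk']
variable {A : ValuationSubring K} {π : A →+* k}

/-- `RRBase` gives the Prelude's `HasPrincipalDivisors` (same statement). -/
theorem hasPrincipalDivisors_of_rrBase (K F : Type*) [Field K] [Field F] [Algebra K F]
    [RRBase K F] : HasPrincipalDivisors K F :=
  ⟨RRBase.principal⟩

/-- Two constant reductions in a tower `F ⊆ F'`, `Fk ⊆ Fk'` are compatible. -/
structure ConstRed.IsTower (R : ConstRed A π Fk F) (R' : ConstRed A π Fk' F') : Prop where
  map_mem : ∀ x : F, x ∈ R.O → algebraMap F F' x ∈ R'.O
  red_map : ∀ (x : F) (hx : x ∈ R.O),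
    R'.red ⟨algebraMap F F' x, map_mem x hx⟩ = algebraMap Fk Fk' (R.red ⟨x, hx⟩)

/-- The hypotheses of the descent, bundled.  `r'` is a place reduction of the upper level with
the lifting property (F3) (75b Theorem C at a level `M` with genus equality); the norm formulas and
`deg = 1` come from item 74; `x` is a function of the LOWER field which keeps its degree in `F'`
under reduction (for us `x = j`, degrees `ψ(M)` by item 66). -/
structure ConstRed.DescentData (R : ConstRed A π Fk F) (R' : ConstRed A π Fk' F')
    [RRHyp K F'] [RRHyp k Fk'] [RRHyp k Fk] [Algebra.IsIntegral F F'] [Algebra.IsIntegral Fk Fk']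
    [FiniteDimensional F F'] [FiniteDimensional Fk Fk']
    (r' : Place K F' → Place k Fk') (x : R.O) : Prop where
  tower : R.IsTower R'
  finrank_eq : Module.finrank F F' = Module.finrank Fk Fk'
  isPlaceRed : R'.IsPlaceRed r'
  /-- lifting (F3) at the upper level -/
  W_eq : ∀ D : Divisor K F', 2 * (genusFF K F' : ℤ) - 2 < Divisor.degree D →
    R'.W D = riemannRochSpace (K := k) (Finsupp.mapDomain r' D)
  norm_K : Divisor.PushforwardNormFormula K F F'
  norm_k : Divisor.PushforwardNormFormula k Fk Fk'
  deg_K : ∀ P : Place K F', P.deg = 1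
  deg_k : ∀ Q : Place k Fk', Q.deg = 1
  x_nonconst : R.red x ∉ Set.range (algebraMap k Fk)
  x_deg : ∀ (D : Divisor K F') (X : Divisor k Fk'),
    (∀ v : Place K F', D v = max 0 (-(v.ord (algebraMap F F' ((x : R.O) : F))))) →
    (∀ w : Place k Fk', X w = max 0 (-(w.ord (algebraMap Fk Fk' (R.red x))))) →
    Divisor.degree D ≤ Divisor.degree X

end Fermat.Agent.GoodRed

end
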