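/-
Item 75b GOODRED, piece L (helper9): linear algebra of the unit ball of a constant reduction.

Main results (namespace `Fermat.Agent.GoodRed.ConstRed`), exact signatures of
NOTES/GOODRED_signatures.lean.txt (`π_eq_zero_iff` takes `R` explicitly: it is false without the
surjectivity of `π`):
`π_eq_zero_iff`, `red_eq_zero_iff`, `algebraMap_mem_iff`, `linearIndependent_of_red`, `mem_W_iff`,
`W_mono`, `one_mem_W`, `mul_mem_W`, `red_mul_mem_W_iff`, `finrank_W` (Theorem A),
`card_le_finrank_of_red`.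
No sorry in this file.
-/
import Mathlib
import Fermat.Agent.GoodRed.Defs
import Fermat.Agent.RRlib.LFinite

set_option autoImplicit false

noncomputable section

namespace Fermat.Agent.GoodRed

open AlgebraicCurve Fermat.Agent.RRlib

/-- the kernel of a surjective ring hom from a valuation subring onto a field is the set of
nonunits -/
lemma valSubring_map_eq_zero_iff {L κ : Type*} [Field L] [Field κ] (V : ValuationSubring L)
    (f : V →+* κ) (hf : Function.Surjective f) (x : V) : f x = 0 ↔ (x : L) ∈ V.nonunits := by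
  have hmax : (RingHom.ker f).IsMaximal := RingHom.ker_isMaximal_of_surjective f hf
  have hker : RingHom.ker f = IsLocalRing.maximalIdeal V := IsLocalRing.eq_maximalIdeal hmax
  rw [ValuationSubring.coe_mem_nonunits_iff, ← hker, RingHom.mem_ker]

variable {K F k Fk : Type*} [Field K] [Field F] [Algebra K F] [Field k] [Field Fk] [Algebra k Fk]
variable {A : ValuationSubring K} {π : A →+* k} (R : ConstRed A π Fk F)

namespace ConstRed

include R in
theorem π_eq_zero_iff (a : A) : π a = 0 ↔ (a : K) ∈ A.nonunits :=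
  valSubring_map_eq_zero_iff A π R.π_surjective a

theorem red_eq_zero_iff (x : R.O) : R.red x = 0 ↔ (x : F) ∈ R.O.nonunits :=
  valSubring_map_eq_zero_iff R.O R.red R.red_surjective x

/-- `red (a • x) = π a • red x` -/
lemma red_algebraMap_mul (a : A) (x : R.O) :
    R.red (⟨algebraMap K F (a : K), R.algebraMap_mem a⟩ * x) = π a • R.red x := by
  rw [map_mul, R.red_algebraMap, Algebra.smul_def]

theorem algebraMap_mem_iff (a : K) : algebraMap K F a ∈ R.O ↔ a ∈ A := by
  constructor
  · intro h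
    by_contra ha
    have ha0 : a ≠ 0 := fun h0 => ha (h0 ▸ A.zero_mem)
    have hinv : a⁻¹ ∈ A := (A.mem_or_inv_mem a).resolve_left ha
    have hnu : a⁻¹ ∈ A.nonunits := by
      rw [ValuationSubring.mem_nonunits_iff_or]
      right
      rwa [inv_inv]
    have hπ : π ⟨a⁻¹, hinv⟩ = 0 := (R.π_eq_zero_iff ⟨a⁻¹, hinv⟩).mpr hnu
    have hred : R.red ⟨algebraMap K F a⁻¹, R.algebraMap_mem ⟨a⁻¹, hinv⟩⟩ = 0 := by
      rw [R.red_algebraMap ⟨a⁻¹, hinv⟩, hπ, map_zero]
    have hmul : (⟨algebraMap K F a, h⟩ : R.O) * ⟨algebraMap K F a⁻¹, R.algebraMap_mem ⟨a⁻¹, hinv⟩⟩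
        = 1 := by
      apply Subtype.ext
      show algebraMap K F a * algebraMap K F a⁻¹ = 1
      rw [← map_mul, mul_inv_cancel₀ ha0, map_one]
    have := congrArg R.red hmul
    rw [map_mul, hred, mul_zero, map_one] at this
    exact zero_ne_one this
  · intro h
    exact R.algebraMap_mem ⟨a, h⟩

/-- normalisation of a linear combination: dividing by a coefficient of maximal valuation gives an
element of `O` with nonzero reduction -/
lemma red_normalised_ne_zero {ι : Type*} (x : ι → R.O)
    (h : LinearIndependent k (fun i => R.red (x i))) (s : Finset ι) (g : ι → K) (j : ι)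
    (hj : j ∈ s) (hgj : g j ≠ 0) (hmax : ∀ i ∈ s, A.valuation (g i) ≤ A.valuation (g j)) :
    ∃ y : R.O, (y : F) = algebraMap K F (g j)⁻¹ * ∑ i ∈ s, g i • ((x i : R.O) : F) ∧
      R.red y ≠ 0 := by
  classical
  have hmem : ∀ i ∈ s, g i / g j ∈ A := by
    intro i hi
    rw [← A.valuation_le_one_iff, map_div₀]
    exact div_le_one_of_le₀ (hmax i hi) zero_le
  obtain ⟨a, ha⟩ : ∃ a : ι → A, ∀ i ∈ s, ((a i : A) : K) = g i / g j :=
    ⟨fun i => if hi : i ∈ s then ⟨g i / g j, hmem i hi⟩ else 0, fun i hi => by simp [hi]⟩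
  refine ⟨∑ i ∈ s, ⟨algebraMap K F (a i : K), R.algebraMap_mem (a i)⟩ * x i, ?_, ?_⟩
  · rw [Finset.mul_sum, AddSubmonoidClass.coe_finsetSum]
    refine Finset.sum_congr rfl fun i hi => ?_
    show algebraMap K F (a i : K) * ((x i : R.O) : F) = _
    rw [ha i hi, Algebra.smul_def, ← mul_assoc, ← map_mul]
    congr 2
    field_simp
  · intro h0
    rw [map_sum] at h0
    have h1 : ∑ i ∈ s, π (a i) • R.red (x i) = 0 := by
      rw [← h0]
      exact Finset.sum_congr rfl fun i _ => (R.red_algebraMap_mul (a i) (x i)).symm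
    have h2 := linearIndependent_iff'.mp h s (fun i => π (a i)) h1 j hj
    have h3 : a j = 1 := by
      apply Subtype.ext
      rw [ha j hj, div_self hgj]
      rfl
    rw [h3, map_one] at h2
    exact one_ne_zero h2

/-- lifts of `k`-independent elements are `K`-independent -/
theorem linearIndependent_of_red {ι : Type*} (x : ι → R.O)
    (h : LinearIndependent k (fun i => R.red (x i))) :
    LinearIndependent K (fun i => ((x i : R.O) : F)) := by
  classical
  rw [linearIndependent_iff']
  intro s g hsum i hi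
  by_contra hgi
  obtain ⟨j, hj, hmax⟩ := Finset.exists_max_image s (fun i => A.valuation (g i)) ⟨i, hi⟩
  have hgj : g j ≠ 0 := by
    intro h0
    have h1 := hmax i hi
    rw [h0, map_zero] at h1
    exact hgi ((A.valuation).zero_iff.mp (le_antisymm h1 zero_le))
  obtain ⟨y, hy, hne⟩ := R.red_normalised_ne_zero x h s g j hj hgj hmax
  rw [hsum, mul_zero] at hy
  have hy0 : y = 0 := Subtype.ext hy
  rw [hy0, map_zero] at hne
  exact hne rfl

/-- if a combination of an orthonormal family lies in `O`, its coefficients lie in `A` -/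
lemma coeff_mem_of_sum_mem {ι : Type*} (x : ι → R.O)
    (h : LinearIndependent k (fun i => R.red (x i))) (s : Finset ι) (g : ι → K)
    (hy : ∑ i ∈ s, g i • ((x i : R.O) : F) ∈ R.O) : ∀ i ∈ s, g i ∈ A := by
  classical
  intro i hi
  by_contra hgi
  obtain ⟨j, hj, hmax⟩ := Finset.exists_max_image s (fun i => A.valuation (g i)) ⟨i, hi⟩
  have hgjA : g j ∉ A := by
    intro hA
    apply hgi
    rw [← A.valuation_le_one_iff] at hA ⊢
    exact (hmax i hi).trans hA
  have hgj : g j ≠ 0 := fun h0 => hgjA (h0 ▸ A.zero_mem)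
  obtain ⟨y, hyeq, hne⟩ := R.red_normalised_ne_zero x h s g j hj hgj hmax
  have hinv : (g j)⁻¹ ∈ A := (A.mem_or_inv_mem (g j)).resolve_left hgjA
  have hnu : (g j)⁻¹ ∈ A.nonunits := by
    rw [ValuationSubring.mem_nonunits_iff_or]
    right
    rwa [inv_inv]
  have hπ : π ⟨(g j)⁻¹, hinv⟩ = 0 := (R.π_eq_zero_iff ⟨(g j)⁻¹, hinv⟩).mpr hnu
  have hyy : y = ⟨algebraMap K F (g j)⁻¹, R.algebraMap_mem ⟨(g j)⁻¹, hinv⟩⟩ *
      ⟨∑ i ∈ s, g i • ((x i : R.O) : F), hy⟩ := Subtype.ext hyeq
  rw [hyy, R.red_algebraMap_mul ⟨(g j)⁻¹, hinv⟩, hπ, zero_smul] at hne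
  exact hne rfl

/-- reduction of a combination with coefficients in `A` -/
lemma red_sum_smul {ι : Type*} (x : ι → R.O) (s : Finset ι) (a : ι → A) (y : R.O)
    (hy : (y : F) = ∑ i ∈ s, ((a i : A) : K) • ((x i : R.O) : F)) :
    R.red y = ∑ i ∈ s, π (a i) • R.red (x i) := by
  have hyy : y = ∑ i ∈ s, ⟨algebraMap K F (a i : K), R.algebraMap_mem (a i)⟩ * x i := by
    apply Subtype.ext
    rw [hy]
    push_cast
    refine Finset.sum_congr rfl fun i _ => ?_
    rw [Algebra.smul_def]
  rw [hyy, map_sum]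
  exact Finset.sum_congr rfl fun i _ => R.red_algebraMap_mul (a i) (x i)

/-- `W(D)` is exactly the image of `L(D) ∩ O` -/
theorem mem_W_iff (D : Divisor K F) (w : Fk) :
    w ∈ R.W D ↔ ∃ x : R.O, (x : F) ∈ riemannRochSpace (K := K) D ∧ R.red x = w := by
  constructor
  · intro hw
    refine Submodule.span_induction (p := fun w _ => ∃ x : R.O,
      (x : F) ∈ riemannRochSpace (K := K) D ∧ R.red x = w) ?_ ?_ ?_ ?_ hw
    · intro w hw
      exact hw
    · exact ⟨0, (riemannRochSpace (K := K) D).zero_mem, map_zero _⟩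
    · rintro w w' _ _ ⟨x, hx, rfl⟩ ⟨x', hx', rfl⟩
      exact ⟨x + x', (riemannRochSpace (K := K) D).add_mem hx hx', map_add _ _ _⟩
    · rintro c w _ ⟨x, hx, rfl⟩
      obtain ⟨a, rfl⟩ := R.π_surjective c
      refine ⟨⟨algebraMap K F (a : K), R.algebraMap_mem a⟩ * x, ?_, R.red_algebraMap_mul a x⟩
      show algebraMap K F (a : K) * (x : F) ∈ riemannRochSpace (K := K) D
      rw [← Algebra.smul_def]
      exact (riemannRochSpace (K := K) D).smul_mem _ hx
  · intro hw
    exact Submodule.subset_span hw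

theorem W_mono {D D' : Divisor K F} (h : D ≤ D') : R.W D ≤ R.W D' := by
  intro w hw
  rw [mem_W_iff] at hw ⊢
  obtain ⟨x, hx, rfl⟩ := hw
  exact ⟨x, riemannRochSpace_mono h hx, rfl⟩

theorem one_mem_W {D : Divisor K F} (h : 0 ≤ D) : (1 : Fk) ∈ R.W D := by
  rw [mem_W_iff]
  refine ⟨1, ?_, map_one _⟩
  show (1 : F) ∈ riemannRochSpace (K := K) D
  rw [mem_riemannRochSpace_iff]
  intro v
  right
  rw [Place.ord_one]
  have := Finsupp.le_def.mp h v
  simp only [Finsupp.coe_zero, Pi.zero_apply] at this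
  linarith

theorem mul_mem_W {D D' : Divisor K F} {w w' : Fk} (hw : w ∈ R.W D) (hw' : w' ∈ R.W D') :
    w * w' ∈ R.W (D + D') := by
  rw [mem_W_iff] at hw hw' ⊢
  obtain ⟨x, hx, rfl⟩ := hw
  obtain ⟨x', hx', rfl⟩ := hw'
  refine ⟨x * x', ?_, map_mul _ _ _⟩
  show (x : F) * (x' : F) ∈ riemannRochSpace (K := K) (D + D')
  rw [mem_riemannRochSpace_iff] at hx hx' ⊢
  intro v
  by_cases h0 : (x : F) = 0
  · left; rw [h0, zero_mul]
  by_cases h0' : (x' : F) = 0
  · left; rw [h0', mul_zero]
  right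
  rw [Place.ord_mul _ h0 h0']
  have h1 := (hx v).resolve_left h0
  have h2 := (hx' v).resolve_left h0'
  simp only [Finsupp.coe_add, Pi.add_apply]
  linarith

/-- `y · L(D) = L(D − div y)` and `y` is a unit of `O` -/
theorem red_mul_mem_W_iff [RRBase K F] (y : R.O) (hy : R.red y ≠ 0) (D : Divisor K F) (w : Fk) :
    R.red y * w ∈ R.W (D - divOf (K := K) ((y : R.O) : F)) ↔ w ∈ R.W D := by
  have hy0 : (y : F) ≠ 0 := by
    intro h0
    have : y = 0 := Subtype.ext h0
    rw [this, map_zero] at hy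
    exact hy rfl
  have hynu : (y : F) ∉ R.O.nonunits := fun h => hy ((R.red_eq_zero_iff y).mpr h)
  have hyinv : (y : F)⁻¹ ∈ R.O := by
    rw [ValuationSubring.mem_nonunits_iff_or, not_or, not_not] at hynu
    exact hynu.2
  have hkey : ∀ g : F, (y : F) * g ∈ riemannRochSpace (K := K)
      (D - divOf (K := K) ((y : R.O) : F)) ↔ g ∈ riemannRochSpace (K := K) D := by
    intro g
    rw [mul_mem_riemannRochSpace_iff hy0, sub_add_cancel]
  rw [mem_W_iff, mem_W_iff]
  constructor
  · rintro ⟨x', hx', hred⟩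
    refine ⟨⟨(y : F)⁻¹, hyinv⟩ * x', ?_, ?_⟩
    · rw [← hkey]
      show (y : F) * ((y : F)⁻¹ * (x' : F)) ∈ _
      rw [← mul_assoc, mul_inv_cancel₀ hy0, one_mul]
      exact hx'
    · have h1 : R.red y * R.red (⟨(y : F)⁻¹, hyinv⟩ * x') = R.red y * w := by
        rw [← map_mul, ← hred]
        congr 1
        apply Subtype.ext
        show (y : F) * ((y : F)⁻¹ * (x' : F)) = (x' : F)
        rw [← mul_assoc, mul_inv_cancel₀ hy0, one_mul]
      exact mul_left_cancel₀ hy h1
  · rintro ⟨x, hx, rfl⟩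
    refine ⟨y * x, ?_, map_mul _ _ _⟩
    show (y : F) * (x : F) ∈ _
    rw [hkey]
    exact hx

/-- **Theorem A**: `dim_k W(V) = dim_K V`; here for `V = L(D)` -/
theorem finrank_W [RRBase K F] (D : Divisor K F) :
    Module.Finite k (R.W D) ∧ Module.finrank k (R.W D) = ell D := by
  classical
  have hfinL := finite_riemannRochSpace (K := K) D
  obtain ⟨n, b, hspan, hind⟩ := R.exists_orthonormal (riemannRochSpace (K := K) D) hfinL
  have hindK := R.linearIndependent_of_red b hind
  have hell : ell D = n := by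
    rw [ell, ← hspan, finrank_span_eq_card hindK, Fintype.card_fin]
  have hbmem : ∀ i, ((b i : R.O) : F) ∈ riemannRochSpace (K := K) D := by
    intro i
    rw [← hspan]
    exact Submodule.subset_span ⟨i, rfl⟩
  have hW : R.W D = Submodule.span k (Set.range fun i => R.red (b i)) := by
    apply le_antisymm
    · intro w hw
      rw [mem_W_iff] at hw
      obtain ⟨x, hx, rfl⟩ := hw
      rw [← hspan] at hx
      obtain ⟨g, hg⟩ := (Submodule.mem_span_range_iff_exists_fun K).mp hx
      have hgA : ∀ i ∈ (Finset.univ : Finset (Fin n)), g i ∈ A := by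
        refine R.coeff_mem_of_sum_mem b hind Finset.univ g ?_
        rw [hg]
        exact x.2
      have hred := R.red_sum_smul b Finset.univ (fun i => ⟨g i, hgA i (Finset.mem_univ i)⟩) x
        hg.symm
      rw [hred]
      refine Submodule.sum_mem _ fun i _ => ?_
      exact Submodule.smul_mem _ _ (Submodule.subset_span ⟨i, rfl⟩)
    · rw [Submodule.span_le]
      rintro _ ⟨i, rfl⟩
      exact (R.mem_W_iff D _).mpr ⟨b i, hbmem i, rfl⟩
  rw [hW]
  refine ⟨FiniteDimensional.span_of_finite k (Set.finite_range _), ?_⟩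
  rw [finrank_span_eq_card hind, Fintype.card_fin, hell]

/-- the easy half of Theorem A for an arbitrary finite-dimensional `V` (used in B) -/
theorem card_le_finrank_of_red {ι : Type*} [Fintype ι] (V : Submodule K F) [Module.Finite K V]
    (x : ι → R.O) (hx : ∀ i, ((x i : R.O) : F) ∈ V)
    (h : LinearIndependent k (fun i => R.red (x i))) :
    Fintype.card ι ≤ Module.finrank K V := by
  have hindK := R.linearIndependent_of_red x h
  have hV : LinearIndependent K (fun i => (⟨((x i : R.O) : F), hx i⟩ : V)) := by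
    apply LinearIndependent.of_comp V.subtype
    exact hindK
  exact hV.fintype_card_le_finrank

end ConstRed

end Fermat.Agent.GoodRed

end
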