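/-
Item 75b GOODRED, piece M1 (helper14): the constant reduction datum of the modular function field.

`O := {f ∈ F | f·b = a, a, b ∈ F ∩ A((q)), bbar ≠ 0}`, `red f := abar / bbar`.
-/
import Mathlib
import Fermat.Agent.GoodRed.Defs
import Fermat.Agent.GoodRed.Echelon

set_option autoImplicit false
set_option synthInstance.maxHeartbeats 400000

noncomputable section

namespace Fermat.Agent.GoodRed

open ModularCurve HahnSeries AlgebraicCurve

section Rep

variable {K : Type*} [Field K] (A : ValuationSubring K)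
variable (F : IntermediateField K (LaurentSeries K))

theorem coeffMap_C {R S : Type*} [CommRing R] [CommRing S] (f : R →+* S) (r : R) :
    coeffMap f (HahnSeries.C r : LaurentSeries R) = HahnSeries.C (f r) := by
  rw [HahnSeries.C_apply, HahnSeries.C_apply, coeffMap_single]

/-- `f = a / b` with `a`, `b` series over `A` lying in `F`, and `b` primitive -/
def IsRep (f : LaurentSeries K) (a b : LaurentSeries A) : Prop :=
  coeffMap A.subtype a ∈ F ∧ coeffMap A.subtype b ∈ F ∧
    coeffMap (IsLocalRing.residue A) b ≠ 0 ∧ f * coeffMap A.subtype b = coeffMap A.subtype a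

variable {A F}

theorem IsRep.ne_zero {f : LaurentSeries K} {a b : LaurentSeries A} (h : IsRep A F f a b) :
    coeffMap A.subtype b ≠ 0 := by
  intro h0
  have : b = 0 := coeffMap_valSubtype_injective A (by rw [h0, map_zero])
  exact h.2.2.1 (by rw [this, map_zero])

theorem IsRep.add {f f' : LaurentSeries K} {a b a' b' : LaurentSeries A}
    (h : IsRep A F f a b) (h' : IsRep A F f' a' b') :
    IsRep A F (f + f') (a * b' + a' * b) (b * b') := by
  obtain ⟨ha, hb, hpb, hab⟩ := h
  obtain ⟨ha', hb', hpb', hab'⟩ := h'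
  refine ⟨?_, ?_, ?_, ?_⟩
  · rw [map_add, map_mul, map_mul]
    exact add_mem (mul_mem ha hb') (mul_mem ha' hb)
  · rw [map_mul]
    exact mul_mem hb hb'
  · rw [map_mul]
    exact mul_ne_zero hpb hpb'
  · rw [map_add, map_mul, map_mul, map_mul, ← hab, ← hab']
    ring

theorem IsRep.mul {f f' : LaurentSeries K} {a b a' b' : LaurentSeries A}
    (h : IsRep A F f a b) (h' : IsRep A F f' a' b') :
    IsRep A F (f * f') (a * a') (b * b') := by
  obtain ⟨ha, hb, hpb, hab⟩ := h
  obtain ⟨ha', hb', hpb', hab'⟩ := h'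
  refine ⟨?_, ?_, ?_, ?_⟩
  · rw [map_mul]
    exact mul_mem ha ha'
  · rw [map_mul]
    exact mul_mem hb hb'
  · rw [map_mul]
    exact mul_ne_zero hpb hpb'
  · rw [map_mul, map_mul, ← hab, ← hab']
    ring

theorem IsRep.neg {f : LaurentSeries K} {a b : LaurentSeries A}
    (h : IsRep A F f a b) : IsRep A F (-f) (-a) b := by
  obtain ⟨ha, hb, hpb, hab⟩ := h
  refine ⟨?_, hb, hpb, ?_⟩
  · rw [map_neg]
    exact neg_mem ha
  · rw [map_neg, ← hab]
    ring

theorem isRep_self {y : LaurentSeries A} (hy : coeffMap A.subtype y ∈ F) :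
    IsRep A F (coeffMap A.subtype y) y 1 := by
  refine ⟨hy, ?_, ?_, ?_⟩
  · rw [map_one]
    exact one_mem _
  · rw [map_one]
    exact one_ne_zero
  · rw [map_one, mul_one]

theorem isRep_zero : IsRep A F 0 0 1 := by
  have h := isRep_self (A := A) (F := F) (y := 0) (by rw [map_zero]; exact zero_mem _)
  rwa [map_zero] at h

theorem isRep_one : IsRep A F 1 1 1 := by
  have h := isRep_self (A := A) (F := F) (y := 1) (by rw [map_one]; exact one_mem _)
  rwa [map_one] at h

theorem IsRep.inv {f : LaurentSeries K} {a b : LaurentSeries A}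
    (h : IsRep A F f a b) (hpa : coeffMap (IsLocalRing.residue A) a ≠ 0) :
    IsRep A F f⁻¹ b a := by
  obtain ⟨ha, hb, hpb, hab⟩ := h
  have hb0 : coeffMap A.subtype b ≠ 0 := IsRep.ne_zero ⟨ha, hb, hpb, hab⟩
  have ha0 : coeffMap A.subtype a ≠ 0 := by
    intro h0
    have : a = 0 := coeffMap_valSubtype_injective A (by rw [h0, map_zero])
    exact hpa (by rw [this, map_zero])
  have hf0 : f ≠ 0 := by
    intro h0
    rw [h0, zero_mul] at hab
    exact ha0 hab.symm
  refine ⟨hb, ha, hpa, ?_⟩
  rw [← hab, ← mul_assoc, inv_mul_cancel₀ hf0, one_mul]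

/-- the reduction of a fraction does not depend on the representation -/
theorem IsRep.red_eq {f : LaurentSeries K} {a b a' b' : LaurentSeries A}
    (h : IsRep A F f a b) (h' : IsRep A F f a' b') :
    coeffMap (IsLocalRing.residue A) a / coeffMap (IsLocalRing.residue A) b =
      coeffMap (IsLocalRing.residue A) a' / coeffMap (IsLocalRing.residue A) b' := by
  have e : a * b' = a' * b := by
    apply coeffMap_valSubtype_injective A
    rw [map_mul, map_mul, ← h.2.2.2, ← h'.2.2.2]
    ring
  rw [div_eq_div_iff h.2.2.1 h'.2.2.1, ← map_mul, ← map_mul, e]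

end Rep

section Ball

variable {K : Type*} [Field K] (A : ValuationSubring K)
variable (F : IntermediateField K (LaurentSeries K))
variable (Fk : IntermediateField (IsLocalRing.ResidueField A)
  (LaurentSeries (IsLocalRing.ResidueField A)))

/-- the hypothesis "every nonzero element of `F` is `c·a/b` with `a`, `b` primitive" -/
def HasPrimFrac : Prop :=
  ∀ f : LaurentSeries K, f ∈ F → f ≠ 0 → ∃ a b : LaurentSeries A,
    coeffMap A.subtype a ∈ F ∧ coeffMap A.subtype b ∈ F ∧
    coeffMap (IsLocalRing.residue A) a ≠ 0 ∧ coeffMap (IsLocalRing.residue A) b ≠ 0 ∧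
    ∃ c : K, c ≠ 0 ∧ f * coeffMap A.subtype b = HahnSeries.C c * coeffMap A.subtype a

/-- the hypothesis "reductions of integral elements of `F` lie in `Fk`" -/
def RedInto : Prop :=
  ∀ y : LaurentSeries A, coeffMap A.subtype y ∈ F → coeffMap (IsLocalRing.residue A) y ∈ Fk

variable {A F Fk}

/-- the unit ball of the Gauss valuation -/
def unitBall (hfrac : HasPrimFrac A F) : ValuationSubring F where
  carrier := {f | ∃ a b, IsRep A F (f : LaurentSeries K) a b}
  mul_mem' := by
    rintro x y ⟨a, b, h⟩ ⟨a', b', h'⟩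
    exact ⟨_, _, h.mul h'⟩
  one_mem' := ⟨1, 1, isRep_one⟩
  add_mem' := by
    rintro x y ⟨a, b, h⟩ ⟨a', b', h'⟩
    exact ⟨_, _, h.add h'⟩
  zero_mem' := ⟨0, 1, isRep_zero⟩
  neg_mem' := by
    rintro x ⟨a, b, h⟩
    exact ⟨_, _, h.neg⟩
  mem_or_inv_mem' := by
    intro x
    by_cases hx : x = 0
    · left
      rw [hx]
      exact ⟨0, 1, isRep_zero⟩
    have hx' : (x : LaurentSeries K) ≠ 0 := fun h => hx (Subtype.ext h)
    obtain ⟨a, b, ha, hb, hpa, hpb, c, hc, h⟩ := hfrac x x.2 hx'
    rcases A.mem_or_inv_mem c with hcA | hcA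
    · left
      refine ⟨HahnSeries.C ⟨c, hcA⟩ * a, b, ?_, hb, hpb, ?_⟩
      · rw [map_mul, coeffMap_C]
        exact mul_mem (C_mem_intermediateField F c) ha
      · rw [map_mul, coeffMap_C]
        exact h
    · right
      refine ⟨HahnSeries.C ⟨c⁻¹, hcA⟩ * b, a, ?_, ha, hpa, ?_⟩
      · rw [map_mul, coeffMap_C]
        exact mul_mem (C_mem_intermediateField F c⁻¹) hb
      · rw [map_mul, coeffMap_C]
        show ((x : LaurentSeries K))⁻¹ * coeffMap A.subtype a = _
        have e : coeffMap A.subtype a = HahnSeries.C c⁻¹ * ((x : LaurentSeries K) *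
            coeffMap A.subtype b) := by
          rw [h, ← mul_assoc, ← map_mul]
          show _ = HahnSeries.C (c⁻¹ * c) * _
          rw [inv_mul_cancel₀ hc, map_one, one_mul]
        rw [e, mul_left_comm, inv_mul_cancel_left₀ hx']
        rfl

theorem mem_unitBall_iff (hfrac : HasPrimFrac A F) (x : F) :
    x ∈ unitBall hfrac ↔ ∃ a b, IsRep A F (x : LaurentSeries K) a b := Iff.rfl

/-- the reduction map, as a function -/
def redFun (hfrac : HasPrimFrac A F) (hred : RedInto A F Fk) (x : unitBall hfrac) : Fk :=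
  ⟨coeffMap (IsLocalRing.residue A) (Classical.choose x.2) /
      coeffMap (IsLocalRing.residue A) (Classical.choose (Classical.choose_spec x.2)),
    div_mem (hred _ (Classical.choose_spec (Classical.choose_spec x.2)).1)
      (hred _ (Classical.choose_spec (Classical.choose_spec x.2)).2.1)⟩

theorem redFun_eq (hfrac : HasPrimFrac A F) (hred : RedInto A F Fk) (x : unitBall hfrac)
    {a b : LaurentSeries A} (h : IsRep A F ((x : F) : LaurentSeries K) a b) :
    ((redFun hfrac hred x : Fk) : LaurentSeries (IsLocalRing.ResidueField A)) =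
      coeffMap (IsLocalRing.residue A) a / coeffMap (IsLocalRing.residue A) b :=
  IsRep.red_eq (Classical.choose_spec (Classical.choose_spec x.2)) h

/-- the reduction map -/
def redHom (hfrac : HasPrimFrac A F) (hred : RedInto A F Fk) : unitBall hfrac →+* Fk where
  toFun := redFun hfrac hred
  map_one' := by
    apply Subtype.ext
    rw [redFun_eq hfrac hred 1 (a := 1) (b := 1) isRep_one, map_one, div_one]
    rfl
  map_mul' x y := by
    obtain ⟨a, b, h⟩ := x.2
    obtain ⟨a', b', h'⟩ := y.2
    apply Subtype.ext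
    rw [redFun_eq hfrac hred (x * y) (h.mul h'), MulMemClass.coe_mul, redFun_eq hfrac hred x h,
      redFun_eq hfrac hred y h', map_mul, map_mul, mul_div_mul_comm]
  map_zero' := by
    apply Subtype.ext
    rw [redFun_eq hfrac hred 0 (a := 0) (b := 1) isRep_zero, map_zero, zero_div]
    rfl
  map_add' x y := by
    obtain ⟨a, b, h⟩ := x.2
    obtain ⟨a', b', h'⟩ := y.2
    apply Subtype.ext
    rw [redFun_eq hfrac hred (x + y) (h.add h'), AddMemClass.coe_add, redFun_eq hfrac hred x h,
      redFun_eq hfrac hred y h', map_add, map_mul, map_mul, map_mul,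
      div_add_div _ _ h.2.2.1 h'.2.2.1]
    congr 1
    ring

theorem redHom_eq (hfrac : HasPrimFrac A F) (hred : RedInto A F Fk) (x : unitBall hfrac)
    {a b : LaurentSeries A} (h : IsRep A F ((x : F) : LaurentSeries K) a b) :
    ((redHom hfrac hred x : Fk) : LaurentSeries (IsLocalRing.ResidueField A)) =
      coeffMap (IsLocalRing.residue A) a / coeffMap (IsLocalRing.residue A) b :=
  redFun_eq hfrac hred x h

end Ball

section LinMaps

variable {R : Type*} [Field R] (G : IntermediateField R (LaurentSeries R))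

theorem coe_smul_intermediateField (c : R) (f : G) :
    ((c • f : G) : LaurentSeries R) = HahnSeries.C c * (f : LaurentSeries R) := by
  rw [Algebra.smul_def]
  show algebraMap R (LaurentSeries R) c * (f : LaurentSeries R) = _
  rw [algebraMap_laurentSeries_eq_single]
  rfl

/-- the inclusion of an intermediate field, as a linear map -/
def inclLin : G →ₗ[R] LaurentSeries R where
  toFun f := (f : LaurentSeries R)
  map_add' _ _ := rfl
  map_smul' c f := by
    rw [coe_smul_intermediateField, HahnSeries.C_mul_eq_smul]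
    rfl

@[simp]
theorem inclLin_apply (f : G) : inclLin G f = (f : LaurentSeries R) := rfl

/-- right multiplication, as a linear map -/
def mulRightLin (w : LaurentSeries R) : LaurentSeries R →ₗ[R] LaurentSeries R where
  toFun x := x * w
  map_add' x y := add_mul x y w
  map_smul' c x := by
    rw [RingHom.id_apply, ← HahnSeries.C_mul_eq_smul, ← HahnSeries.C_mul_eq_smul, mul_assoc]

@[simp]
theorem mulRightLin_apply (w x : LaurentSeries R) : mulRightLin w x = x * w := rfl

end LinMaps

section Ortho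

variable {K : Type*} [Field K] [Algebra ℚ K] {A : ValuationSubring K}
variable {F : IntermediateField K (LaurentSeries K)}
variable {Fk : IntermediateField (IsLocalRing.ResidueField A)
  (LaurentSeries (IsLocalRing.ResidueField A))}

theorem hasPrimFrac_of_isFracNF {ℓ : ℕ} (hℓ : ℓ.Prime) (hlt : A.valuation (ℓ : K) < 1)
    (hfracNF : ∀ f ∈ F, IsFracNF A F f) : HasPrimFrac A F := by
  intro f hf hf0
  obtain ⟨a, b, ha, hb, hpa, hpb, -, -, c, hc, h⟩ :=
    (hfracNF f hf).exists_primitive_smul hℓ hlt hf0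
  exact ⟨a, b, ha, hb, hpa, hpb, c, hc, h⟩

/-- a finite-dimensional subspace of `F` has a common `NFInt` denominator -/
theorem exists_common_denom (halg : ∀ c : K, IsIntegral ℚ c)
    (hfracNF : ∀ f ∈ F, IsFracNF A F f) (V : Submodule K F) (hV : V.FG) :
    ∃ b : LaurentSeries K, b ∈ F ∧ b ≠ 0 ∧ NFInt A b ∧
      ∀ f ∈ V, IsBddNF A (((f : F) : LaurentSeries K) * b) := by
  refine Submodule.fg_induction
    (motive := fun V _ => ∃ b : LaurentSeries K, b ∈ F ∧ b ≠ 0 ∧ NFInt A b ∧
      ∀ f ∈ V, IsBddNF A (((f : F) : LaurentSeries K) * b)) ?_ ?_ V hV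
  · intro x
    obtain ⟨a, b, ha, hb, hb0, hna, hnb, hab⟩ := hfracNF x x.2
    refine ⟨b, hb, hb0, hnb, fun f hf => ?_⟩
    obtain ⟨c, rfl⟩ := Submodule.mem_span_singleton.mp hf
    have e : (((c • x : F) : F) : LaurentSeries K) * b = HahnSeries.C c * a := by
      rw [← hab, ← mul_assoc, coe_smul_intermediateField]
    rw [e]
    exact hna.isBddNF.C_mul halg c
  · rintro V₁ V₂ - - ⟨b₁, hb₁, hb0₁, hn₁, h₁⟩ ⟨b₂, hb₂, hb0₂, hn₂, h₂⟩
    refine ⟨b₁ * b₂, mul_mem hb₁ hb₂, mul_ne_zero hb0₁ hb0₂, hn₁.mul hn₂, fun f hf => ?_⟩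
    obtain ⟨f₁, hf₁, f₂, hf₂, rfl⟩ := Submodule.mem_sup.mp hf
    have e : (((f₁ + f₂ : F) : F) : LaurentSeries K) * (b₁ * b₂) =
        ((f₁ : LaurentSeries K) * b₁) * b₂ + ((f₂ : LaurentSeries K) * b₂) * b₁ := by
      rw [AddMemClass.coe_add]
      ring
    rw [e]
    exact ((h₁ f₁ hf₁).mul hn₂.isBddNF).add halg ((h₂ f₂ hf₂).mul hn₁.isBddNF)

set_option maxHeartbeats 1000000 in
/-- **orthonormal bases** -/
theorem exists_orthonormal_unitBall (halg : ∀ c : K, IsIntegral ℚ c)
    {ℓ : ℕ} (hℓ : ℓ.Prime) (hlt : A.valuation (ℓ : K) < 1)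
    (hfracNF : ∀ f ∈ F, IsFracNF A F f) (hfrac : HasPrimFrac A F) (hred : RedInto A F Fk)
    (V : Submodule K F) (hV : Module.Finite K V) :
    ∃ (n : ℕ) (b : Fin n → unitBall hfrac),
      Submodule.span K (Set.range fun i => ((b i : unitBall hfrac) : F)) = V ∧
      LinearIndependent (IsLocalRing.ResidueField A) (fun i => redHom hfrac hred (b i)) := by
  have hVfg : V.FG := Module.Finite.iff_fg.mp hV
  obtain ⟨b₀, hb₀F, hb₀0, hnb₀, hb₀⟩ := exists_common_denom halg hfracNF V hVfg
  -- make the denominator primitive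
  obtain ⟨cb, d, hcb, hdF, hpd, -, hed⟩ :=
    NFInt.exists_primitive_mem hℓ hlt hnb₀.isBddNF hb₀F hb₀0
  have hd0 : coeffMap A.subtype d ≠ 0 := by
    intro h0
    rw [h0, mul_zero] at hed
    exact hb₀0 hed
  have hbdd : ∀ f ∈ V, IsBddNF A (((f : F) : LaurentSeries K) * coeffMap A.subtype d) := by
    intro f hf
    have e : ((f : F) : LaurentSeries K) * coeffMap A.subtype d =
        HahnSeries.C cb⁻¹ * (((f : F) : LaurentSeries K) * b₀) := by
      rw [hed]
      have : (HahnSeries.C cb⁻¹ : LaurentSeries K) * HahnSeries.C cb = 1 := by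
        rw [← map_mul, inv_mul_cancel₀ hcb, map_one]
      calc ((f : F) : LaurentSeries K) * coeffMap A.subtype d
          = ((HahnSeries.C cb⁻¹ : LaurentSeries K) * HahnSeries.C cb) *
              (((f : F) : LaurentSeries K) * coeffMap A.subtype d) := by rw [this, one_mul]
        _ = _ := by ring
    rw [e]
    exact (hb₀ f hf).C_mul halg _
  -- the map `f ↦ f · d`
  set T : F →ₗ[K] LaurentSeries K :=
    (mulRightLin (coeffMap A.subtype d)).comp (inclLin F) with hT
  have hTapp : ∀ f : F, T f = ((f : F) : LaurentSeries K) * coeffMap A.subtype d := fun f => rfl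
  have hTinj : Function.Injective T := by
    intro f g hfg
    rw [hTapp, hTapp] at hfg
    exact Subtype.ext (mul_right_cancel₀ hd0 hfg)
  set V' : Submodule K (LaurentSeries K) := V.map T with hV'
  have hprim : HasPrimitives A V' := by
    rintro g ⟨f, hf, rfl⟩ hg0
    obtain ⟨c, g₀, hc, hpg, -, he⟩ := (hbdd f hf).exists_primitive hℓ hlt hg0
    exact ⟨c, g₀, hc, hpg, by rw [← HahnSeries.C_mul_eq_smul]; exact he⟩
  have hfin' : Module.Finite K V' := by
    have := hV
    exact Module.Finite.map V T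
  obtain ⟨n, hn⟩ : ∃ n, Module.finrank K V' = n := ⟨_, rfl⟩
  obtain ⟨e, heV, hspan, hind⟩ := exists_echelon A n V' hprim hfin' hn
  -- preimages
  have hpre : ∀ i, ∃ f : F, f ∈ V ∧ T f = coeffMap A.subtype (e i) := fun i => heV i
  choose f hfV hTf using hpre
  have hrep : ∀ i, IsRep A F ((f i : F) : LaurentSeries K) (e i) d := by
    intro i
    refine ⟨?_, hdF, hpd, ?_⟩
    · rw [← hTf i, hTapp]
      exact mul_mem (f i).2 hdF
    · rw [← hTf i, hTapp]
  refine ⟨n, fun i => ⟨f i, ⟨e i, d, hrep i⟩⟩, ?_, ?_⟩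
  · -- span
    apply Submodule.map_injective_of_injective hTinj
    show Submodule.map T (Submodule.span K (Set.range fun i => f i)) = V'
    rw [Submodule.map_span, ← Set.range_comp,
      show (⇑T ∘ fun i => f i) = fun i => coeffMap A.subtype (e i) from funext hTf]
    exact hspan
  · -- independence
    have hker : LinearMap.ker (mulRightLin (R := IsLocalRing.ResidueField A)
        (coeffMap (IsLocalRing.residue A) d)⁻¹) = ⊥ := by
      rw [LinearMap.ker_eq_bot]
      intro x y hxy
      simp only [mulRightLin_apply] at hxy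
      exact mul_right_cancel₀ (inv_ne_zero hpd) hxy
    have h1 := hind.map' _ hker
    have hval : ∀ i, inclLin Fk (redHom hfrac hred ⟨f i, ⟨e i, d, hrep i⟩⟩) =
        mulRightLin (R := IsLocalRing.ResidueField A) (coeffMap (IsLocalRing.residue A) d)⁻¹
          (coeffMap (IsLocalRing.residue A) (e i)) := by
      intro i
      have h2 := redHom_eq hfrac hred ⟨f i, ⟨e i, d, hrep i⟩⟩ (a := e i) (b := d) (hrep i)
      rw [inclLin_apply, mulRightLin_apply, h2, div_eq_mul_inv]
    refine LinearIndependent.of_comp (inclLin Fk) ?_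
    have hfun : (⇑(inclLin Fk) ∘ fun i => redHom hfrac hred ⟨f i, ⟨e i, d, hrep i⟩⟩) =
        (⇑(mulRightLin (R := IsLocalRing.ResidueField A)
          (coeffMap (IsLocalRing.residue A) d)⁻¹) ∘
          fun i => coeffMap (IsLocalRing.residue A) (e i)) := funext hval
    exact hfun ▸ h1

end Ortho

section Datum

variable {K : Type*} [Field K] [Algebra ℚ K] {A : ValuationSubring K}
variable {F : IntermediateField K (LaurentSeries K)}
variable {Fk : IntermediateField (IsLocalRing.ResidueField A)
  (LaurentSeries (IsLocalRing.ResidueField A))}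

omit [Algebra ℚ K] in
theorem coe_algebraMap_eq_coeffMap_C (a : A) :
    ((algebraMap K F (a : K) : F) : LaurentSeries K) =
      coeffMap A.subtype (HahnSeries.C a : LaurentSeries A) := by
  rw [coeffMap_C]
  show algebraMap K (LaurentSeries K) (a : K) = _
  rw [algebraMap_laurentSeries_eq_single]
  rfl

omit [Algebra ℚ K] in
theorem coe_algebraMap_eq_C (c : K) :
    ((algebraMap K F c : F) : LaurentSeries K) = HahnSeries.C c := by
  show algebraMap K (LaurentSeries K) c = _
  rw [algebraMap_laurentSeries_eq_single]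
  rfl

/-- the hypothesis "every element of `Fk` is the reduction of a fraction" -/
def RedOnto (A : ValuationSubring K) (F : IntermediateField K (LaurentSeries K))
    (Fk : IntermediateField (IsLocalRing.ResidueField A)
      (LaurentSeries (IsLocalRing.ResidueField A))) : Prop :=
  ∀ w : LaurentSeries (IsLocalRing.ResidueField A), w ∈ Fk → ∃ a b : LaurentSeries A,
    coeffMap A.subtype a ∈ F ∧ coeffMap A.subtype b ∈ F ∧
    coeffMap (IsLocalRing.residue A) b ≠ 0 ∧
    w * coeffMap (IsLocalRing.residue A) b = coeffMap (IsLocalRing.residue A) a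

omit [Algebra ℚ K] in
theorem redHom_surjective (hfrac : HasPrimFrac A F) (hred : RedInto A F Fk)
    (hsurj : RedOnto A F Fk) : Function.Surjective (redHom hfrac hred) := by
  intro w
  obtain ⟨a, b, ha, hb, hpb, hw⟩ := hsurj w w.2
  have hb0 : coeffMap A.subtype b ≠ 0 := by
    intro h0
    have : b = 0 := coeffMap_valSubtype_injective A (by rw [h0, map_zero])
    exact hpb (by rw [this, map_zero])
  have hrep : IsRep A F (coeffMap A.subtype a / coeffMap A.subtype b) a b :=
    ⟨ha, hb, hpb, div_mul_cancel₀ _ hb0⟩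
  let x : unitBall hfrac :=
    ⟨⟨coeffMap A.subtype a / coeffMap A.subtype b, div_mem ha hb⟩, ⟨a, b, hrep⟩⟩
  refine ⟨x, Subtype.ext ?_⟩
  have h1 := redHom_eq hfrac hred x (a := a) (b := b) hrep
  rw [h1]
  exact div_eq_of_eq_mul hpb hw.symm

omit [Algebra ℚ K] in
theorem isRep_algebraMap (a : A) :
    IsRep A F ((algebraMap K F (a : K) : F) : LaurentSeries K) (HahnSeries.C a) 1 := by
  rw [coe_algebraMap_eq_coeffMap_C]
  refine isRep_self ?_
  rw [← coe_algebraMap_eq_coeffMap_C (F := F)]
  exact (algebraMap K F (a : K)).2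

omit [Algebra ℚ K] in
theorem algebraMap_mem_unitBall (hfrac : HasPrimFrac A F) (a : A) :
    algebraMap K F (a : K) ∈ unitBall hfrac :=
  ⟨HahnSeries.C a, 1, isRep_algebraMap a⟩

omit [Algebra ℚ K] in
theorem redHom_algebraMap (hfrac : HasPrimFrac A F) (hred : RedInto A F Fk) (a : A) :
    redHom hfrac hred ⟨algebraMap K F (a : K), algebraMap_mem_unitBall hfrac a⟩ =
      algebraMap (IsLocalRing.ResidueField A) Fk (IsLocalRing.residue A a) := by
  apply Subtype.ext
  have h1 := redHom_eq hfrac hred ⟨algebraMap K F (a : K), algebraMap_mem_unitBall hfrac a⟩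
    (isRep_algebraMap a)
  rw [h1, map_one, div_one, coeffMap_C]
  show _ = algebraMap (IsLocalRing.ResidueField A) (LaurentSeries (IsLocalRing.ResidueField A))
    (IsLocalRing.residue A a)
  rw [algebraMap_laurentSeries_eq_single]
  rfl

omit [Algebra ℚ K] in
theorem exists_unit_smul_unitBall (hfrac : HasPrimFrac A F) (f : F) (hf : f ≠ 0) :
    ∃ c : K, c ≠ 0 ∧ algebraMap K F c * f ∈ unitBall hfrac ∧
      (algebraMap K F c * f)⁻¹ ∈ unitBall hfrac := by
  have hf' : (f : LaurentSeries K) ≠ 0 := fun h => hf (Subtype.ext h)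
  obtain ⟨a, b, ha, hb, hpa, hpb, c, hc, h⟩ := hfrac f f.2 hf'
  have hrep : IsRep A F (((algebraMap K F c⁻¹ * f : F) : F) : LaurentSeries K) a b := by
    refine ⟨ha, hb, hpb, ?_⟩
    rw [MulMemClass.coe_mul, coe_algebraMap_eq_C, mul_assoc, h, ← mul_assoc, ← map_mul,
      inv_mul_cancel₀ hc, map_one, one_mul]
  exact ⟨c⁻¹, inv_ne_zero hc, ⟨a, b, hrep⟩, ⟨b, a, hrep.inv hpa⟩⟩

omit [Algebra ℚ K] in
theorem redHom_of_mem (hfrac : HasPrimFrac A F) (hred : RedInto A F Fk)
    (y : LaurentSeries A) (hy : coeffMap A.subtype y ∈ F) :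
    ∃ h : (⟨coeffMap A.subtype y, hy⟩ : F) ∈ unitBall hfrac,
      ((redHom hfrac hred ⟨_, h⟩ : Fk) : LaurentSeries (IsLocalRing.ResidueField A)) =
        coeffMap (IsLocalRing.residue A) y := by
  have hrep : IsRep A F (((⟨coeffMap A.subtype y, hy⟩ : F) : F) : LaurentSeries K) y 1 :=
    isRep_self hy
  refine ⟨⟨y, 1, hrep⟩, ?_⟩
  have h1 := redHom_eq hfrac hred ⟨⟨coeffMap A.subtype y, hy⟩, ⟨y, 1, hrep⟩⟩ hrep
  rw [h1, map_one, div_one]

/-- the constant reduction datum -/
def constRedOf (halg : ∀ c : K, IsIntegral ℚ c)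
    {ℓ : ℕ} (hℓ : ℓ.Prime) (hlt : A.valuation (ℓ : K) < 1)
    (hfracNF : ∀ f ∈ F, IsFracNF A F f) (hred : RedInto A F Fk) (hsurj : RedOnto A F Fk) :
    ConstRed A (IsLocalRing.residue A) Fk F where
  O := unitBall (hasPrimFrac_of_isFracNF hℓ hlt hfracNF)
  red := redHom (hasPrimFrac_of_isFracNF hℓ hlt hfracNF) hred
  π_surjective := IsLocalRing.residue_surjective
  red_surjective := redHom_surjective _ hred hsurj
  algebraMap_mem := algebraMap_mem_unitBall _
  red_algebraMap := redHom_algebraMap _ hred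
  exists_unit_smul := exists_unit_smul_unitBall _
  exists_orthonormal := fun V hV =>
    exists_orthonormal_unitBall halg hℓ hlt hfracNF _ hred V hV

theorem constRedOf_spec (halg : ∀ c : K, IsIntegral ℚ c)
    {ℓ : ℕ} (hℓ : ℓ.Prime) (hlt : A.valuation (ℓ : K) < 1)
    (hfracNF : ∀ f ∈ F, IsFracNF A F f) (hred : RedInto A F Fk) (hsurj : RedOnto A F Fk)
    (y : LaurentSeries A) (hy : coeffMap A.subtype y ∈ F) :
    ∃ h : (⟨coeffMap A.subtype y, hy⟩ : F) ∈ (constRedOf halg hℓ hlt hfracNF hred hsurj).O,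
      (((constRedOf halg hℓ hlt hfracNF hred hsurj).red ⟨_, h⟩ : Fk) :
          LaurentSeries (IsLocalRing.ResidueField A)) = coeffMap (IsLocalRing.residue A) y :=
  redHom_of_mem _ hred y hy

end Datum

section ModularFinal

variable {K : Type*} [Field K] [Algebra ℚ K] (A : ValuationSubring K) (N : ℕ)

theorem redOnto_modular_aux (w : LaurentSeries (IsLocalRing.ResidueField A))
    (hw : w ∈ IntermediateField.adjoin (IsLocalRing.ResidueField A)
      (divisorExpansionsC (IsLocalRing.ResidueField A) N)) :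
    ∃ a b : LaurentSeries A,
      coeffMap A.subtype a ∈ laurentBaseChange K (modularFunctionFieldFull N) ∧
      coeffMap A.subtype b ∈ laurentBaseChange K (modularFunctionFieldFull N) ∧
      coeffMap (IsLocalRing.residue A) b ≠ 0 ∧
      w * coeffMap (IsLocalRing.residue A) b = coeffMap (IsLocalRing.residue A) a := by
  induction hw using IntermediateField.adjoin_induction with
  | mem y hy =>
      obtain ⟨d, hne, hd, rfl⟩ := hy
      refine ⟨qExpand A d (jqModC A), 1, ?_, ?_, ?_, ?_⟩
      · rw [coeffMap_qExpand, coeffMap_jqModC, ← coeffEmb_jqd_eq']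
        exact coeffEmb_mem_laurentBaseChange K (jqd_mem_full N hd)
      · rw [map_one]
        exact one_mem _
      · rw [map_one]
        exact one_ne_zero
      · rw [map_one, mul_one, coeffMap_qExpand, coeffMap_jqModC]
  | algebraMap c =>
      obtain ⟨c', rfl⟩ := IsLocalRing.residue_surjective c
      refine ⟨HahnSeries.C c', 1, ?_, ?_, ?_, ?_⟩
      · rw [coeffMap_C]
        exact C_mem_intermediateField _ _
      · rw [map_one]
        exact one_mem _
      · rw [map_one]
        exact one_ne_zero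
      · rw [map_one, mul_one, coeffMap_C, algebraMap_laurentSeries_eq_single]
        rfl
  | add x y hx hy ihx ihy =>
      obtain ⟨a, b, ha, hb, hpb, hab⟩ := ihx
      obtain ⟨a', b', ha', hb', hpb', hab'⟩ := ihy
      refine ⟨a * b' + a' * b, b * b', ?_, ?_, ?_, ?_⟩
      · rw [map_add, map_mul, map_mul]
        exact add_mem (mul_mem ha hb') (mul_mem ha' hb)
      · rw [map_mul]
        exact mul_mem hb hb'
      · rw [map_mul]
        exact mul_ne_zero hpb hpb'
      · rw [map_add, map_mul, map_mul, map_mul, ← hab, ← hab']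
        ring
  | inv x hx ihx =>
      obtain ⟨a, b, ha, hb, hpb, hab⟩ := ihx
      by_cases hx0 : x = 0
      · refine ⟨0, 1, ?_, ?_, ?_, ?_⟩
        · rw [map_zero]
          exact zero_mem _
        · rw [map_one]
          exact one_mem _
        · rw [map_one]
          exact one_ne_zero
        · rw [hx0, inv_zero, zero_mul, map_zero]
      · have hpa : coeffMap (IsLocalRing.residue A) a ≠ 0 := by
          rw [← hab]
          exact mul_ne_zero hx0 hpb
        refine ⟨b, a, hb, ha, hpa, ?_⟩
        rw [← hab, ← mul_assoc, inv_mul_cancel₀ hx0, one_mul]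
  | mul x y hx hy ihx ihy =>
      obtain ⟨a, b, ha, hb, hpb, hab⟩ := ihx
      obtain ⟨a', b', ha', hb', hpb', hab'⟩ := ihy
      refine ⟨a * a', b * b', ?_, ?_, ?_, ?_⟩
      · rw [map_mul]
        exact mul_mem ha ha'
      · rw [map_mul]
        exact mul_mem hb hb'
      · rw [map_mul]
        exact mul_ne_zero hpb hpb'
      · rw [map_mul, map_mul, ← hab, ← hab']
        ring

theorem redOnto_modular :
    RedOnto A (laurentBaseChange K (modularFunctionFieldFull N))
      (modularFunctionFieldFullC (IsLocalRing.ResidueField A) N) :=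
  fun w hw => redOnto_modular_aux A N w hw

end ModularFinal

/-- **M1**: the constant reduction datum of `F_N` along `A`, given that reductions of integral
elements stay in the function field `F_{N,k}`. -/
theorem exists_modConstRed (N : ℕ) [NeZero N] (A : ValuationSubring (AlgebraicClosure ℚ))
    (hA : A ≠ ⊤)
    (hred : ∀ y : LaurentSeries A, coeffMap A.subtype y ∈ modularFunctionFieldBar N →
      coeffMap (IsLocalRing.residue A) y ∈
        modularFunctionFieldFullC (IsLocalRing.ResidueField A) N) :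
    ∃ R : ConstRed A (IsLocalRing.residue A)
        (↥(modularFunctionFieldFullC (IsLocalRing.ResidueField A) N))
        (↥(modularFunctionFieldBar N)),
      ∀ (y : LaurentSeries A) (hy : coeffMap A.subtype y ∈ modularFunctionFieldBar N),
        ∃ h : (⟨coeffMap A.subtype y, hy⟩ : ↥(modularFunctionFieldBar N)) ∈ R.O,
          ((R.red ⟨_, h⟩ : ↥(modularFunctionFieldFullC (IsLocalRing.ResidueField A) N)) :
              LaurentSeries (IsLocalRing.ResidueField A))
            = coeffMap (IsLocalRing.residue A) y := by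
  have halg : ∀ c : AlgebraicClosure ℚ, IsIntegral ℚ c := fun c =>
    ((AlgebraicClosure.isAlgebraic ℚ).isAlgebraic c).isIntegral
  obtain ⟨ℓ, hℓ, hlt⟩ := exists_prime_valuation_lt_one halg hA
  have hfracNF : ∀ f ∈ modularFunctionFieldBar N,
      IsFracNF A (modularFunctionFieldBar N) f := fun f hf => isFracNF_of_mem halg hf
  exact ⟨constRedOf halg hℓ hlt hfracNF hred (redOnto_modular A N),
    constRedOf_spec halg hℓ hlt hfracNF hred (redOnto_modular A N)⟩

end Fermat.Agent.GoodRed

end
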