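/-
Item 75a GOODRED-a, piece DS5, part (iii) (helper16): the constant reductions of the modular
function fields at two levels `N ∣ M` form a tower (`ConstRed.IsTower`).

A constant reduction `R` of a field `F ⊆ K((q))` with the property `IsSeriesRed` ("integral series
of `F` lie in `O` and reduce coefficientwise"; this is what 75b/M1 `exists_modConstRed` provides) is
determined by it: `x ∈ O ↔ x = a / b` with `a`, `b` integral series of `F`, `b̄ ≠ 0`, and then
`red x = ā / b̄`.  Helper declarations are prefixed `dw_`.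
-/
import Mathlib
import Fermat.Agent.GoodRed.DescDefs
import Fermat.Agent.GoodRed.Lattice
import Fermat.Agent.GoodRed.Bounded
import Fermat.Agent.GoodRed.ModDatum

set_option autoImplicit false
set_option synthInstance.maxHeartbeats 400000

noncomputable section

namespace Fermat.Agent.GoodRed

open AlgebraicCurve Fermat.Agent.RRlib ModularCurve HahnSeries

section General

variable {K : Type*} [Field K] {A : ValuationSubring K}
variable {F : IntermediateField K (LaurentSeries K)}
variable {Fk : IntermediateField (IsLocalRing.ResidueField A)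
  (LaurentSeries (IsLocalRing.ResidueField A))}

/-- the defining property of the modular constant reduction (75b/M1 `exists_modConstRed`):
integral series of the function field lie in `O` and reduce coefficientwise -/
def IsSeriesRed (R : ConstRed A (IsLocalRing.residue A) (↥Fk) (↥F)) : Prop :=
  ∀ (y : LaurentSeries A) (hy : coeffMap A.subtype y ∈ F),
    ∃ h : (⟨coeffMap A.subtype y, hy⟩ : ↥F) ∈ R.O,
      ((R.red ⟨_, h⟩ : ↥Fk) : LaurentSeries (IsLocalRing.ResidueField A))
        = coeffMap (IsLocalRing.residue A) y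

variable {R : ConstRed A (IsLocalRing.residue A) (↥Fk) (↥F)}

theorem IsSeriesRed.mem (hR : IsSeriesRed R) (y : LaurentSeries A)
    (hy : coeffMap A.subtype y ∈ F) : (⟨coeffMap A.subtype y, hy⟩ : ↥F) ∈ R.O :=
  (hR y hy).1

theorem IsSeriesRed.red (hR : IsSeriesRed R) (y : LaurentSeries A)
    (hy : coeffMap A.subtype y ∈ F) :
    ((R.red ⟨⟨coeffMap A.subtype y, hy⟩, hR.mem y hy⟩ : ↥Fk) :
      LaurentSeries (IsLocalRing.ResidueField A)) = coeffMap (IsLocalRing.residue A) y :=
  (hR y hy).2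

/-- an integral series with nonzero reduction is a unit of `O` -/
theorem IsSeriesRed.inv_mem (hR : IsSeriesRed R) (y : LaurentSeries A)
    (hy : coeffMap A.subtype y ∈ F) (hne : coeffMap (IsLocalRing.residue A) y ≠ 0) :
    (⟨coeffMap A.subtype y, hy⟩ : ↥F)⁻¹ ∈ R.O := by
  have hred : R.red ⟨⟨coeffMap A.subtype y, hy⟩, hR.mem y hy⟩ ≠ 0 := by
    intro h0
    apply hne
    rw [← hR.red y hy, h0]
    rfl
  have hnu : (⟨coeffMap A.subtype y, hy⟩ : ↥F) ∉ R.O.nonunits :=
    fun hnu => hred ((R.red_eq_zero_iff ⟨_, hR.mem y hy⟩).mpr hnu)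
  by_contra hcon
  apply hnu
  rw [ValuationSubring.mem_nonunits_iff_or]
  right
  exact hcon

theorem dw_eq_mul_inv {x : ↥F} {a b : LaurentSeries A} (h : IsRep A F (x : LaurentSeries K) a b) :
    x = (⟨coeffMap A.subtype a, h.1⟩ : ↥F) * (⟨coeffMap A.subtype b, h.2.1⟩ : ↥F)⁻¹ := by
  have hb0 : (⟨coeffMap A.subtype b, h.2.1⟩ : ↥F) ≠ 0 := fun h0 =>
    h.ne_zero (congrArg Subtype.val h0)
  rw [eq_mul_inv_iff_mul_eq₀ hb0]
  exact Subtype.ext h.2.2.2

/-- a fraction of integral series with primitive denominator lies in `O` -/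
theorem IsSeriesRed.mem_of_isRep (hR : IsSeriesRed R) {x : ↥F} {a b : LaurentSeries A}
    (h : IsRep A F (x : LaurentSeries K) a b) : x ∈ R.O := by
  rw [dw_eq_mul_inv h]
  exact mul_mem (hR.mem a h.1) (hR.inv_mem b h.2.1 h.2.2.1)

/-- the reduction of a fraction of integral series -/
theorem IsSeriesRed.red_of_isRep (hR : IsSeriesRed R) {x : ↥F} {a b : LaurentSeries A}
    (h : IsRep A F (x : LaurentSeries K) a b) (hx : x ∈ R.O) :
    ((R.red ⟨x, hx⟩ : ↥Fk) : LaurentSeries (IsLocalRing.ResidueField A))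
      = coeffMap (IsLocalRing.residue A) a / coeffMap (IsLocalRing.residue A) b := by
  have hmul : (⟨x, hx⟩ : R.O) * ⟨⟨coeffMap A.subtype b, h.2.1⟩, hR.mem b h.2.1⟩
      = ⟨⟨coeffMap A.subtype a, h.1⟩, hR.mem a h.1⟩ := by
    apply Subtype.ext
    apply Subtype.ext
    exact h.2.2.2
  have h1 := congrArg (fun z => ((R.red z : ↥Fk) : LaurentSeries (IsLocalRing.ResidueField A)))
    hmul
  simp only [map_mul, MulMemClass.coe_mul] at h1
  rw [hR.red b h.2.1, hR.red a h.1] at h1
  rw [eq_div_iff h.2.2.1]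
  exact h1

/-- every element of `O` is a fraction of integral series with primitive denominator -/
theorem IsSeriesRed.exists_isRep (hR : IsSeriesRed R) (hfrac : HasPrimFrac A F) {x : ↥F}
    (hx : x ∈ R.O) : ∃ a b : LaurentSeries A, IsRep A F (x : LaurentSeries K) a b := by
  by_cases hx0 : x = 0
  · rw [hx0]
    exact ⟨0, 1, isRep_zero⟩
  have hx' : (x : LaurentSeries K) ≠ 0 := fun h => hx0 (Subtype.ext h)
  obtain ⟨a, b, ha, hb, hpa, hpb, c, hc, h⟩ := hfrac x x.2 hx'
  -- `c = x · b / a ∈ O`, so `c ∈ A`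
  have hcA : c ∈ A := by
    rw [← R.algebraMap_mem_iff]
    have ha0 : (⟨coeffMap A.subtype a, ha⟩ : ↥F) ≠ 0 := by
      intro h0
      have h1 : coeffMap A.subtype a = 0 := congrArg Subtype.val h0
      have h2 : a = 0 := coeffMap_valSubtype_injective A (by rw [h1, map_zero])
      exact hpa (by rw [h2, map_zero])
    have hF : x * (⟨coeffMap A.subtype b, hb⟩ : ↥F)
        = algebraMap K (↥F) c * (⟨coeffMap A.subtype a, ha⟩ : ↥F) := by
      apply Subtype.ext
      rw [MulMemClass.coe_mul, MulMemClass.coe_mul, coe_algebraMap_eq_C]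
      exact h
    have : algebraMap K (↥F) c
        = x * (⟨coeffMap A.subtype b, hb⟩ : ↥F) * (⟨coeffMap A.subtype a, ha⟩ : ↥F)⁻¹ := by
      rw [hF, mul_assoc, mul_inv_cancel₀ ha0, mul_one]
    rw [this]
    exact mul_mem (mul_mem hx (hR.mem b hb)) (hR.inv_mem a ha hpa)
  refine ⟨HahnSeries.C ⟨c, hcA⟩ * a, b, ?_, hb, hpb, ?_⟩
  · rw [map_mul, coeffMap_C]
    exact mul_mem (C_mem_intermediateField F c) ha
  · rw [map_mul, coeffMap_C]
    exact h

theorem IsSeriesRed.mem_iff (hR : IsSeriesRed R) (hfrac : HasPrimFrac A F) (x : ↥F) :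
    x ∈ R.O ↔ ∃ a b : LaurentSeries A, IsRep A F (x : LaurentSeries K) a b :=
  ⟨fun hx => hR.exists_isRep hfrac hx, fun ⟨_, _, h⟩ => hR.mem_of_isRep h⟩

end General


section Tower

variable {K : Type*} [Field K] {A : ValuationSubring K}
variable {F F' : IntermediateField K (LaurentSeries K)}
variable {Fk Fk' : IntermediateField (IsLocalRing.ResidueField A)
  (LaurentSeries (IsLocalRing.ResidueField A))}
variable {R : ConstRed A (IsLocalRing.residue A) (↥Fk) (↥F)}
variable {R' : ConstRed A (IsLocalRing.residue A) (↥Fk') (↥F')}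

theorem dw_isRep_mono (hFF : F ≤ F') {f : LaurentSeries K} {a b : LaurentSeries A}
    (h : IsRep A F f a b) : IsRep A F' f a b :=
  ⟨hFF h.1, hFF h.2.1, h.2.2.1, h.2.2.2⟩

set_option maxHeartbeats 1600000 in
/-- **the tower property**: two constant reductions with the property `IsSeriesRed` of fields
`F ⊆ F' ⊆ K((q))` (with residue fields `Fk ⊆ Fk' ⊆ k((q))`) are compatible, for ANY algebra
structures whose structure maps are the inclusions. -/
theorem dw_isTower_of_isSeriesRed [Algebra (↥F) (↥F')] [Algebra (↥Fk) (↥Fk')]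
    (hFF : F ≤ F')
    (halg : ∀ x : ↥F, ((algebraMap (↥F) (↥F') x : ↥F') : LaurentSeries K) = (x : LaurentSeries K))
    (halgk : ∀ w : ↥Fk, ((algebraMap (↥Fk) (↥Fk') w : ↥Fk') :
      LaurentSeries (IsLocalRing.ResidueField A)) = (w : LaurentSeries (IsLocalRing.ResidueField A)))
    (hR : IsSeriesRed R) (hR' : IsSeriesRed R') (hfrac : HasPrimFrac A F) :
    R.IsTower R' := by
  have hmem : ∀ x : ↥F, x ∈ R.O → algebraMap (↥F) (↥F') x ∈ R'.O := by
    intro x hx
    obtain ⟨a, b, h⟩ := hR.exists_isRep hfrac hx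
    refine hR'.mem_of_isRep (a := a) (b := b) ?_
    rw [halg]
    exact dw_isRep_mono hFF h
  refine ⟨hmem, fun x hx => ?_⟩
  obtain ⟨a, b, h⟩ := hR.exists_isRep hfrac hx
  apply Subtype.ext
  have h' : IsRep A F' ((algebraMap (↥F) (↥F') x : ↥F') : LaurentSeries K) a b := by
    rw [halg]
    exact dw_isRep_mono hFF h
  exact (hR'.red_of_isRep h' (hmem x hx)).trans
    ((hR.red_of_isRep h hx).symm.trans (halgk (R.red ⟨x, hx⟩)).symm)

end Tower

end Fermat.Agent.GoodRed

end
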