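/-
Item 75a GOODRED-a, piece DS1 (helper16): in a tower of constant reductions the norm commutes
with reduction.  Only `ConstRed` and `ConstRed.IsTower` are used.  Helper lemmas are prefixed `dn_`.
-/
import Mathlib
import Fermat.Agent.GoodRed.DescDefs
import Fermat.Agent.GoodRed.Lattice

set_option autoImplicit false

noncomputable section

namespace Fermat.Agent.GoodRed

open AlgebraicCurve Fermat.Agent.RRlib

variable {K F F' k Fk Fk' : Type*} [Field K] [Field F] [Field F'] [Algebra K F] [Algebra K F']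
  [Algebra F F'] [IsScalarTower K F F']
  [Field k] [Field Fk] [Field Fk'] [Algebra k Fk] [Algebra k Fk'] [Algebra Fk Fk']
  [IsScalarTower k Fk Fk']
variable {A : ValuationSubring K} {π : A →+* k}

namespace ConstRed

variable {R : ConstRed A π Fk F} {R' : ConstRed A π Fk' F'}

/-- `O = O' ∩ F` -/
theorem IsTower.mem_iff (hT : R.IsTower R') (x : F) : algebraMap F F' x ∈ R'.O ↔ x ∈ R.O := by
  refine ⟨fun h => ?_, hT.map_mem x⟩
  by_contra hx
  have hx0 : x ≠ 0 := fun h0 => hx (h0 ▸ R.O.zero_mem)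
  have hinv : x⁻¹ ∈ R.O := (R.O.mem_or_inv_mem x).resolve_left hx
  have hnu : x⁻¹ ∈ R.O.nonunits := by
    rw [ValuationSubring.mem_nonunits_iff_or]
    right
    rwa [inv_inv]
  have hred : R.red ⟨x⁻¹, hinv⟩ = 0 := (R.red_eq_zero_iff ⟨x⁻¹, hinv⟩).mpr hnu
  have hred' : R'.red ⟨algebraMap F F' x⁻¹, hT.map_mem _ hinv⟩ = 0 := by
    rw [hT.red_map _ hinv, hred, map_zero]
  have h1 : (⟨algebraMap F F' x, h⟩ : R'.O) * ⟨algebraMap F F' x⁻¹, hT.map_mem _ hinv⟩ = 1 := by
    apply Subtype.ext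
    show algebraMap F F' x * algebraMap F F' x⁻¹ = 1
    rw [← map_mul, mul_inv_cancel₀ hx0, map_one]
  have := congrArg R'.red h1
  rw [map_mul, hred', mul_zero, map_one] at this
  exact zero_ne_one this

omit [IsScalarTower K F F'] [IsScalarTower k Fk Fk'] in
/-- reduction of a combination with coefficients in `O` -/
lemma dn_red_sum (hT : R.IsTower R') {ι : Type*} (θ : ι → R'.O) (s : Finset ι) (a : ι → R.O)
    (z : R'.O) (hz : (z : F') = ∑ i ∈ s, ((a i : R.O) : F) • ((θ i : R'.O) : F')) :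
    R'.red z = ∑ i ∈ s, R.red (a i) • R'.red (θ i) := by
  have hzz : z = ∑ i ∈ s, ⟨algebraMap F F' (a i : F), hT.map_mem _ (a i).2⟩ * θ i := by
    apply Subtype.ext
    rw [hz]
    push_cast
    refine Finset.sum_congr rfl fun i _ => ?_
    rw [Algebra.smul_def]
  rw [hzz, map_sum]
  refine Finset.sum_congr rfl fun i _ => ?_
  rw [map_mul, hT.red_map _ (a i).2, Algebra.smul_def]

omit [IsScalarTower K F F'] [IsScalarTower k Fk Fk'] in
/-- a combination with coefficients in `O`, one of which is a unit, has nonzero reduction -/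
lemma dn_red_ne_zero (hT : R.IsTower R') {ι : Type*} (θ : ι → R'.O)
    (h : LinearIndependent Fk (fun i => R'.red (θ i))) (s : Finset ι) (a : ι → R.O)
    {j : ι} (hj : j ∈ s) (haj : R.red (a j) ≠ 0)
    (z : R'.O) (hz : (z : F') = ∑ i ∈ s, ((a i : R.O) : F) • ((θ i : R'.O) : F')) :
    R'.red z ≠ 0 := by
  intro h0
  rw [dn_red_sum hT θ s a z hz] at h0
  exact haj (linearIndependent_iff'.mp h s (fun i => R.red (a i)) h0 j hj)

/-- normalisation: divide by a coefficient of maximal valuation -/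
lemma dn_exists_max {ι : Type*} (s : Finset ι) (g : ι → F) {i₀ : ι} (hi₀ : i₀ ∈ s)
    (hg : g i₀ ≠ 0) :
    ∃ j ∈ s, g j ≠ 0 ∧ R.O.valuation (g i₀) ≤ R.O.valuation (g j) ∧
      ∀ i ∈ s, g i / g j ∈ R.O := by
  obtain ⟨j, hj, hmax⟩ := Finset.exists_max_image s (fun i => R.O.valuation (g i)) ⟨i₀, hi₀⟩
  have hgj : g j ≠ 0 := by
    intro h0
    have h1 := hmax i₀ hi₀
    rw [h0, map_zero] at h1
    exact hg ((map_eq_zero _).mp (le_antisymm h1 zero_le))
  refine ⟨j, hj, hgj, hmax i₀ hi₀, fun i hi => ?_⟩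
  rw [← ValuationSubring.valuation_le_one_iff, map_div₀]
  exact div_le_one_of_le₀ (hmax i hi) zero_le

/-- the normalised combination `(g j)⁻¹ • ∑ g i • θ i` has nonzero reduction -/
lemma dn_normalised (hT : R.IsTower R') {ι : Type*} (θ : ι → R'.O)
    (h : LinearIndependent Fk (fun i => R'.red (θ i))) (s : Finset ι) (g : ι → F)
    {j : ι} (hj : j ∈ s) (hgj : g j ≠ 0) (hmem : ∀ i ∈ s, g i / g j ∈ R.O) :
    ∃ z : R'.O, (z : F') = (g j)⁻¹ • ∑ i ∈ s, g i • ((θ i : R'.O) : F') ∧ R'.red z ≠ 0 := by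
  classical
  set a : ι → R.O := fun i => if hi : i ∈ s then ⟨g i / g j, hmem i hi⟩ else 0 with ha
  have hsum : (g j)⁻¹ • ∑ i ∈ s, g i • ((θ i : R'.O) : F')
      = ∑ i ∈ s, ((a i : R.O) : F) • ((θ i : R'.O) : F') := by
    rw [Finset.smul_sum]
    refine Finset.sum_congr rfl fun i hi => ?_
    rw [ha]
    simp only [dif_pos hi]
    rw [smul_smul, div_eq_inv_mul]
  have hzmem : (g j)⁻¹ • ∑ i ∈ s, g i • ((θ i : R'.O) : F') ∈ R'.O := by
    rw [hsum]
    refine Subring.sum_mem _ fun i _ => ?_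
    rw [Algebra.smul_def]
    exact mul_mem (hT.map_mem _ (a i).2) (θ i).2
  refine ⟨⟨_, hzmem⟩, rfl, ?_⟩
  refine dn_red_ne_zero hT θ h s a hj ?_ _ hsum
  have : a j = 1 := by
    rw [ha]
    simp only [dif_pos hj]
    apply Subtype.ext
    show g j / g j = 1
    exact div_self hgj
  rw [this, map_one]
  exact one_ne_zero

/-- lifts of `Fk`-independent elements of `Fk'` are `F`-independent -/
theorem IsTower.linearIndependent_of_red (hT : R.IsTower R') {ι : Type*} (θ : ι → R'.O)
    (h : LinearIndependent Fk (fun i => R'.red (θ i))) :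
    LinearIndependent F (fun i => ((θ i : R'.O) : F')) := by
  classical
  rw [linearIndependent_iff']
  intro s g hsum i hi
  by_contra hgi
  obtain ⟨j, hj, hgj, -, hmem⟩ := dn_exists_max (R := R) s g hi hgi
  obtain ⟨z, hz, hne⟩ := dn_normalised hT θ h s g hj hgj hmem
  apply hne
  have : z = 0 := by
    apply Subtype.ext
    rw [hz, hsum, smul_zero]
    rfl
  rw [this, map_zero]

/-- if a combination of lifts of independent elements lies in `O'`, its coefficients lie in `O` -/
theorem dn_coeff_mem (hT : R.IsTower R') {ι : Type*} (θ : ι → R'.O)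
    (h : LinearIndependent Fk (fun i => R'.red (θ i))) (s : Finset ι) (g : ι → F)
    (hy : ∑ i ∈ s, g i • ((θ i : R'.O) : F') ∈ R'.O) : ∀ i ∈ s, g i ∈ R.O := by
  classical
  intro i hi
  by_contra hgi
  have hgi0 : g i ≠ 0 := fun h0 => hgi (h0 ▸ R.O.zero_mem)
  obtain ⟨j, hj, hgj, hle, hmem⟩ := dn_exists_max (R := R) s g hi hgi0
  have hgjO : g j ∉ R.O := by
    intro hmemj
    apply hgi
    rw [← ValuationSubring.valuation_le_one_iff] at hmemj ⊢
    exact hle.trans hmemj
  have hinv : (g j)⁻¹ ∈ R.O := (R.O.mem_or_inv_mem (g j)).resolve_left hgjO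
  have hnu : (g j)⁻¹ ∈ R.O.nonunits := by
    rw [ValuationSubring.mem_nonunits_iff_or]
    right
    rwa [inv_inv]
  have hred : R.red ⟨(g j)⁻¹, hinv⟩ = 0 := (R.red_eq_zero_iff ⟨(g j)⁻¹, hinv⟩).mpr hnu
  obtain ⟨z, hz, hne⟩ := dn_normalised hT θ h s g hj hgj hmem
  apply hne
  have : z = ⟨algebraMap F F' (g j)⁻¹, hT.map_mem _ hinv⟩ * ⟨_, hy⟩ := by
    apply Subtype.ext
    rw [hz, Algebra.smul_def]
    rfl
  rw [this, map_mul, hT.red_map _ hinv, hred, map_zero, zero_mul]

/-- **norm compatibility**: for `y ∈ O'`, `N_{F'/F}(y) ∈ O` and `red (N y) = N_{Fk'/Fk} (red' y)`.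
(Matrix of multiplication by `y` in a lifted basis; `Algebra.norm_eq_matrix_det`.) -/
theorem IsTower.norm_mem_red (hT : R.IsTower R') [FiniteDimensional F F']
    (hdeg : Module.finrank F F' = Module.finrank Fk Fk') (y : R'.O) :
    ∃ hz : Algebra.norm F ((y : R'.O) : F') ∈ R.O,
      R.red ⟨_, hz⟩ = Algebra.norm Fk (R'.red y) := by
  classical
  have hpos : 0 < Module.finrank Fk Fk' := hdeg ▸ Module.finrank_pos
  have hfin : Module.Finite Fk Fk' := Module.finite_of_finrank_pos hpos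
  obtain ⟨d, hd⟩ : ∃ d, d = Module.finrank Fk Fk' := ⟨_, rfl⟩
  have hdpos : 0 < d := hd ▸ hpos
  let bk : Module.Basis (Fin d) Fk Fk' :=
    (Module.finBasis Fk Fk').reindex (finCongr hd.symm)
  choose θ hθ using fun i => R'.red_surjective (bk i)
  have hind : LinearIndependent Fk (fun i => R'.red (θ i)) := by
    have : (fun i => R'.red (θ i)) = bk := funext hθ
    rw [this]
    exact bk.linearIndependent
  have hindF := hT.linearIndependent_of_red θ hind
  haveI : Nonempty (Fin d) := ⟨⟨0, hdpos⟩⟩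
  let B : Module.Basis (Fin d) F F' :=
    basisOfLinearIndependentOfCardEqFinrank hindF (by rw [Fintype.card_fin, hdeg, hd])
  have hB : ∀ i, B i = ((θ i : R'.O) : F') := fun i => by
    show (basisOfLinearIndependentOfCardEqFinrank hindF _) i = _
    rw [coe_basisOfLinearIndependentOfCardEqFinrank]
  set M := Algebra.leftMulMatrix B ((y : R'.O) : F') with hM
  have hMy : ∀ j, ((y : R'.O) : F') * ((θ j : R'.O) : F')
      = ∑ i, M i j • ((θ i : R'.O) : F') := by
    intro j
    have h1 := B.sum_repr (((y : R'.O) : F') * B j)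
    rw [hB j] at h1
    rw [← h1]
    refine Finset.sum_congr rfl fun i _ => ?_
    rw [hM, Algebra.leftMulMatrix_eq_repr_mul, hB, hB]
  have hMmem : ∀ i j, M i j ∈ R.O := by
    intro i j
    refine dn_coeff_mem hT θ hind Finset.univ (fun i => M i j) ?_ i (Finset.mem_univ i)
    rw [← hMy j]
    exact mul_mem y.2 (θ j).2
  let MO : Matrix (Fin d) (Fin d) R.O := fun i j => ⟨M i j, hMmem i j⟩
  have hMO : MO.map R.O.subtype = M := by
    ext i j
    rfl
  have hdet : Algebra.norm F ((y : R'.O) : F') = ((MO.det : R.O) : F) := by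
    rw [Algebra.norm_eq_matrix_det B, ← hM, ← hMO]
    exact (RingHom.map_det R.O.subtype MO).symm
  have hmemN : Algebra.norm F ((y : R'.O) : F') ∈ R.O := by
    rw [hdet]
    exact MO.det.2
  refine ⟨hmemN, ?_⟩
  have h1 : (⟨_, hmemN⟩ : R.O) = MO.det := Subtype.ext hdet
  rw [h1, RingHom.map_det, Algebra.norm_eq_matrix_det bk]
  congr 1
  ext i j
  rw [Algebra.leftMulMatrix_eq_repr_mul]
  have h2 : R'.red y * bk j = ∑ i, R.red (MO i j) • bk i := by
    rw [← hθ j, ← map_mul]
    rw [dn_red_sum hT θ Finset.univ (fun i => MO i j) (y * θ j) (hMy j)]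
    refine Finset.sum_congr rfl fun i _ => ?_
    rw [hθ]
  rw [h2, Module.Basis.repr_sum_self]
  rfl

end ConstRed

end Fermat.Agent.GoodRed

end
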