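/-
Item 75b GOODRED, piece P (helper27): consequences of Riemann–Roch in ONE function field `F/K`
(used for `Fk/k`): base-point freeness, weak approximation, generic elements, effective
divisors of degree one; and: a function field has infinitely many places.
Blueprint: NOTES/GOODRED_blueprint.md; signatures: NOTES/GOODRED_signatures.lean.txt.
Helper lemmas are prefixed `pol_`.
-/
import Mathlib
import Fermat.Agent.GoodRed.Defs
import Fermat.Agent.RRlib.Basic
import Fermat.Agent.RRlib.LFinite
import Fermat.Agent.RRlib.H1Finite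
import Fermat.Agent.RRlib.Duality

set_option autoImplicit false

noncomputable section

namespace Fermat.Agent.GoodRed

open AlgebraicCurve Fermat.Agent.RRlib

variable {K F k Fk : Type*} [Field K] [Field F] [Algebra K F] [Field k] [Field Fk] [Algebra k Fk]

/-! ### orders of sums -/

theorem pol_ord_add_of_lt {v : Place K F} {x y : F} (hx : x ≠ 0) (hy : y ≠ 0)
    (h : v.ord x < v.ord y) : v.ord (x + y) = v.ord x := by
  have hlt : v.adicValuation y < v.adicValuation x := by
    rw [v.adicValuation_eq_exp_neg_ord hx, v.adicValuation_eq_exp_neg_ord hy,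
      WithZero.exp_lt_exp]
    omega
  have h2 := Valuation.map_add_eq_of_lt_left v.adicValuation hlt
  unfold Place.ord
  rw [h2]

theorem pol_ord_add_ge {v : Place K F} {x y : F} {n : ℤ} (hxy : x + y ≠ 0)
    (hx : x = 0 ∨ n ≤ v.ord x) (hy : y = 0 ∨ n ≤ v.ord y) : n ≤ v.ord (x + y) := by
  have hx' : v.adicValuation x ≤ WithZero.exp (-n) := by
    rw [v.adicValuation_le_exp_iff, neg_neg]
    exact hx
  have hy' : v.adicValuation y ≤ WithZero.exp (-n) := by
    rw [v.adicValuation_le_exp_iff, neg_neg]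
    exact hy
  have h := (Valuation.map_add v.adicValuation x y).trans (max_le hx' hy')
  rw [v.adicValuation_le_exp_iff, neg_neg] at h
  exact h.resolve_left hxy

/-- the `K`-subspace `{x | x = 0 ∨ n ≤ ord_Q x}` of `F` -/
def polBall (Q : Place K F) (n : ℤ) : Submodule K F where
  carrier := {x | Q.adicValuation x ≤ WithZero.exp (-n)}
  zero_mem' := by
    show Q.adicValuation (0 : F) ≤ WithZero.exp (-n)
    simp
  add_mem' := by
    intro x y hx hy
    have hx' : Q.adicValuation x ≤ WithZero.exp (-n) := hx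
    have hy' : Q.adicValuation y ≤ WithZero.exp (-n) := hy
    exact (Valuation.map_add _ _ _).trans (max_le hx' hy')
  smul_mem' := by
    intro c x hx
    have hx' : Q.adicValuation x ≤ WithZero.exp (-n) := hx
    show Q.adicValuation (c • x) ≤ WithZero.exp (-n)
    rw [Algebra.smul_def, map_mul]
    exact (mul_le_of_le_one_left' (Q.adicValuation_algebraMap_le_one c)).trans hx'

theorem mem_polBall_iff {Q : Place K F} {n : ℤ} {x : F} :
    x ∈ polBall Q n ↔ x = 0 ∨ n ≤ Q.ord x := by
  show Q.adicValuation x ≤ WithZero.exp (-n) ↔ _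
  rw [Q.adicValuation_le_exp_iff, neg_neg]

/-! ### non-constant functions -/

/-- `L(D)` contains a non-constant function if `deg D ≥ g + 1` -/
theorem pol_exists_nonconst [RRHyp K F] {D : Divisor K F}
    (h : (genusFF K F : ℤ) + 1 ≤ Divisor.degree D) :
    ∃ f ∈ riemannRochSpace (K := K) D, f ∉ Set.range (algebraMap K F) := by
  have hfin := finite_riemannRochSpace (K := K) D
  have hell : 2 ≤ ell D := by
    have := riemann_inequality (K := K) D
    have : (2 : ℤ) ≤ ell D := by linarith
    exact_mod_cast this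
  set C : Submodule K F := LinearMap.range (Algebra.linearMap K F) with hC
  have hCrank : Module.finrank K C ≤ 1 := by
    have h1 := LinearMap.finrank_range_le (Algebra.linearMap K F)
    rwa [Module.finrank_self] at h1
  have hnot : ¬ riemannRochSpace D ≤ C := by
    intro hle
    have hCfin : Module.Finite K C := Module.Finite.range _
    have := Submodule.finrank_mono hle
    have h2 : ell D ≤ 1 := this.trans hCrank
    omega
  obtain ⟨f, hfD, hfC⟩ := SetLike.not_le_iff_exists.mp hnot
  refine ⟨f, hfD, ?_⟩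
  rintro ⟨c, rfl⟩
  exact hfC ⟨c, rfl⟩

/-- the sum of the places in a finite set, as a divisor -/
def polSum (T : Finset (Place K F)) : Divisor K F :=
  ∑ P ∈ T, Finsupp.single P (1 : ℤ)

theorem polSum_apply (T : Finset (Place K F)) (v : Place K F) [Decidable (v ∈ T)] :
    polSum T v = if v ∈ T then 1 else 0 := by
  classical
  rw [polSum, Finsupp.finsetSum_apply]
  simp only [Finsupp.single_apply]
  rw [Finset.sum_ite_eq' T v]
  congr

/-- **a function field has infinitely many places** -/
theorem exists_place_notMem [RRHyp K F] (T : Finset (Place K F)) :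
    ∃ P : Place K F, P ∉ T := by
  classical
  by_contra hcon
  have hall : ∀ P : Place K F, P ∈ T := by
    intro P
    by_contra hP
    exact hcon ⟨P, hP⟩
  obtain ⟨P₁⟩ := RRBase.nonempty_place (K := K) (F := F)
  set E : Divisor K F := polSum (T.erase P₁) with hE
  set m : ℤ := (genusFF K F : ℤ) + 1 + Divisor.degree E with hm
  set D : Divisor K F := m • Finsupp.single P₁ (1 : ℤ) - E with hD
  have hdeg : Divisor.degree D = (genusFF K F : ℤ) + 1 := by
    rw [hD, map_sub, map_zsmul, degree_single_one, smul_eq_mul, mul_one, hm]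
    ring
  have hDv : ∀ v : Place K F, v ≠ P₁ → D v = -1 := by
    intro v hv
    have hvT : v ∈ T.erase P₁ := Finset.mem_erase.mpr ⟨hv, hall v⟩
    rw [hD, Finsupp.sub_apply, Finsupp.smul_apply, Finsupp.single_apply, if_neg (Ne.symm hv),
      hE, polSum_apply, if_pos hvT]
    simp
  obtain ⟨f, hfD, hfc⟩ := pol_exists_nonconst (K := K) (F := F) (D := D) (by rw [hdeg])
  have hf0 : f ≠ 0 := by
    rintro rfl
    exact hfc ⟨0, map_zero _⟩
  rw [mem_riemannRochSpace_iff] at hfD
  have hpos : ∀ v : Place K F, v ≠ P₁ → 1 ≤ v.ord f := by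
    intro v hv
    have := (hfD v).resolve_left hf0
    rw [hDv v hv] at this
    simpa using this
  have hpole : P₁.ord f < 0 := by
    by_contra hge
    apply hfc
    apply RRBase.const_of_forall_ord_nonneg (K := K)
    intro v
    by_cases hv : v = P₁
    · rw [hv]
      exact not_lt.mp hge
    · exact le_trans zero_le_one (hpos v hv)
  have hg0 : f + 1 ≠ 0 := by
    intro h
    apply hfc
    refine ⟨-1, ?_⟩
    rw [map_neg, map_one]
    exact (eq_neg_of_add_eq_zero_left h).symm
  have h1 : P₁.ord (f + 1) = P₁.ord f :=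
    pol_ord_add_of_lt hf0 one_ne_zero (by rw [Place.ord_one]; exact hpole)
  have h2 : ∀ v : Place K F, v ≠ P₁ → v.ord (f + 1) = 0 := by
    intro v hv
    have hlt : v.ord (1 : F) < v.ord f := by
      rw [Place.ord_one]
      exact lt_of_lt_of_le zero_lt_one (hpos v hv)
    rw [add_comm, pol_ord_add_of_lt one_ne_zero hf0 hlt, Place.ord_one]
  have hconst : (f + 1)⁻¹ ∈ Set.range (algebraMap K F) := by
    apply RRBase.const_of_forall_ord_nonneg (K := K)
    intro v
    rw [Place.ord_inv]
    by_cases hv : v = P₁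
    · rw [hv, h1]
      omega
    · rw [h2 v hv]
      simp
  obtain ⟨c, hc⟩ := hconst
  apply hfc
  refine ⟨c⁻¹ - 1, ?_⟩
  rw [map_sub, map_inv₀, hc, inv_inv, map_one, add_sub_cancel_right]

/-- **a function field has infinitely many places** (instance form) -/
theorem places_infinite (K F : Type*) [Field K] [Field F] [Algebra K F] [RRHyp K F] :
    Infinite (Place K F) := by
  by_contra h
  have hfin : Finite (Place K F) := not_infinite_iff_finite.mp h
  have hft : Fintype (Place K F) := Fintype.ofFinite _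
  obtain ⟨P, hP⟩ := exists_place_notMem (K := K) (F := F) Finset.univ
  exact hP (Finset.mem_univ P)

section Polar

variable (K F)

/-- for `deg X ≥ 2g` the space `L(X)` has no base point -/
theorem exists_ord_eq_neg [RRHyp K F] {X : Divisor K F}
    (hX : 2 * (genusFF K F : ℤ) ≤ Divisor.degree X) (Q : Place K F) :
    ∃ w ∈ riemannRochSpace (K := K) X, w ≠ 0 ∧ Q.ord w = -X Q := by
  classical
  set X' : Divisor K F := X - Finsupp.single Q (1 : ℤ) with hX'
  have hle : X' ≤ X := by
    rw [hX', sub_le_self_iff]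
    intro v
    rw [Finsupp.zero_apply, Finsupp.single_apply]
    split_ifs <;> simp
  have hdeg' : Divisor.degree X' = Divisor.degree X - 1 := by
    rw [hX', map_sub, degree_single_one]
  have hl : (ell X : ℤ) = Divisor.degree X + 1 - genusFF K F :=
    ell_eq_of_degree_gt (by linarith)
  have hl' : (ell X' : ℤ) = Divisor.degree X' + 1 - genusFF K F :=
    ell_eq_of_degree_gt (by rw [hdeg']; linarith)
  have hnot : ¬ riemannRochSpace (K := K) X ≤ riemannRochSpace (K := K) X' := by
    intro hcon
    have hfin := finite_riemannRochSpace (K := K) X'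
    have := Submodule.finrank_mono hcon
    have h3 : ell X ≤ ell X' := this
    have h4 : (ell X : ℤ) ≤ ell X' := by exact_mod_cast h3
    rw [hl, hl', hdeg'] at h4
    linarith
  obtain ⟨w, hwX, hwX'⟩ := SetLike.not_le_iff_exists.mp hnot
  have hw0 : w ≠ 0 := by
    rintro rfl
    exact hwX' (zero_mem _)
  refine ⟨w, hwX, hw0, ?_⟩
  rw [mem_riemannRochSpace_iff] at hwX hwX'
  have hwX'' : ∃ v : Place K F, ¬ (w = 0 ∨ -X' v ≤ v.ord w) := by
    by_contra hcon
    apply hwX'
    intro v
    by_contra hv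
    exact hcon ⟨v, hv⟩
  obtain ⟨v, hv⟩ := hwX''
  rw [not_or] at hv
  have hvX := (hwX v).resolve_left hw0
  have hvQ : v = Q := by
    by_contra hne
    apply hv.2
    rw [hX', Finsupp.sub_apply, Finsupp.single_apply, if_neg (Ne.symm hne), sub_zero]
    exact hvX
  subst hvQ
  have h5 := hv.2
  rw [hX', Finsupp.sub_apply, Finsupp.single_eq_same] at h5
  omega

/-- `L(X) ⊆ L(Y)` and `deg X ≥ 2g` imply `X ≤ Y` -/
theorem le_of_riemannRochSpace_le [RRHyp K F] {X Y : Divisor K F}
    (hX : 2 * (genusFF K F : ℤ) ≤ Divisor.degree X)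
    (h : riemannRochSpace (K := K) X ≤ riemannRochSpace (K := K) Y) : X ≤ Y := by
  intro Q
  obtain ⟨w, hw, hw0, hQ⟩ := exists_ord_eq_neg K F hX Q
  have hY := h hw
  rw [mem_riemannRochSpace_iff] at hY
  have := (hY Q).resolve_left hw0
  rw [hQ] at this
  omega

/-- weak approximation: prescribed order at `Q`, lower bounds on a finite set -/
theorem exists_ord_eq_of_finset [RRHyp K F] (S : Finset (Place K F)) (Q : Place K F) (a : ℤ)
    (e : Place K F → ℤ) :
    ∃ z : F, z ≠ 0 ∧ Q.ord z = a ∧ ∀ Q' ∈ S, Q' ≠ Q → e Q' ≤ Q'.ord z := by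
  classical
  obtain ⟨P₀, hP₀⟩ := exists_place_notMem (K := K) (F := F) (insert Q S)
  have hP₀Q : P₀ ≠ Q := fun h => hP₀ (h ▸ Finset.mem_insert_self _ _)
  have hP₀S : P₀ ∉ S := fun h => hP₀ (Finset.mem_insert_of_mem h)
  set X₀ : Divisor K F := Finsupp.onFinset (insert Q S)
    (fun v => if v = Q then -a else if v ∈ S then -e v else 0)
    (fun v hv => by
      by_contra hmem
      rw [Finset.mem_insert, not_or] at hmem
      apply hv
      rw [if_neg hmem.1, if_neg hmem.2]) with hX₀
  set M : ℤ := 2 * (genusFF K F : ℤ) - Divisor.degree X₀ with hM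
  set X : Divisor K F := X₀ + M • Finsupp.single P₀ (1 : ℤ) with hXdef
  have hdeg : Divisor.degree X = 2 * (genusFF K F : ℤ) := by
    rw [hXdef, map_add, map_zsmul, degree_single_one, smul_eq_mul, mul_one, hM]
    ring
  have hXv : ∀ v : Place K F, v ≠ P₀ → X v = X₀ v := by
    intro v hv
    rw [hXdef, Finsupp.add_apply, Finsupp.smul_apply, Finsupp.single_apply, if_neg (Ne.symm hv)]
    simp
  obtain ⟨w, hw, hw0, hQ⟩ := exists_ord_eq_neg K F (X := X) (by rw [hdeg]) Q
  refine ⟨w, hw0, ?_, ?_⟩
  · rw [hQ, hXv Q (Ne.symm hP₀Q), hX₀, Finsupp.onFinset_apply, if_pos rfl, neg_neg]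
  · intro Q' hQ'S hQ'Q
    rw [mem_riemannRochSpace_iff] at hw
    have h1 := (hw Q').resolve_left hw0
    have hQ'P : Q' ≠ P₀ := fun h => hP₀S (h ▸ hQ'S)
    rw [hXv Q' hQ'P, hX₀, Finsupp.onFinset_apply, if_neg hQ'Q, if_pos hQ'S, neg_neg] at h1
    exact h1

/-- a generic element of a subspace attains the minimal order at finitely many places
(the hypothesis `hW` is needed when `S = ∅`) -/
theorem exists_generic [Infinite K] (W : Submodule K F) (S : Finset (Place K F))
    (m : Place K F → ℤ) (hm : ∀ Q ∈ S, ∀ w ∈ W, w ≠ 0 → m Q ≤ Q.ord w)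
    (hex : ∀ Q ∈ S, ∃ w ∈ W, w ≠ 0 ∧ Q.ord w = m Q) (hW : W ≠ ⊥) :
    ∃ w ∈ W, w ≠ 0 ∧ ∀ Q ∈ S, Q.ord w = m Q := by
  classical
  -- the proper subspaces `{w ∈ W | w = 0 ∨ m Q + 1 ≤ ord_Q w}` and `0` do not cover `W`
  let p : Place K F → Subspace K ↥W := fun Q => (polBall Q (m Q + 1)).comap W.subtype
  let s : Finset (Subspace K ↥W) := insert ⊥ (S.image p)
  have hs : (⊤ : Subspace K ↥W) ∉ s := by
    intro htop
    rw [Finset.mem_insert, Finset.mem_image] at htop
    rcases htop with h | ⟨Q, hQ, h⟩
    · obtain ⟨w, hwW, hw0⟩ := Submodule.exists_mem_ne_zero_of_ne_bot hW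
      have : (⟨w, hwW⟩ : ↥W) ∈ (⊤ : Subspace K ↥W) := Submodule.mem_top
      rw [h, Submodule.mem_bot] at this
      exact hw0 (congrArg Subtype.val this)
    · obtain ⟨w, hwW, hw0, hw⟩ := hex Q hQ
      have : (⟨w, hwW⟩ : ↥W) ∈ p Q := by
        rw [h]
        exact Submodule.mem_top
      have h2 : w ∈ polBall Q (m Q + 1) := this
      rw [mem_polBall_iff] at h2
      rcases h2 with h2 | h2
      · exact hw0 h2
      · omega
  have hne := Subspace.biUnion_ne_univ_of_top_notMem hs
  obtain ⟨w, hw⟩ : ∃ w : ↥W, w ∉ ⋃ q ∈ s, (q : Set ↥W) := by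
    by_contra hcon
    apply hne
    ext w
    simp only [Set.mem_univ, iff_true]
    by_contra hw
    exact hcon ⟨w, hw⟩
  simp only [Set.mem_iUnion, not_exists] at hw
  have hw0 : (w : F) ≠ 0 := by
    intro h0
    apply hw ⊥ (Finset.mem_insert_self _ _)
    show w ∈ (⊥ : Subspace K ↥W)
    rw [Submodule.mem_bot]
    exact Subtype.ext h0
  refine ⟨w, w.2, hw0, fun Q hQ => ?_⟩
  have h1 := hm Q hQ w w.2 hw0
  have h2 : ¬ (w : F) ∈ polBall Q (m Q + 1) := by
    intro hmem
    exact hw (p Q) (Finset.mem_insert_of_mem (Finset.mem_image_of_mem p hQ)) hmem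
  rw [mem_polBall_iff, not_or] at h2
  omega

/-- an effective divisor of degree one is a place -/
theorem exists_eq_single_of_degree_one [RRBase K F] {X : Divisor K F} (h0 : 0 ≤ X)
    (h1 : Divisor.degree X = 1) : ∃ Q : Place K F, X = Finsupp.single Q 1 := by
  classical
  have hne : X ≠ 0 := by
    rintro rfl
    rw [map_zero] at h1
    exact zero_ne_one h1
  obtain ⟨Q, hQ⟩ : ∃ Q : Place K F, X Q ≠ 0 := by
    by_contra hcon
    apply hne
    ext v
    by_contra hv
    exact hcon ⟨v, hv⟩
  have hQ1 : 1 ≤ X Q := by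
    have := h0 Q
    rw [Finsupp.zero_apply] at this
    omega
  refine ⟨Q, ?_⟩
  have hle : Finsupp.single Q (1 : ℤ) ≤ X := by
    intro v
    rw [Finsupp.single_apply]
    split_ifs with h
    · rw [← h]
      exact hQ1
    · exact h0 v
  exact (eq_of_le_of_degree_le hle (by rw [h1, degree_single_one])).symm

end Polar

end Fermat.Agent.GoodRed

end
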