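/-
Item 75a GOODRED-a, piece DS2 (helper26): zeros of `x − c` reduce to zeros of `xbar − cbar` when
`x` keeps its degree under reduction.  One pair `(F', Fk')`, no tower.
Blueprint: NOTES/GOODRED_a_blueprint.md.  No sorry in this file.
-/
import Mathlib
import Fermat.Agent.GoodRed.DescDefs
import Fermat.Agent.GoodRed.Polar
import Fermat.Agent.RRlib.Basic

set_option autoImplicit false

noncomputable section

namespace Fermat.Agent.GoodRed

open AlgebraicCurve Fermat.Agent.RRlib

/-! ### generalities -/

/-- value of `mapDomain` at a point as a sum over the support -/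
theorem dz_mapDomain_apply {α β : Type*} (r : α → β) (D : α →₀ ℤ) (b : β) :
    Finsupp.mapDomain r D b =
      ∑ a ∈ D.support, (letI := Classical.propDecidable (r a = b); if r a = b then D a else 0) := by
  classical
  rw [Finsupp.mapDomain, Finsupp.sum_apply, Finsupp.sum]
  refine Finset.sum_congr rfl fun a _ => ?_
  rw [Finsupp.single_apply]

theorem dz_mapDomain_nonneg {α β : Type*} (r : α → β) {D : α →₀ ℤ} (hD : 0 ≤ D) (b : β) :
    0 ≤ Finsupp.mapDomain r D b := by
  classical
  rw [dz_mapDomain_apply]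
  refine Finset.sum_nonneg fun a _ => ?_
  split_ifs
  · exact hD a
  · exact le_rfl

theorem dz_le_mapDomain_apply {α β : Type*} (r : α → β) {D : α →₀ ℤ} (hD : 0 ≤ D) (a : α) :
    D a ≤ Finsupp.mapDomain r D (r a) := by
  classical
  rw [dz_mapDomain_apply]
  by_cases ha : a ∈ D.support
  · have h := Finset.single_le_sum (f := fun a' => if r a' = r a then D a' else 0)
      (fun a' _ => by
        show 0 ≤ if r a' = r a then D a' else 0
        split_ifs
        · exact hD a'
        · exact le_rfl) ha
    simp only [if_true] at h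
    convert h using 2
  · have h0 : D a = 0 := by simpa using ha
    rw [h0]
    refine Finset.sum_nonneg fun a' _ => ?_
    split_ifs
    · exact hD a'
    · exact le_rfl

variable {K F' k Fk' : Type*} [Field K] [Field F'] [Algebra K F'] [Field k] [Field Fk']
  [Algebra k Fk']

theorem dz_ord_neg (v : Place K F') (x : F') : v.ord (-x) = v.ord x := by
  unfold Place.ord
  rw [Valuation.map_neg]

theorem dz_ord_const (v : Place K F') (c : K) : v.ord (algebraMap K F' c) = 0 := by
  rcases eq_or_ne c 0 with rfl | hc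
  · simp [Place.ord_zero]
  have hc' : algebraMap K F' c ≠ 0 := by simpa using hc
  have h1 : 0 ≤ v.ord (algebraMap K F' c) :=
    (v.adicValuation_le_one_iff.mp (v.adicValuation_algebraMap_le_one c)).resolve_left hc'
  have h2 : 0 ≤ v.ord (algebraMap K F' c⁻¹) :=
    (v.adicValuation_le_one_iff.mp (v.adicValuation_algebraMap_le_one c⁻¹)).resolve_left
      (by simpa using hc)
  rw [map_inv₀, Place.ord_inv] at h2
  omega

/-- `ord_v (x − c) = max 0 (ord_v (x − c)) − max 0 (− ord_v x)` for a constant `c` -/
theorem dz_ord_sub_const (v : Place K F') (x : F') (c : K) :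
    v.ord (x - algebraMap K F' c) =
      max 0 (v.ord (x - algebraMap K F' c)) - max 0 (-(v.ord x)) := by
  rcases eq_or_ne c 0 with rfl | hc
  · simp only [map_zero, sub_zero]
    rcases le_total 0 (v.ord x) with h | h
    · rw [max_eq_right h, max_eq_left (by omega)]; ring
    · rw [max_eq_left h, max_eq_right (by omega)]; ring
  have hc' : algebraMap K F' c ≠ 0 := by simpa using hc
  have hcn : -algebraMap K F' c ≠ 0 := neg_ne_zero.mpr hc'
  have hoc : v.ord (-algebraMap K F' c) = 0 := by rw [dz_ord_neg, dz_ord_const]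
  rcases lt_or_ge (v.ord x) 0 with h | h
  · have hx : x ≠ 0 := by
      rintro rfl
      simp [Place.ord_zero] at h
    have h1 : v.ord (x - algebraMap K F' c) = v.ord x := by
      rw [sub_eq_add_neg]
      exact pol_ord_add_of_lt hx hcn (by rw [hoc]; exact h)
    rw [h1, max_eq_left (by omega), max_eq_right (by omega)]; ring
  · have h1 : 0 ≤ v.ord (x - algebraMap K F' c) := by
      rcases eq_or_ne (x - algebraMap K F' c) 0 with h0 | h0
      · rw [h0, Place.ord_zero]
      · rw [sub_eq_add_neg] at h0 ⊢
        refine pol_ord_add_ge h0 ?_ (Or.inr (by rw [hoc]))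
        rcases eq_or_ne x 0 with rfl | hx
        · exact Or.inl rfl
        · exact Or.inr h
    rw [max_eq_right h1, max_eq_left (by omega)]; ring

/-- `x` and `x − 1` have no common zero -/
theorem dz_not_both_pos (v : Place K F') (x : F') :
    v.ord x ≤ 0 ∨ v.ord (x - 1) ≤ 0 := by
  by_contra hcon
  obtain ⟨h1, h2⟩ := not_or.mp hcon
  rw [not_le] at h1 h2
  have hx : x ≠ 0 := by
    rintro rfl
    simp [Place.ord_zero] at h1
  have hx1 : x - 1 ≠ 0 := by
    intro h0
    rw [h0, Place.ord_zero] at h2
    exact lt_irrefl _ h2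
  have h3 : (1 : ℤ) ≤ v.ord (x + -(x - 1)) :=
    pol_ord_add_ge (by simp) (Or.inr (by omega)) (Or.inr (by rw [dz_ord_neg]; omega))
  have h4 : x + -(x - 1) = 1 := by ring
  rw [h4, Place.ord_one] at h3
  omega

theorem dz_degree_mapDomain [RRBase K F'] [RRBase k Fk'] (r' : Place K F' → Place k Fk')
    (D : Divisor K F') :
    Divisor.degree (Finsupp.mapDomain r' D) = Divisor.degree D := by
  induction D using Finsupp.induction with
  | zero => simp
  | single_add P n D _ _ ih =>
    rw [Finsupp.mapDomain_add, map_add, map_add, ih, Finsupp.mapDomain_single,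
      Divisor.degree_single, Divisor.degree_single, deg_eq_one, deg_eq_one]

variable {A : ValuationSubring K} {π : A →+* k}

namespace ConstRed

variable {R' : ConstRed A π Fk' F'}

/-- the element `x − c` of `O'` -/
def subConst (R' : ConstRed A π Fk' F') (x : R'.O) (c : A) : R'.O :=
  x - ⟨algebraMap K F' (c : K), R'.algebraMap_mem c⟩

theorem coe_subConst (x : R'.O) (c : A) :
    ((R'.subConst x c : R'.O) : F') = ((x : R'.O) : F') - algebraMap K F' (c : K) := rfl

theorem red_subConst (x : R'.O) (c : A) :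
    R'.red (R'.subConst x c) = R'.red x - algebraMap k Fk' (π c) := by
  rw [subConst, map_sub, R'.red_algebraMap]

theorem red_subConst_ne_zero (x : R'.O) (hx : R'.red x ∉ Set.range (algebraMap k Fk')) (c : A) :
    R'.red (R'.subConst x c) ≠ 0 := by
  rw [red_subConst]
  intro h
  exact hx ⟨π c, (sub_eq_zero.mp h).symm⟩

/-- the evaluation property (also 75b/U `ord_red_pos`) -/
theorem IsPlaceRed.ord_red_pos' [RRBase K F'] [RRBase k Fk']
    {r' : Place K F' → Place k Fk'} (hr' : R'.IsPlaceRed r') (y : R'.O) (hy : R'.red y ≠ 0)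
    (P : Place K F')
    (hpole : ∀ P' : Place K F', r' P' = r' P → 0 ≤ P'.ord ((y : R'.O) : F'))
    (hP : 0 < P.ord ((y : R'.O) : F')) : 0 < (r' P).ord (R'.red y) := by
  classical
  rw [← hr'.2 y hy (r' P), dz_mapDomain_apply]
  have hPs : P ∈ (divOf (K := K) ((y : R'.O) : F')).support := by
    rw [Finsupp.mem_support_iff, divOf_apply']
    omega
  have hnn : ∀ a ∈ (divOf (K := K) ((y : R'.O) : F')).support,
      0 ≤ (if r' a = r' P then divOf (K := K) ((y : R'.O) : F') a else 0) := by
    intro a _
    split_ifs with h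
    · rw [divOf_apply']; exact hpole a h
    · exact le_rfl
  have h1 := Finset.single_le_sum hnn hPs
  simp only [if_true, divOf_apply'] at h1
  have h2 : (0 : ℤ) < ∑ a ∈ (divOf (K := K) ((y : R'.O) : F')).support,
      (if r' a = r' P then divOf (K := K) ((y : R'.O) : F') a else 0) := by
    simp only [divOf_apply']
    omega
  convert h2 using 2

/-- (Ax) for `x − c`, split into zeros and poles -/
theorem IsPlaceRed.mapDomain_sub_eq [RRBase K F'] [RRBase k Fk']
    {r' : Place K F' → Place k Fk'} (hr' : R'.IsPlaceRed r') (x : R'.O)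
    (hx : R'.red x ∉ Set.range (algebraMap k Fk'))
    {D : Divisor K F'} (hD : ∀ v : Place K F', D v = max 0 (-(v.ord ((x : R'.O) : F'))))
    {X : Divisor k Fk'} (hX : ∀ w : Place k Fk', X w = max 0 (-(w.ord (R'.red x))))
    (c : A)
    {Z : Divisor K F'}
    (hZ : ∀ v : Place K F', Z v = max 0 (v.ord (((x : R'.O) : F') - algebraMap K F' (c : K))))
    {Zb : Divisor k Fk'}
    (hZb : ∀ w : Place k Fk', Zb w = max 0 (w.ord (R'.red x - algebraMap k Fk' (π c)))) :
    Finsupp.mapDomain r' Z - Finsupp.mapDomain r' D = Zb - X := by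
  have hE : divOf (K := K) (((x : R'.O) : F') - algebraMap K F' (c : K)) = Z - D := by
    ext v
    rw [divOf_apply', Finsupp.sub_apply, hZ, hD]
    exact dz_ord_sub_const v _ _
  have hEb : divOf (K := k) (R'.red x - algebraMap k Fk' (π c)) = Zb - X := by
    ext w
    rw [divOf_apply', Finsupp.sub_apply, hZb, hX]
    exact dz_ord_sub_const w _ _
  have hAx : Finsupp.mapDomain r' (divOf (K := K) (((x : R'.O) : F') - algebraMap K F' (c : K)))
      = divOf (K := k) (R'.red x - algebraMap k Fk' (π c)) := by
    ext Q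
    have h := hr'.2 (R'.subConst x c) (red_subConst_ne_zero x hx c) Q
    rw [coe_subConst, red_subConst] at h
    rw [h, divOf_apply']
  rw [← hEb, ← hAx, hE]
  exact ((Finsupp.mapDomain.addMonoidHom r').map_sub Z D).symm

/-- poles reduce to poles, as divisors: `r'_* (x)_∞ = (xbar)_∞` -/
theorem IsPlaceRed.mapDomain_poles [RRBase K F'] [RRBase k Fk']
    {r' : Place K F' → Place k Fk'} (hr' : R'.IsPlaceRed r') (x : R'.O)
    (hx : R'.red x ∉ Set.range (algebraMap k Fk'))
    {D : Divisor K F'} (hD : ∀ v : Place K F', D v = max 0 (-(v.ord ((x : R'.O) : F'))))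
    {X : Divisor k Fk'} (hX : ∀ w : Place k Fk', X w = max 0 (-(w.ord (R'.red x))))
    (hdeg : Divisor.degree D ≤ Divisor.degree X) :
    Finsupp.mapDomain r' D = X := by
  classical
  -- the zero divisors of `x − c`, `xbar − cbar`
  have key : ∀ c : A, ∀ Q : Place k Fk',
      -(max 0 (Q.ord (R'.red x - algebraMap k Fk' (π c)))) ≤
        Finsupp.mapDomain r' D Q - X Q := by
    intro c Q
    set Z : Divisor K F' :=
      divOf (K := K) (((x : R'.O) : F') - algebraMap K F' (c : K)) ⊔ 0 with hZdef
    set Zb : Divisor k Fk' :=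
      divOf (K := k) (R'.red x - algebraMap k Fk' (π c)) ⊔ 0 with hZbdef
    have hZ : ∀ v : Place K F',
        Z v = max 0 (v.ord (((x : R'.O) : F') - algebraMap K F' (c : K))) := by
      intro v
      rw [hZdef, Finsupp.sup_apply, divOf_apply', Finsupp.coe_zero, Pi.zero_apply, max_comm]
    have hZb : ∀ w : Place k Fk',
        Zb w = max 0 (w.ord (R'.red x - algebraMap k Fk' (π c))) := by
      intro w
      rw [hZbdef, Finsupp.sup_apply, divOf_apply', Finsupp.coe_zero, Pi.zero_apply, max_comm]
    have h := hr'.mapDomain_sub_eq x hx hD hX c hZ hZb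
    have hQ := DFunLike.congr_fun h Q
    rw [Finsupp.sub_apply, Finsupp.sub_apply, hZb] at hQ
    have hZnn : 0 ≤ Finsupp.mapDomain r' Z Q :=
      dz_mapDomain_nonneg r' (fun v => by rw [hZ]; exact le_max_left _ _) Q
    linarith
  have hle : X ≤ Finsupp.mapDomain r' D := by
    intro Q
    have h0 := key 0 Q
    have h1 := key 1 Q
    rw [map_zero, map_zero, sub_zero] at h0
    rw [map_one, map_one] at h1
    rcases dz_not_both_pos Q (R'.red x) with h | h
    · rw [max_eq_left h] at h0
      linarith
    · rw [max_eq_left h] at h1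
      linarith
  have hd : Divisor.degree (Finsupp.mapDomain r' D) ≤ Divisor.degree X := by
    rw [dz_degree_mapDomain]
    exact hdeg
  exact (eq_of_le_of_degree_le hle hd).symm

/-- **DS2**: `r'_*` maps the zero divisor of `x − c` to the zero divisor of `red' x − π c`. -/
theorem IsPlaceRed.mapDomain_zeros [RRBase K F'] [RRBase k Fk']
    {r' : Place K F' → Place k Fk'} (hr' : R'.IsPlaceRed r') (x : R'.O)
    (hx : R'.red x ∉ Set.range (algebraMap k Fk'))
    {D : Divisor K F'} (hD : ∀ v : Place K F', D v = max 0 (-(v.ord ((x : R'.O) : F'))))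
    {X : Divisor k Fk'} (hX : ∀ w : Place k Fk', X w = max 0 (-(w.ord (R'.red x))))
    (hdeg : Divisor.degree D ≤ Divisor.degree X) (c : A)
    {Z : Divisor K F'}
    (hZ : ∀ v : Place K F', Z v = max 0 (v.ord (((x : R'.O) : F') - algebraMap K F' (c : K))))
    {Zb : Divisor k Fk'}
    (hZb : ∀ w : Place k Fk', Zb w = max 0 (w.ord (R'.red x - algebraMap k Fk' (π c)))) :
    Finsupp.mapDomain r' Z = Zb := by
  have h1 := hr'.mapDomain_sub_eq x hx hD hX c hZ hZb
  have h2 := hr'.mapDomain_poles x hx hD hX hdeg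
  rw [h2] at h1
  exact sub_left_injective h1

/-- hence every zero of `x − c` reduces to a zero of `red' x − π c` -/
theorem IsPlaceRed.ord_red_sub_pos [RRBase K F'] [RRBase k Fk']
    {r' : Place K F' → Place k Fk'} (hr' : R'.IsPlaceRed r') (x : R'.O)
    (hx : R'.red x ∉ Set.range (algebraMap k Fk'))
    {D : Divisor K F'} (hD : ∀ v : Place K F', D v = max 0 (-(v.ord ((x : R'.O) : F'))))
    {X : Divisor k Fk'} (hX : ∀ w : Place k Fk', X w = max 0 (-(w.ord (R'.red x))))
    (hdeg : Divisor.degree D ≤ Divisor.degree X)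
    (c : A) (P : Place K F')
    (hP : 0 < P.ord (((x : R'.O) : F') - algebraMap K F' (c : K))) :
    0 < (r' P).ord (R'.red x - algebraMap k Fk' (π c)) := by
  classical
  set Z : Divisor K F' :=
    divOf (K := K) (((x : R'.O) : F') - algebraMap K F' (c : K)) ⊔ 0 with hZdef
  set Zb : Divisor k Fk' :=
    divOf (K := k) (R'.red x - algebraMap k Fk' (π c)) ⊔ 0 with hZbdef
  have hZ : ∀ v : Place K F',
      Z v = max 0 (v.ord (((x : R'.O) : F') - algebraMap K F' (c : K))) := by
    intro v
    rw [hZdef, Finsupp.sup_apply, divOf_apply', Finsupp.coe_zero, Pi.zero_apply, max_comm]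
  have hZb : ∀ w : Place k Fk',
      Zb w = max 0 (w.ord (R'.red x - algebraMap k Fk' (π c))) := by
    intro w
    rw [hZbdef, Finsupp.sup_apply, divOf_apply', Finsupp.coe_zero, Pi.zero_apply, max_comm]
  have h := hr'.mapDomain_zeros x hx hD hX hdeg c hZ hZb
  have h1 : Z P ≤ Finsupp.mapDomain r' Z (r' P) :=
    dz_le_mapDomain_apply r' (fun v => by rw [hZ]; exact le_max_left _ _) P
  rw [h, hZ, hZb, max_eq_right hP.le] at h1
  by_contra hcon
  rw [max_eq_left (not_lt.mp hcon)] at h1
  omega

/-- a pole of `x` reduces to a pole of `red' x` -/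
theorem IsPlaceRed.ord_red_neg [RRBase K F'] [RRBase k Fk']
    {r' : Place K F' → Place k Fk'} (hr' : R'.IsPlaceRed r') (x : R'.O)
    (hx : R'.red x ∉ Set.range (algebraMap k Fk'))
    {D : Divisor K F'} (hD : ∀ v : Place K F', D v = max 0 (-(v.ord ((x : R'.O) : F'))))
    {X : Divisor k Fk'} (hX : ∀ w : Place k Fk', X w = max 0 (-(w.ord (R'.red x))))
    (hdeg : Divisor.degree D ≤ Divisor.degree X)
    (P : Place K F') (hP : P.ord ((x : R'.O) : F') < 0) :
    (r' P).ord (R'.red x) < 0 := by
  have h := hr'.mapDomain_poles x hx hD hX hdeg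
  have h1 : D P ≤ Finsupp.mapDomain r' D (r' P) :=
    dz_le_mapDomain_apply r' (fun v => by rw [hD]; exact le_max_left _ _) P
  rw [h, hD, hX, max_eq_right (by omega)] at h1
  by_contra hcon
  rw [max_eq_left (by omega)] at h1
  omega

end ConstRed

end Fermat.Agent.GoodRed

end
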