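/-
Item 75a GOODRED-a, piece DS3 (helper26): "unibranch" — a place reduction `r'` of the upper level
respects the fibres of `Place.restrict`.
Blueprint: NOTES/GOODRED_a_blueprint.md.  No sorry in this file.
-/
import Mathlib
import Fermat.Agent.GoodRed.DescDefs
import Fermat.Agent.GoodRed.DescZeros
import Fermat.Agent.GoodRed.DescNorm
import Fermat.Agent.GoodRed.Lattice
import Fermat.Agent.GoodRed.Polar
import Fermat.Agent.RRlib.Basic

set_option autoImplicit false

noncomputable section

namespace Fermat.Agent.GoodRed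

open AlgebraicCurve Fermat.Agent.RRlib

/-! ### one function field -/

section One

variable {K F : Type*} [Field K] [Field F] [Algebra K F]

/-- a non-constant function has a zero -/
theorem du_exists_zero [RRBase K F] {f : F} (hf : f ∉ Set.range (algebraMap K F)) :
    ∃ v : Place K F, 0 < v.ord f := by
  by_contra hcon
  have hall : ∀ v : Place K F, v.ord f ≤ 0 := fun v => not_lt.mp fun h => hcon ⟨v, h⟩
  have hinv : f⁻¹ ∈ Set.range (algebraMap K F) :=
    RRBase.const_of_forall_ord_nonneg f⁻¹ fun v => by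
      rw [Place.ord_inv]
      have := hall v
      omega
  obtain ⟨a, ha⟩ := hinv
  exact hf ⟨a⁻¹, by rw [map_inv₀, ha, inv_inv]⟩

/-- the zero divisor of a non-constant function has positive degree -/
theorem du_one_le_degree_zeros [RRBase K F] {f : F} (hf : f ∉ Set.range (algebraMap K F))
    {Z : Divisor K F} (hZ : ∀ v : Place K F, Z v = max 0 (v.ord f)) :
    1 ≤ Divisor.degree Z := by
  classical
  obtain ⟨v, hv⟩ := du_exists_zero (K := K) hf
  have hle : Finsupp.single v (1 : ℤ) ≤ Z := by
    intro w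
    rw [Finsupp.single_apply, hZ]
    split_ifs with h
    · subst h
      rw [max_eq_right hv.le]
      omega
    · exact le_max_left _ _
  have := degree_mono hle
  rwa [degree_single_one] at this

/-- at most one constant `a` makes `f − a` vanish at `Q`; so one can avoid finitely many places -/
theorem du_exists_const [RRBase K F] [Infinite K] (f : F) (S : Finset (Place K F)) :
    ∃ a : K, ∀ Q ∈ S, Q.ord (f - algebraMap K F a) ≤ 0 := by
  classical
  have hsub : ∀ Q : Place K F, ∀ a b : K, 0 < Q.ord (f - algebraMap K F a) →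
      0 < Q.ord (f - algebraMap K F b) → a = b := by
    intro Q a b ha hb
    by_contra hab
    have hne : algebraMap K F (b - a) ≠ 0 := by
      simpa [sub_eq_zero] using (Ne.symm hab)
    have hfa : f - algebraMap K F a ≠ 0 := by
      intro h0
      rw [h0, Place.ord_zero] at ha
      exact lt_irrefl _ ha
    have hfb : f - algebraMap K F b ≠ 0 := by
      intro h0
      rw [h0, Place.ord_zero] at hb
      exact lt_irrefl _ hb
    have hsum : (f - algebraMap K F a) + -(f - algebraMap K F b) = algebraMap K F (b - a) := by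
      rw [map_sub]; ring
    have h1 : (1 : ℤ) ≤ Q.ord ((f - algebraMap K F a) + -(f - algebraMap K F b)) :=
      pol_ord_add_ge (by rw [hsum]; exact hne) (Or.inr (by omega))
        (Or.inr (by rw [dz_ord_neg]; omega))
    rw [hsum, dz_ord_const] at h1
    omega
  -- the bad set
  have hfin : (⋃ Q ∈ S, {a : K | 0 < Q.ord (f - algebraMap K F a)}).Finite := by
    refine Set.Finite.biUnion S.finite_toSet fun Q _ => ?_
    refine Set.Subsingleton.finite ?_
    intro a ha b hb
    exact hsub Q a b ha hb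
  obtain ⟨a, ha⟩ := hfin.exists_notMem
  refine ⟨a, fun Q hQ => not_lt.mp fun h => ha ?_⟩
  simp only [Set.mem_iUnion]
  exact ⟨Q, hQ, h⟩

theorem du_ord_pow (v : Place K F) (f : F) (n : ℕ) : v.ord (f ^ n) = n * v.ord f := by
  rw [← zpow_natCast, Place.ord_zpow]

end One

/-! ### norms and places in a tower -/

section Tower

variable {K F F' : Type*} [Field K] [Field F] [Field F'] [Algebra K F] [Algebra K F']
  [Algebra F F'] [IsScalarTower K F F'] [Algebra.IsIntegral F F']

theorem du_inertiaDeg_eq_one [RRBase K F'] (w : Place K F') : w.inertiaDeg F = 1 := by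
  have h := w.deg_restrict_mul_inertiaDeg (F := F)
  have hw : w.deg = 1 := deg_eq_one (K := K) w
  rw [hw] at h
  exact Nat.eq_one_of_mul_eq_one_left h

/-- if `y` has no pole over `v` then `N(y)` has no pole at `v`; if moreover `y` vanishes at some
place over `v`, then `N(y)` vanishes at `v` -/
theorem du_ord_norm [RRBase K F'] [FiniteDimensional F F']
    (hN : Divisor.PushforwardNormFormula K F F') {y : F'} (hy : y ≠ 0) (v : Place K F)
    (h : ∀ w : Place K F', w.restrict F = v → 0 ≤ w.ord y) :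
    0 ≤ v.ord (Algebra.norm F y) ∧
      ∀ w₀ : Place K F', w₀.restrict F = v → 0 < w₀.ord y → 0 < v.ord (Algebra.norm F y) := by
  classical
  have hf := hN y hy (divOf (K := K) y) (fun w => divOf_apply' y w) v
  rw [Divisor.pushforward_apply] at hf
  have hnn : ∀ w ∈ (divOf (K := K) y).support,
      0 ≤ (if w.restrict F = v then divOf (K := K) y w * (w.inertiaDeg F : ℤ) else 0) := by
    intro w _
    split_ifs with hw
    · rw [divOf_apply']
      exact mul_nonneg (h w hw) (Int.natCast_nonneg _)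
    · exact le_rfl
  refine ⟨by rw [← hf]; exact Finset.sum_nonneg hnn, fun w₀ hw₀ hpos => ?_⟩
  have hmem : w₀ ∈ (divOf (K := K) y).support := by
    rw [Finsupp.mem_support_iff, divOf_apply']
    omega
  have h1 := Finset.single_le_sum hnn hmem
  rw [if_pos hw₀, divOf_apply', du_inertiaDeg_eq_one, Nat.cast_one, mul_one] at h1
  rw [← hf]
  omega

end Tower

/-! ### the unibranch theorem -/

variable {K F F' k Fk Fk' : Type*} [Field K] [Field F] [Field F'] [Algebra K F] [Algebra K F']
  [Algebra F F'] [IsScalarTower K F F']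
  [Field k] [Field Fk] [Field Fk'] [Algebra k Fk] [Algebra k Fk'] [Algebra Fk Fk']
  [IsScalarTower k Fk Fk']
variable {A : ValuationSubring K} {π : A →+* k}

namespace ConstRed

variable {R : ConstRed A π Fk F} {R' : ConstRed A π Fk' F'}

variable [RRHyp K F'] [RRHyp k Fk'] [RRHyp k Fk] [Algebra.IsIntegral F F']
  [Algebra.IsIntegral Fk Fk'] [FiniteDimensional F F'] [FiniteDimensional Fk Fk']
  {r' : Place K F' → Place k Fk'} {x : R.O}

/-- `x` as an element of `O'` -/
def DescentData.xUp (h : DescentData R R' r' x) : R'.O :=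
  ⟨algebraMap F F' ((x : R.O) : F), h.tower.map_mem _ x.2⟩

theorem DescentData.coe_xUp (h : DescentData R R' r' x) :
    ((h.xUp : R'.O) : F') = algebraMap F F' ((x : R.O) : F) := rfl

theorem DescentData.red_xUp (h : DescentData R R' r' x) :
    R'.red h.xUp = algebraMap Fk Fk' (R.red x) :=
  h.tower.red_map _ x.2

theorem DescentData.red_xUp_nonconst (h : DescentData R R' r' x) :
    R'.red h.xUp ∉ Set.range (algebraMap k Fk') := by
  rintro ⟨a, ha⟩
  rw [h.red_xUp, IsScalarTower.algebraMap_apply k Fk Fk'] at ha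
  exact h.x_nonconst ⟨a, (algebraMap Fk Fk').injective ha⟩

/-- zeros of `x − c` in `F'` reduce to zeros of `xbar − cbar`, stated with orders in `F` and `Fk` -/
theorem DescentData.ord_le_zero_of_restrict (h : DescentData R R' r' x) (c : A)
    (P : Place K F') (hQ : ((r' P).restrict Fk).ord (R.red x - algebraMap k Fk (π c)) ≤ 0) :
    (P.restrict F).ord (((x : R.O) : F) - algebraMap K F (c : K)) ≤ 0 := by
  classical
  by_contra hcon
  rw [not_le] at hcon
  -- pole divisors of `x` upstairs
  set D : Divisor K F' := (-(divOf (K := K) (algebraMap F F' ((x : R.O) : F)))) ⊔ 0 with hDdef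
  set X : Divisor k Fk' := (-(divOf (K := k) (algebraMap Fk Fk' (R.red x)))) ⊔ 0 with hXdef
  have hD : ∀ v : Place K F', D v = max 0 (-(v.ord (algebraMap F F' ((x : R.O) : F)))) := by
    intro v
    rw [hDdef, Finsupp.sup_apply, Finsupp.neg_apply, divOf_apply', Finsupp.coe_zero,
      Pi.zero_apply, max_comm]
  have hX : ∀ w : Place k Fk', X w = max 0 (-(w.ord (algebraMap Fk Fk' (R.red x)))) := by
    intro w
    rw [hXdef, Finsupp.sup_apply, Finsupp.neg_apply, divOf_apply', Finsupp.coe_zero,
      Pi.zero_apply, max_comm]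
  have hdeg := h.x_deg D X hD hX
  have hX' : ∀ w : Place k Fk', X w = max 0 (-(w.ord (R'.red h.xUp))) := by
    intro w; rw [hX, h.red_xUp]
  have hup : 0 < P.ord (((h.xUp : R'.O) : F') - algebraMap K F' (c : K)) := by
    have e1 : ((h.xUp : R'.O) : F') - algebraMap K F' (c : K) =
        algebraMap F F' (((x : R.O) : F) - algebraMap K F (c : K)) := by
      rw [h.coe_xUp, map_sub, ← IsScalarTower.algebraMap_apply]
    rw [e1, Place.ord_restrict]
    exact mul_pos (by exact_mod_cast P.ramificationIndex_pos (F := F)) hcon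
  have hdown := h.isPlaceRed.ord_red_sub_pos h.xUp h.red_xUp_nonconst hD hX' hdeg c P hup
  have e2 : R'.red h.xUp - algebraMap k Fk' (π c) =
      algebraMap Fk Fk' (R.red x - algebraMap k Fk (π c)) := by
    rw [h.red_xUp, map_sub, ← IsScalarTower.algebraMap_apply]
  rw [e2, Place.ord_restrict] at hdown
  have hpos : (0 : ℤ) < ((r' P).ramificationIndex Fk : ℤ) := by
    exact_mod_cast (r' P).ramificationIndex_pos (F := Fk)
  nlinarith

/-- **unibranch**: two places of `F'` over the same place of `F` reduce to places of `Fk'` over the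
same place of `Fk`. -/
theorem DescentData.restrict_eq [Infinite k] (h : DescentData R R' r' x) (P' P'' : Place K F')
    (hP : P'.restrict F = P''.restrict F) :
    (r' P').restrict Fk = (r' P'').restrict Fk := by
  classical
  by_contra hne
  set Q₁ : Place k Fk := (r' P').restrict Fk with hQ₁
  set Q₂ : Place k Fk := (r' P'').restrict Fk with hQ₂
  -- a. the constant `c`
  obtain ⟨a, ha⟩ := du_exists_const (K := k) (R.red x) {Q₁, Q₂}
  obtain ⟨c, rfl⟩ := R.π_surjective a
  have hc₁ : Q₁.ord (R.red x - algebraMap k Fk (π c)) ≤ 0 := ha Q₁ (by simp)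
  have hc₂ : Q₂.ord (R.red x - algebraMap k Fk (π c)) ≤ 0 := ha Q₂ (by simp)
  -- the zero divisors of `x − c` upstairs and of `xbar − cbar` downstairs
  set u : F := ((x : R.O) : F) - algebraMap K F (c : K) with hu
  set ub : Fk := R.red x - algebraMap k Fk (π c) with hub
  have hub_nc : ub ∉ Set.range (algebraMap k Fk) := by
    rintro ⟨b, hb⟩
    refine h.x_nonconst ⟨b + π c, ?_⟩
    rw [map_add, hb, hub]; ring
  have hup_nc : algebraMap Fk Fk' ub ∉ Set.range (algebraMap k Fk') := by
    rintro ⟨b, hb⟩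
    rw [IsScalarTower.algebraMap_apply k Fk Fk'] at hb
    exact hub_nc ⟨b, (algebraMap Fk Fk').injective hb⟩
  set Z : Divisor K F' := divOf (K := K) (algebraMap F F' u) ⊔ 0 with hZdef
  set Zb : Divisor k Fk' := divOf (K := k) (algebraMap Fk Fk' ub) ⊔ 0 with hZbdef
  set Z₀ : Divisor k Fk := divOf (K := k) ub ⊔ 0 with hZ₀def
  have hZ : ∀ v : Place K F', Z v = max 0 (v.ord (algebraMap F F' u)) := by
    intro v
    rw [hZdef, Finsupp.sup_apply, divOf_apply', Finsupp.coe_zero, Pi.zero_apply, max_comm]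
  have hZb : ∀ w : Place k Fk', Zb w = max 0 (w.ord (algebraMap Fk Fk' ub)) := by
    intro w
    rw [hZbdef, Finsupp.sup_apply, divOf_apply', Finsupp.coe_zero, Pi.zero_apply, max_comm]
  have hZ₀ : ∀ w : Place k Fk, Z₀ w = max 0 (w.ord ub) := by
    intro w
    rw [hZ₀def, Finsupp.sup_apply, divOf_apply', Finsupp.coe_zero, Pi.zero_apply, max_comm]
  have hZnn : 0 ≤ Z := fun v => by rw [hZ]; exact le_max_left _ _
  have e1 : ((h.xUp : R'.O) : F') - algebraMap K F' (c : K) = algebraMap F F' u := by
    rw [h.coe_xUp, hu, map_sub, ← IsScalarTower.algebraMap_apply]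
  have e2 : R'.red h.xUp - algebraMap k Fk' (π c) = algebraMap Fk Fk' ub := by
    rw [h.red_xUp, hub, map_sub, ← IsScalarTower.algebraMap_apply]
  -- DS2 : r'_* Z = Zb
  have hZZb : Finsupp.mapDomain r' Z = Zb := by
    set D : Divisor K F' := (-(divOf (K := K) (algebraMap F F' ((x : R.O) : F)))) ⊔ 0 with hDdef
    set X : Divisor k Fk' := (-(divOf (K := k) (algebraMap Fk Fk' (R.red x)))) ⊔ 0 with hXdef
    have hD : ∀ v : Place K F', D v = max 0 (-(v.ord (algebraMap F F' ((x : R.O) : F)))) := by
      intro v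
      rw [hDdef, Finsupp.sup_apply, Finsupp.neg_apply, divOf_apply', Finsupp.coe_zero,
        Pi.zero_apply, max_comm]
    have hX : ∀ w : Place k Fk', X w = max 0 (-(w.ord (algebraMap Fk Fk' (R.red x)))) := by
      intro w
      rw [hXdef, Finsupp.sup_apply, Finsupp.neg_apply, divOf_apply', Finsupp.coe_zero,
        Pi.zero_apply, max_comm]
    have hdeg := h.x_deg D X hD hX
    have hX' : ∀ w : Place k Fk', X w = max 0 (-(w.ord (R'.red h.xUp))) := by
      intro w; rw [hX, h.red_xUp]
    refine h.isPlaceRed.mapDomain_zeros h.xUp h.red_xUp_nonconst hD hX' hdeg c ?_ ?_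
    · intro v; rw [hZ, e1]
    · intro w; rw [hZb, e2]
  -- degrees
  have hdegZ₀ : 1 ≤ Divisor.degree Z₀ := du_one_le_degree_zeros (K := k) hub_nc hZ₀
  have hdegZ : 1 ≤ Divisor.degree Z := by
    have h1 : 1 ≤ Divisor.degree Zb := du_one_le_degree_zeros (K := k) hup_nc hZb
    rwa [← hZZb, dz_degree_mapDomain] at h1
  -- `Zb` is the pull-back of `Z₀`
  have hZbZ₀ : ∀ w : Place k Fk',
      Zb w = (w.ramificationIndex Fk : ℤ) * Z₀ (w.restrict Fk) := by
    intro w
    have hpos : (0 : ℤ) < (w.ramificationIndex Fk : ℤ) := by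
      exact_mod_cast w.ramificationIndex_pos (F := Fk)
    rw [hZb, hZ₀, Place.ord_restrict, mul_max_of_nonneg _ _ hpos.le, mul_zero]
  have hZ₀Q₁ : Z₀ Q₁ = 0 := by rw [hZ₀, max_eq_left hc₁]
  have hZ₀Q₂ : Z₀ Q₂ = 0 := by rw [hZ₀, max_eq_left hc₂]
  -- b. Riemann–Roch downstairs
  set n : ℕ := 2 * genusFF k Fk + 2 * genusFF K F' + 1 with hn
  set X₀ : Divisor k Fk := n • Z₀ - Finsupp.single Q₁ (1 : ℤ) with hX₀
  have hdegX₀ : 2 * (genusFF k Fk : ℤ) ≤ Divisor.degree X₀ := by
    rw [hX₀, map_sub, map_nsmul, degree_single_one, nsmul_eq_mul, hn]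
    push_cast
    nlinarith
  obtain ⟨yb, hybL, hyb0, hybQ₂⟩ := exists_ord_eq_neg k Fk hdegX₀ Q₂
  have hX₀Q₂ : X₀ Q₂ = 0 := by
    rw [hX₀, Finsupp.sub_apply, Finsupp.smul_apply, hZ₀Q₂, Finsupp.single_apply,
      if_neg hne]
    simp
  rw [hX₀Q₂, neg_zero] at hybQ₂
  have hybord : ∀ w : Place k Fk, -X₀ w ≤ w.ord yb := fun w =>
    ((mem_riemannRochSpace_iff.mp hybL) w).resolve_left hyb0
  -- c. lift `yb` to `y ∈ O' ∩ L(n Z − P')`
  set E : Divisor K F' := n • Z - Finsupp.single P' (1 : ℤ) with hE
  have hdegE : 2 * (genusFF K F' : ℤ) - 2 < Divisor.degree E := by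
    rw [hE, map_sub, map_nsmul, degree_single_one, nsmul_eq_mul, hn]
    push_cast
    nlinarith
  have hmapE : Finsupp.mapDomain r' E = n • Zb - Finsupp.single (r' P') (1 : ℤ) := by
    rw [hE]
    have := (Finsupp.mapDomain.addMonoidHom (M := ℤ) r').map_sub (n • Z)
      (Finsupp.single P' (1 : ℤ))
    simp only [Finsupp.mapDomain.addMonoidHom_apply] at this
    rw [this, Finsupp.mapDomain_single]
    congr 1
    have h2 := map_nsmul (Finsupp.mapDomain.addMonoidHom (M := ℤ) r') n Z
    simp only [Finsupp.mapDomain.addMonoidHom_apply] at h2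
    rw [h2, hZZb]
  have hyb' : algebraMap Fk Fk' yb ∈ R'.W E := by
    rw [h.W_eq E hdegE, hmapE, mem_riemannRochSpace_iff]
    intro w
    right
    have hpos : (1 : ℤ) ≤ (w.ramificationIndex Fk : ℤ) := by
      exact_mod_cast w.ramificationIndex_pos (F := Fk)
    rw [Place.ord_restrict, Finsupp.sub_apply, Finsupp.smul_apply, hZbZ₀, Finsupp.single_apply]
    have hw := hybord (w.restrict Fk)
    rw [hX₀, Finsupp.sub_apply, Finsupp.smul_apply, Finsupp.single_apply] at hw
    simp only [nsmul_eq_mul] at hw ⊢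
    have hZ₀nn : 0 ≤ Z₀ (w.restrict Fk) := by rw [hZ₀]; exact le_max_left _ _
    by_cases hw1 : r' P' = w
    · subst hw1
      rw [if_pos rfl]
      rw [if_pos rfl] at hw
      nlinarith
    · rw [if_neg hw1]
      split_ifs at hw with hw2
      · nlinarith
      · nlinarith
  obtain ⟨y, hyL, hyred⟩ := (R'.mem_W_iff E _).mp hyb'
  have hy0 : ((y : R'.O) : F') ≠ 0 := by
    intro h0
    have : y = 0 := Subtype.ext h0
    rw [this, map_zero] at hyred
    exact hyb0 ((algebraMap Fk Fk').injective (by rw [← hyred, map_zero]))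
  have hyord : ∀ w : Place K F', -E w ≤ w.ord ((y : R'.O) : F') := fun w =>
    ((mem_riemannRochSpace_iff.mp hyL) w).resolve_left hy0
  -- d. the norm
  obtain ⟨hz, hzred⟩ := h.tower.norm_mem_red h.finrank_eq y
  set z : F := Algebra.norm F ((y : R'.O) : F') with hzdef
  rw [hyred, Algebra.norm_algebraMap] at hzred
  have hzb0 : R.red ⟨z, hz⟩ ≠ 0 := by
    rw [hzred]
    exact pow_ne_zero _ hyb0
  have hzbQ₂ : Q₂.ord (R.red ⟨z, hz⟩) = 0 := by
    rw [hzred, du_ord_pow, hybQ₂, mul_zero]
  -- `Z` vanishes on every place whose reduction lies over `Q₂`, and on their conjugates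
  have hZzero : ∀ P₀ : Place K F', (r' P₀).restrict Fk = Q₂ →
      ∀ w : Place K F', w.restrict F = P₀.restrict F → Z w = 0 := by
    intro P₀ hP₀ w hw
    have h1 := h.ord_le_zero_of_restrict c P₀ (by rw [hP₀]; exact hc₂)
    rw [hZ, Place.ord_restrict, hw]
    refine max_eq_left ?_
    have hpos : (0 : ℤ) ≤ (w.ramificationIndex F : ℤ) := Int.natCast_nonneg _
    exact mul_nonpos_of_nonneg_of_nonpos hpos h1
  have hynn : ∀ P₀ : Place K F', (r' P₀).restrict Fk = Q₂ →
      ∀ w : Place K F', w.restrict F = P₀.restrict F → 0 ≤ w.ord ((y : R'.O) : F') := by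
    intro P₀ hP₀ w hw
    have h1 := hyord w
    rw [hE, Finsupp.sub_apply, Finsupp.smul_apply, hZzero P₀ hP₀ w hw, Finsupp.single_apply] at h1
    split_ifs at h1 <;> simp at h1 <;> omega
  -- e. `z` vanishes at `P = P''|F`
  have hzP : 0 < (P''.restrict F).ord z := by
    refine (du_ord_norm h.norm_K hy0 (P''.restrict F) (hynn P'' rfl)).2 P' hP ?_
    have h1 := hyord P'
    rw [hE, Finsupp.sub_apply, Finsupp.smul_apply, hZzero P'' rfl P' hP, Finsupp.single_apply,
      if_pos rfl] at h1
    simp at h1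
    omega
  -- f. the evaluation property at `P''`
  set zUp : R'.O := ⟨algebraMap F F' z, h.tower.map_mem z hz⟩ with hzUp
  have hzUpred : R'.red zUp = algebraMap Fk Fk' (R.red ⟨z, hz⟩) := h.tower.red_map z hz
  have hzUp0 : R'.red zUp ≠ 0 := by
    rw [hzUpred]
    simpa using hzb0
  have hfin := h.isPlaceRed.ord_red_pos' zUp hzUp0 P'' ?_ ?_
  · rw [hzUpred, Place.ord_restrict, hzbQ₂, mul_zero] at hfin
    exact lt_irrefl _ hfin
  · intro P₀ hP₀
    show 0 ≤ P₀.ord (algebraMap F F' z)
    rw [Place.ord_restrict]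
    refine mul_nonneg (Int.natCast_nonneg _) ?_
    exact (du_ord_norm h.norm_K hy0 (P₀.restrict F)
      (hynn P₀ (by rw [hP₀]))).1
  · show 0 < P''.ord (algebraMap F F' z)
    rw [Place.ord_restrict]
    exact mul_pos (by exact_mod_cast P''.ramificationIndex_pos (F := F)) hzP

end ConstRed

end Fermat.Agent.GoodRed

end
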