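/-
Item 75a GOODRED-a, piece DS4 (helper16): the place reduction descends along a tower.
Helper lemmas are prefixed `ds_`.
-/
import Mathlib
import Fermat.Agent.GoodRed.DescDefs
import Fermat.Agent.GoodRed.DescNorm
import Fermat.Agent.HeckeBar.GenFI
import Fermat.Agent.RRlib.Basic

set_option autoImplicit false

noncomputable section

namespace Fermat.Agent.GoodRed

open AlgebraicCurve Fermat.Agent.RRlib

section Generic

variable {K F F' : Type*} [Field K] [Field F] [Field F'] [Algebra K F] [Algebra K F']
  [Algebra F F'] [IsScalarTower K F F'] [Algebra.IsIntegral F F'] [FiniteDimensional F F']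

/-- every place extends (from the norm formula) -/
theorem ds_exists_restrict_eq [RRBase K F'] (H : Divisor.PushforwardNormFormula K F F')
    (P : Place K F) : ∃ P' : Place K F', P'.restrict F = P := by
  classical
  have := hasPrincipalDivisors_of_rrBase K F'
  have hS := Fermat.Agent.HeckeBar.sumRamificationInertia_of_normFormula H
  have h := hS.sum_ramificationIndex_mul_inertiaDeg P
  by_contra hcon
  rw [not_exists] at hcon
  have hempty : P.fiber F' = ∅ := by
    rw [Finset.eq_empty_iff_forall_notMem]
    intro w hw
    exact hcon w (Place.mem_fiber.mp hw)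
  rw [hempty, Finset.sum_empty] at h
  have hpos : 0 < Module.finrank F F' := Module.finrank_pos
  omega

/-- `Σ_{w ∣ v} e(w ∣ v) = [F' : F]` when all places of `F'` have degree one -/
theorem ds_sum_ramificationIndex [RRBase K F'] (H : Divisor.PushforwardNormFormula K F F')
    (hdeg : ∀ P : Place K F', P.deg = 1) (P : Place K F) :
    letI := hasPrincipalDivisors_of_rrBase K F'
    ∑ w ∈ P.fiber F', (w.ramificationIndex F : ℤ) = (Module.finrank F F' : ℤ) := by
  classical
  have := hasPrincipalDivisors_of_rrBase K F'
  have hS := Fermat.Agent.HeckeBar.sumRamificationInertia_of_normFormula H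
  have h := hS.sum_ramificationIndex_mul_inertiaDeg P
  rw [← h]
  refine Finset.sum_congr rfl fun w _ => ?_
  have h1 := w.deg_restrict_mul_inertiaDeg (F := F)
  rw [hdeg w] at h1
  have h2 : w.inertiaDeg F = 1 := Nat.eq_one_of_mul_eq_one_left h1
  rw [h2, Nat.cast_one, mul_one]

/-- `π_* π^* D = d • D` -/
theorem ds_mapDomain_pullback [RRBase K F'] (H : Divisor.PushforwardNormFormula K F F')
    (hdeg : ∀ P : Place K F', P.deg = 1) (D : Divisor K F) :
    letI := hasPrincipalDivisors_of_rrBase K F'
    Finsupp.mapDomain (fun w : Place K F' => w.restrict F) (Divisor.pullback F' D)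
      = Module.finrank F F' • D := by
  classical
  have := hasPrincipalDivisors_of_rrBase K F'
  induction D using Finsupp.induction_linear with
  | zero => simp
  | add D₁ D₂ h₁ h₂ => rw [map_add, Finsupp.mapDomain_add, h₁, h₂, smul_add]
  | single v n =>
    rw [Divisor.pullback_single, Finsupp.mapDomain_finsetSum]
    have h1 : ∀ w ∈ v.fiber F', Finsupp.mapDomain (fun w : Place K F' => w.restrict F)
        (Finsupp.single w (n * (w.ramificationIndex F : ℤ)))
        = Finsupp.single v (n * (w.ramificationIndex F : ℤ)) := by
      intro w hw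
      rw [Finsupp.mapDomain_single, Place.mem_fiber.mp hw]
    rw [Finset.sum_congr rfl h1, ← Finsupp.single_finsetSum, ← Finset.mul_sum,
      ds_sum_ramificationIndex H hdeg v, Finsupp.smul_single, nsmul_eq_mul, mul_comm]

/-- the divisor of a function of `F` in `F'` is the pullback of its divisor -/
theorem ds_divOf_algebraMap [RRBase K F] [RRBase K F'] (y : F) :
    letI := hasPrincipalDivisors_of_rrBase K F'
    divOf (K := K) (algebraMap F F' y) = Divisor.pullback F' (divOf (K := K) y) := by
  have := hasPrincipalDivisors_of_rrBase K F'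
  refine Finsupp.ext fun w => ?_
  rw [divOf_apply', Divisor.pullback_apply, divOf_apply', ← Place.ord_restrict]

end Generic

variable {K F F' k Fk Fk' : Type*} [Field K] [Field F] [Field F'] [Algebra K F] [Algebra K F']
  [Algebra F F'] [IsScalarTower K F F']
  [Field k] [Field Fk] [Field Fk'] [Algebra k Fk] [Algebra k Fk'] [Algebra Fk Fk']
  [IsScalarTower k Fk Fk']
variable {A : ValuationSubring K} {π : A →+* k}

namespace ConstRed

variable {R : ConstRed A π Fk F} {R' : ConstRed A π Fk' F'}

variable [RRHyp K F'] [RRHyp k Fk'] [RRHyp k Fk] [Algebra.IsIntegral F F']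
  [Algebra.IsIntegral Fk Fk'] [FiniteDimensional F F'] [FiniteDimensional Fk Fk']
  {r' : Place K F' → Place k Fk'} {x : R.O}

/-- every place of `F` extends to `F'` (fundamental identity, from the norm formula:
`Fermat.Agent.HeckeBar` `sumRamificationInertia_of_normFormula`) -/
theorem DescentData.exists_restrict_eq (h : DescentData R R' r' x) (P : Place K F) :
    ∃ P' : Place K F', P'.restrict F = P :=
  ds_exists_restrict_eq h.norm_K P

/-- `π_* π^* D = d·D` (all inertia degrees are `1`), in the form used below -/
theorem DescentData.sum_ramificationIndex_K (h : DescentData R R' r' x) (P : Place K F) :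
    letI := hasPrincipalDivisors_of_rrBase K F'
    ∑ w ∈ P.fiber F', (w.ramificationIndex F : ℤ) = (Module.finrank F F' : ℤ) :=
  ds_sum_ramificationIndex h.norm_K h.deg_K P

theorem DescentData.sum_ramificationIndex_k (h : DescentData R R' r' x) (Q : Place k Fk) :
    letI := hasPrincipalDivisors_of_rrBase k Fk'
    ∑ w ∈ Q.fiber Fk', (w.ramificationIndex Fk : ℤ) = (Module.finrank Fk Fk' : ℤ) :=
  ds_sum_ramificationIndex h.norm_k h.deg_k Q

/-- **(DESC)**, with the unibranch property (DS3, `DescentData.restrict_eq`) as a hypothesis: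
the place reduction descends.  [(Ax) for `y ∈ O`: apply (Ax) of `r'` to `y ∈ O'`
at each `Q' | Q` and sum over `Q' | Q`: both sides get the factor `d`.] -/
theorem DescentData.exists_isPlaceRed_of_uni [RRBase K F] (h : DescentData R R' r' x)
    (huni : ∀ P' P'' : Place K F', P'.restrict F = P''.restrict F →
      (r' P').restrict Fk = (r' P'').restrict Fk) :
    ∃ r : Place K F → Place k Fk, R.IsPlaceRed r ∧
      ∀ P' : Place K F', r (P'.restrict F) = (r' P').restrict Fk := by
  classical
  have := hasPrincipalDivisors_of_rrBase K F'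
  have := hasPrincipalDivisors_of_rrBase k Fk'
  choose ext hext using fun P : Place K F => h.exists_restrict_eq P
  set r : Place K F → Place k Fk := fun P => (r' (ext P)).restrict Fk with hr
  have hrr : ∀ P' : Place K F', r (P'.restrict F) = (r' P').restrict Fk := fun P' =>
    huni _ _ (hext (P'.restrict F))
  refine ⟨r, ⟨fun P => ?_, fun y hy Q => ?_⟩, hrr⟩
  · rw [deg_eq_one, deg_eq_one]
  · have hT := h.tower
    set y' : R'.O := ⟨algebraMap F F' (y : F), hT.map_mem _ y.2⟩ with hy'
    have hredy' : R'.red y' = algebraMap Fk Fk' (R.red y) := hT.red_map _ y.2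
    have hy'ne : R'.red y' ≠ 0 := by
      rw [hredy']
      exact (map_ne_zero _).mpr hy
    -- (Ax) upstairs, as an equality of divisors
    have hAx : Finsupp.mapDomain r' (divOf (K := K) (algebraMap F F' (y : F)))
        = divOf (K := k) (algebraMap Fk Fk' (R.red y)) := by
      refine Finsupp.ext fun Q' => ?_
      rw [divOf_apply', ← hredy']
      exact h.isPlaceRed.2 y' hy'ne Q'
    have h1 : Finsupp.mapDomain (fun w : Place k Fk' => w.restrict Fk)
        (Finsupp.mapDomain r' (divOf (K := K) (algebraMap F F' (y : F))))
        = Module.finrank Fk Fk' • divOf (K := k) (R.red y) := by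
      rw [hAx, ds_divOf_algebraMap, ds_mapDomain_pullback h.norm_k h.deg_k]
    have h2 : Finsupp.mapDomain (fun w : Place k Fk' => w.restrict Fk)
        (Finsupp.mapDomain r' (divOf (K := K) (algebraMap F F' (y : F))))
        = Module.finrank F F' • Finsupp.mapDomain r (divOf (K := K) (y : F)) := by
      rw [← Finsupp.mapDomain_comp]
      have hcomp : (fun w : Place k Fk' => w.restrict Fk) ∘ r'
          = r ∘ (fun w : Place K F' => w.restrict F) := by
        funext P'
        exact (hrr P').symm
      rw [hcomp, Finsupp.mapDomain_comp, ds_divOf_algebraMap,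
        ds_mapDomain_pullback h.norm_K h.deg_K, Finsupp.mapDomain_smul]
    have h3 := congrArg (fun D : Divisor k Fk => D Q) (h2.symm.trans h1)
    simp only [Finsupp.smul_apply, nsmul_eq_mul] at h3
    rw [h.finrank_eq, divOf_apply'] at h3
    have hpos : (0 : ℤ) < (Module.finrank Fk Fk' : ℤ) := by
      exact_mod_cast (Module.finrank_pos : 0 < Module.finrank Fk Fk')
    exact mul_left_cancel₀ hpos.ne' h3

end ConstRed

end Fermat.Agent.GoodRed

end
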