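/-
Item 75a GOODRED-a, piece DS4, final statement (helper16): **(DESC)** the place reduction
descends along a tower (`DescentData.exists_isPlaceRed`), from DS3 (`DescentData.restrict_eq`,
helper26) and `DescentData.exists_isPlaceRed_of_uni`.
-/
import Mathlib
import Fermat.Agent.GoodRed.Descent
import Fermat.Agent.GoodRed.DescUni

set_option autoImplicit false

noncomputable section

namespace Fermat.Agent.GoodRed

open AlgebraicCurve Fermat.Agent.RRlib

variable {K F F' k Fk Fk' : Type*} [Field K] [Field F] [Field F'] [Algebra K F] [Algebra K F']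
  [Algebra F F'] [IsScalarTower K F F']
  [Field k] [Field Fk] [Field Fk'] [Algebra k Fk] [Algebra k Fk'] [Algebra Fk Fk']
  [IsScalarTower k Fk Fk']
variable {A : ValuationSubring K} {π : A →+* k}

namespace ConstRed

variable {R : ConstRed A π Fk F} {R' : ConstRed A π Fk' F'}

variable [RRHyp K F'] [RRHyp k Fk'] [RRHyp k Fk] [Algebra.IsIntegral F F']
  [Algebra.IsIntegral Fk Fk'] [FiniteDimensional F F'] [FiniteDimensional Fk Fk']
  {r' : Place K F' → Place k Fk'} {x : R.O}

/-- **(DESC)**: the place reduction descends. -/
theorem DescentData.exists_isPlaceRed [RRBase K F] [Infinite k] (h : DescentData R R' r' x) :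
    ∃ r : Place K F → Place k Fk, R.IsPlaceRed r ∧
      ∀ P' : Place K F', r (P'.restrict F) = (r' P').restrict Fk :=
  h.exists_isPlaceRed_of_uni fun P' P'' hP => h.restrict_eq P' P'' hP

end ConstRed

end Fermat.Agent.GoodRed

end
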