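/-
Item 75b GOODRED, piece M4 (helper27): wiring to the Prelude's `ReductionInputsModL`:
`PrincipalGeneratedByIntegral`, "a place reduction for the constant reduction datum is a place
reduction in the Prelude's sense", and the deliverable `reductionInputsModL_of_genus`.
Blueprint: NOTES/GOODRED_blueprint.md.  Helper lemmas are prefixed `wir_`.
-/
import Mathlib
import Fermat.Agent.GoodRed.Defs
import Fermat.Agent.GoodRed.Lattice
import Fermat.Agent.RRlib.Modular
import Fermat.Prelude.Def_ModularCurve_ReductionModL
import Fermat.Agent.GoodRed.Main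
import Fermat.Agent.GoodRed.ModDatum

set_option autoImplicit false
set_option synthInstance.maxHeartbeats 400000

noncomputable section

namespace Fermat.Agent.GoodRed

open AlgebraicCurve Fermat.Agent.RRlib ModularCurve HahnSeries

/-- a nonzero constant has order `0` at every place -/
theorem wir_ord_algebraMap {K F : Type*} [Field K] [Field F] [Algebra K F] (v : Place K F)
    {c : K} (hc : c ≠ 0) : v.ord (algebraMap K F c) = 0 := by
  have hcF : algebraMap K F c ≠ 0 := (map_ne_zero _).mpr hc
  have h1 := (v.adicValuation_le_one_iff).mp (v.adicValuation_algebraMap_le_one c)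
  have h2 := (v.adicValuation_le_one_iff).mp (v.adicValuation_algebraMap_le_one c⁻¹)
  have h1' := h1.resolve_left hcF
  have h2' : 0 ≤ v.ord (algebraMap K F c⁻¹) :=
    h2.resolve_left ((map_ne_zero _).mpr (inv_ne_zero hc))
  rw [map_inv₀, Place.ord_inv] at h2'
  omega

theorem wir_coeffMap_subtype_injective {L : Type*} [Field L] (A : ValuationSubring L) :
    Function.Injective (coeffMap A.subtype) := by
  intro x y h
  ext n
  have := congrArg (fun z => z.coeff n) h
  simp only [coeffMap_coeff] at this
  exact this

/-- `PrincipalGeneratedByIntegral` (no hypothesis on the genus) -/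
theorem principalGeneratedByIntegral (N : ℕ) [NeZero N]
    (A : ValuationSubring (AlgebraicClosure ℚ)) (hA : A ≠ ⊤)
    (hred : ∀ y : LaurentSeries A, coeffMap A.subtype y ∈ modularFunctionFieldBar N →
      coeffMap (IsLocalRing.residue A) y ∈
        modularFunctionFieldFullC (IsLocalRing.ResidueField A) N) :
    PrincipalGeneratedByIntegral A (IsLocalRing.residue A) N := by
  haveI : RRHyp (AlgebraicClosure ℚ) (↥(modularFunctionFieldBar N)) := mod_rrHyp N
  intro D hD
  obtain ⟨f, hf0, hf⟩ := hD
  have hf0' : (f : LaurentSeries (AlgebraicClosure ℚ)) ≠ 0 := fun h => hf0 (Subtype.ext h)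
  obtain ⟨a, b, ha, hb, hared, hbred, c, hc0, heq⟩ :=
    exists_primitive_smul N A hA (f : LaurentSeries (AlgebraicClosure ℚ)) f.2 hf0'
  set a' : ↥(modularFunctionFieldBar N) := ⟨coeffMap A.subtype a, ha⟩ with ha'
  set b' : ↥(modularFunctionFieldBar N) := ⟨coeffMap A.subtype b, hb⟩ with hb'
  have ha0 : a' ≠ 0 := by
    intro h
    apply hared
    have h1 : coeffMap A.subtype a = 0 := congrArg Subtype.val h
    have h2 : a = 0 := wir_coeffMap_subtype_injective A (by rw [h1, map_zero])
    rw [h2, map_zero]
  have hb0 : b' ≠ 0 := by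
    intro h
    apply hbred
    have h1 : coeffMap A.subtype b = 0 := congrArg Subtype.val h
    have h2 : b = 0 := wir_coeffMap_subtype_injective A (by rw [h1, map_zero])
    rw [h2, map_zero]
  have heq' : f * b' = algebraMap (AlgebraicClosure ℚ) (↥(modularFunctionFieldBar N)) c * a' := by
    apply Subtype.ext
    show (f : LaurentSeries (AlgebraicClosure ℚ)) * coeffMap A.subtype b
      = algebraMap (AlgebraicClosure ℚ) (LaurentSeries (AlgebraicClosure ℚ)) c
        * coeffMap A.subtype a
    rw [heq, algebraMap_laurentSeries_eq_single]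
    rfl
  have hDa : divOf (K := AlgebraicClosure ℚ) a' ∈
      integralPrincipalDivisors A (IsLocalRing.residue A) N :=
    ⟨a, ha, hred a ha, hared, fun P => divOf_apply' _ P⟩
  have hDb : divOf (K := AlgebraicClosure ℚ) b' ∈
      integralPrincipalDivisors A (IsLocalRing.residue A) N :=
    ⟨b, hb, hred b hb, hbred, fun P => divOf_apply' _ P⟩
  have hDeq : D = divOf (K := AlgebraicClosure ℚ) a' - divOf (K := AlgebraicClosure ℚ) b' := by
    ext P
    have h1 := congrArg P.ord heq'
    have hcF : algebraMap (AlgebraicClosure ℚ) (↥(modularFunctionFieldBar N)) c ≠ 0 :=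
      (map_ne_zero _).mpr hc0
    rw [P.ord_mul hf0 hb0, P.ord_mul hcF ha0, wir_ord_algebraMap P hc0, zero_add] at h1
    rw [Finsupp.sub_apply, divOf_apply', divOf_apply', hf P]
    omega
  rw [hDeq]
  exact AddSubgroup.sub_mem _ (AddSubgroup.subset_closure hDa) (AddSubgroup.subset_closure hDb)

/-- a place reduction for the constant reduction datum is a place reduction in the Prelude's sense -/
theorem isPlaceReductionModL_of_isPlaceRed (N : ℕ) [NeZero N]
    (A : ValuationSubring (AlgebraicClosure ℚ))
    [RRBase (AlgebraicClosure ℚ) (↥(modularFunctionFieldBar N))]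
    (R : ConstRed A (IsLocalRing.residue A)
        (↥(modularFunctionFieldFullC (IsLocalRing.ResidueField A) N))
        (↥(modularFunctionFieldBar N)))
    (hR : ∀ (y : LaurentSeries A) (hy : coeffMap A.subtype y ∈ modularFunctionFieldBar N),
        ∃ h : (⟨coeffMap A.subtype y, hy⟩ : ↥(modularFunctionFieldBar N)) ∈ R.O,
          ((R.red ⟨_, h⟩ : ↥(modularFunctionFieldFullC (IsLocalRing.ResidueField A) N)) :
              LaurentSeries (IsLocalRing.ResidueField A))
            = coeffMap (IsLocalRing.residue A) y)
    (r : Place (AlgebraicClosure ℚ) (↥(modularFunctionFieldBar N)) →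
      Place (IsLocalRing.ResidueField A)
        (↥(modularFunctionFieldFullC (IsLocalRing.ResidueField A) N)))
    (hr : R.IsPlaceRed r) : IsPlaceReductionModL A N r := by
  refine ⟨hr.1, ?_⟩
  intro y hy hyk hne D hD Q
  obtain ⟨h, hredy⟩ := hR y hy
  have hredy' : R.red ⟨_, h⟩
      = (⟨coeffMap (IsLocalRing.residue A) y, hyk⟩ :
          ↥(modularFunctionFieldFullC (IsLocalRing.ResidueField A) N)) := Subtype.ext hredy
  have hne' : R.red ⟨_, h⟩ ≠ 0 := by
    rw [hredy']
    intro h0
    exact hne (congrArg Subtype.val h0)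
  have hDeq : D = divOf (K := AlgebraicClosure ℚ)
      (⟨coeffMap A.subtype y, hy⟩ : ↥(modularFunctionFieldBar N)) := by
    ext P
    rw [hD P, divOf_apply']
  have := hr.2 ⟨_, h⟩ hne' Q
  rw [hredy'] at this
  rw [hDeq]
  exact this

/-- **the deliverable (R) of 75b** -/
theorem reductionInputsModL_of_genus (N : ℕ) [NeZero N]
    (A : ValuationSubring (AlgebraicClosure ℚ)) (hA : A ≠ ⊤)
    [RRHyp (AlgebraicClosure ℚ) (↥(modularFunctionFieldBar N))]
    [RRHyp (IsLocalRing.ResidueField A)
      (↥(modularFunctionFieldFullC (IsLocalRing.ResidueField A) N))]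
    (hred : ∀ y : LaurentSeries A, coeffMap A.subtype y ∈ modularFunctionFieldBar N →
      coeffMap (IsLocalRing.residue A) y ∈
        modularFunctionFieldFullC (IsLocalRing.ResidueField A) N)
    (hg : genusFF (AlgebraicClosure ℚ) (↥(modularFunctionFieldBar N)) ≤
      genusFF (IsLocalRing.ResidueField A)
        (↥(modularFunctionFieldFullC (IsLocalRing.ResidueField A) N))) :
    ReductionInputsModL A N := by
  obtain ⟨R, hR⟩ := exists_modConstRed N A hA hred
  haveI : IsAlgClosed (IsLocalRing.ResidueField A) := isAlgClosed_residueField A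
  haveI : Infinite (IsLocalRing.ResidueField A) := IsAlgClosed.instInfinite
  obtain ⟨r, hr, -⟩ := R.exists_isPlaceRed hg
  exact ⟨r, isPlaceReductionModL_of_isPlaceRed N A R hR r hr,
    principalGeneratedByIntegral N A hA hred⟩

end Fermat.Agent.GoodRed

end
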