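/-
Item 75a GOODRED-a, piece DS5 (helper16): WIRING of the descent (DESC) to the modular function
fields: the place reduction of the auxiliary level `M` descends to every level `N ∣ M`, and gives
the Prelude's `ReductionInputsModL A N`.

Inputs still open when this file was written are HYPOTHESES of the theorems here:
`(★)`-type statements (degree preservation, from GM), the genus inequality `hg` at level `M` (GM),
the char-`ℓ` norm formula (helper5), the degree statements for `j` (helper19).
Helper declarations are prefixed `dw_`.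
-/
import Mathlib
import Fermat.Agent.GoodRed.DescTower
import Fermat.Agent.GoodRed.DescentMain
import Fermat.Agent.GoodRed.Wiring
import Fermat.Agent.GoodRed.ModRR
import Fermat.Agent.GoodRed.Hred
import Fermat.Agent.HeckeBar.ModDeg
import Fermat.Agent.HeckeBar.GenNorm
import Fermat.Agent.GM.Defs
import Fermat.Agent.GM.Main
import Fermat.Agent.GoodRed.DescDeg
import Fermat.Agent.GoodRed.DescNormK
import Fermat.Agent.GM.RedMain
import Fermat.Agent.GM.HredM

set_option autoImplicit false
set_option synthInstance.maxHeartbeats 400000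

noncomputable section

namespace Fermat.Agent.GoodRed

open AlgebraicCurve Fermat.Agent.RRlib ModularCurve HahnSeries
open Fermat.Agent.S24lib Fermat.Agent.HeckeBar Fermat.Agent.GM CongruenceSubgroup
open scoped MatrixGroups

section Level

variable {N : ℕ} [NeZero N] {A : ValuationSubring Kbar}

omit [NeZero N] in
theorem dw_jF_eq : ((jF N : FF N) : LaurentSeries Kbar) = coeffMap A.subtype (jqModC A) := by
  rw [coe_jF, coeffMap_jqModC, ← jqModC_rat]
  exact coeffMap_jqModC (algebraMap ℚ Kbar)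

omit [NeZero N] in
theorem dw_jqModC_mem : coeffMap A.subtype (jqModC A) ∈ modularFunctionFieldBar N := by
  rw [← dw_jF_eq (N := N)]
  exact (jF N).2

variable {R : ConstRed A (IsLocalRing.residue A)
  (↥(modularFunctionFieldFullC (IsLocalRing.ResidueField A) N)) (↥(modularFunctionFieldBar N))}

omit [NeZero N] in
/-- `j ∈ O` -/
theorem dw_jF_mem (hR : IsSeriesRed R) : jF N ∈ R.O := by
  have h := hR.mem (jqModC A) dw_jqModC_mem
  have e : jF N = ⟨coeffMap A.subtype (jqModC A), dw_jqModC_mem⟩ := Subtype.ext dw_jF_eq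
  rw [e]
  exact h

omit [NeZero N] in
/-- `red j = j̄` -/
theorem dw_red_jF (hR : IsSeriesRed R) :
    R.red ⟨jF N, dw_jF_mem hR⟩ = jk (IsLocalRing.ResidueField A) N := by
  apply Subtype.ext
  have h := hR.red (jqModC A) dw_jqModC_mem
  have e : (⟨jF N, dw_jF_mem hR⟩ : R.O)
      = ⟨⟨coeffMap A.subtype (jqModC A), dw_jqModC_mem⟩, hR.mem (jqModC A) dw_jqModC_mem⟩ :=
    Subtype.ext (Subtype.ext dw_jF_eq)
  rw [e, h, coeffMap_jqModC, coe_jk]

end Level

section Generic

variable {N M : ℕ} [NeZero N] [NeZero M] {A : ValuationSubring Kbar}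
variable {k : Type} [Field k] [IsAlgClosed k] {π : A →+* k}
variable {R_N : ConstRed A π (Fk k N) (FF N)} {R_M : ConstRed A π (Fk k M) (FF M)}

theorem dw_isIntegral_inclK (h : N ∣ M) :
    letI := algebraAlong (inclK k h)
    Algebra.IsIntegral (Fk k N) (Fk k M) := by
  letI := algebraAlong (inclK k h)
  haveI : Module.Finite (Fk k N) (Fk k M) := gmw_finite (k := k) h
  exact Algebra.IsIntegral.of_finite _ _

set_option maxHeartbeats 4000000 in
/-- **the descent for the modular tower** `F_N ⊆ F_M`, `F_{N,k} ⊆ F_{M,k}`, for ANY residue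
field `k` (algebraically closed) and any two compatible constant reductions for which `j` is
integral with reduction `j̄`: genus inequality at level `M` gives a place reduction at level `N`,
compatible with the (unique) place reduction at level `M`. -/
theorem dw_exists_isPlaceRed_gen (h : N ∣ M)
    (htower : letI := algebraAlong (inclBar N M h)
      letI := algebraAlong (inclK k h)
      R_N.IsTower R_M)
    (hj : jF N ∈ R_N.O) (hredj : R_N.red ⟨jF N, hj⟩ = jk k N)
    (hDN : Nonempty (FiberData k (Fk k N) k ((jk k N)⁻¹) (SL(2, ℤ) ⧸ Gamma0 N) ModularGroup.T))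
    (hDM : Nonempty (FiberData k (Fk k M) k ((jk k M)⁻¹) (SL(2, ℤ) ⧸ Gamma0 M) ModularGroup.T))
    (hg : genusFF Kbar (FF M) ≤ genusFF k (Fk k M)) :
    letI := algebraAlong (inclBar N M h)
    letI := algebraAlong (inclK k h)
    haveI := isScalarTower_along (inclBar N M h)
    haveI := isScalarTower_along (inclK k h)
    haveI : RRHyp Kbar (FF N) := mod_rrHyp N
    haveI : RRHyp Kbar (FF M) := mod_rrHyp M
    haveI : RRHyp k (Fk k M) := mr_rrHyp k M
    haveI : Algebra.IsIntegral (FF N) (FF M) := isIntegral_along _ (isIntegral_inclBar N M h)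
    haveI : Algebra.IsIntegral (Fk k N) (Fk k M) := dw_isIntegral_inclK h
    ∃ (r : Place Kbar (FF N) → Place k (Fk k N)) (r' : Place Kbar (FF M) → Place k (Fk k M)),
      R_N.IsPlaceRed r ∧ R_M.IsPlaceRed r' ∧
      ∀ P' : Place Kbar (FF M), r (P'.restrict (FF N)) = (r' P').restrict (Fk k N) := by
  classical
  haveI : Infinite k := IsAlgClosed.instInfinite
  letI := algebraAlong (inclBar N M h)
  letI := algebraAlong (inclK k h)
  haveI := isScalarTower_along (inclBar N M h)
  haveI := isScalarTower_along (inclK k h)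
  haveI : RRHyp Kbar (FF N) := mod_rrHyp N
  haveI : RRHyp Kbar (FF M) := mod_rrHyp M
  haveI : RRHyp k (Fk k M) := mr_rrHyp k M
  haveI : RRHyp k (Fk k N) := mr_rrHyp k N
  haveI : Module.Finite (FF N) (FF M) := finiteAlong_inclBar N M h
  have hfink : FiniteAlong k (inclK k h) := dd_finite_algK N M h hDN hDM
  haveI : Module.Finite (Fk k N) (Fk k M) := hfink
  haveI : Algebra.IsIntegral (FF N) (FF M) := isIntegral_along _ (isIntegral_inclBar N M h)
  haveI : Algebra.IsIntegral (Fk k N) (Fk k M) := dw_isIntegral_inclK h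
  haveI := fin_ffData M
  obtain ⟨r', hr', hW⟩ := R_M.exists_isPlaceRed hg
  have hxK : algebraMap (FF N) (FF M) (jF N) = jF M := inclBar_jF N M h
  have hxk : algebraMap (Fk k N) (Fk k M) (jk k N) = jk k M := inclK_jk k h
  have hdd : ConstRed.DescentData R_N R_M r' ⟨jF N, hj⟩ :=
    { tower := htower
      finrank_eq := dd_finrank_eq N M h hDN hDM
      isPlaceRed := hr'
      W_eq := hW
      norm_K := gen_normFormula (inclBar N M h) (x' := jF M) (finiteAlong_inclBar N M h)
      norm_k := normFormulaAlong_inclK k h hfink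
      deg_K := fun P => deg_eq_one P
      deg_k := fun Q => deg_eq_one Q
      x_nonconst := by
        rw [hredj]
        exact dd_jk_nonconst N
      x_deg := by
        intro D X hD hX
        rw [hredj, hxk] at hX
        rw [hxK] at hD
        rw [dd_degree_poles_jF M D hD, dd_degree_poles_jk M hDM X hX] }
  obtain ⟨r, hr, hcompat⟩ := hdd.exists_isPlaceRed
  exact ⟨r, r', hr, hr', hcompat⟩

end Generic


section Final

variable {N M : ℕ} [NeZero N] [NeZero M] {A : ValuationSubring Kbar}

set_option maxHeartbeats 4000000 in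
/-- **(iii)** the modular constant reductions at levels `N ∣ M` form a tower -/
theorem dw_isTower (h : N ∣ M) (hA : A ≠ ⊤)
    {R_N : ConstRed A (IsLocalRing.residue A) (Fk (IsLocalRing.ResidueField A) N) (FF N)}
    {R_M : ConstRed A (IsLocalRing.residue A) (Fk (IsLocalRing.ResidueField A) M) (FF M)}
    (hRN : IsSeriesRed R_N) (hRM : IsSeriesRed R_M) :
    @ConstRed.IsTower _ _ _ _ _ _ _ _ _ _ _ (algebraAlong (inclBar N M h)) _ _ _ _ _
      (algebraAlong (inclK (IsLocalRing.ResidueField A) h)) _ _ R_N R_M :=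
  @dw_isTower_of_isSeriesRed _ _ _ _ _ _ _ _ _ (algebraAlong (inclBar N M h))
    (algebraAlong (inclK (IsLocalRing.ResidueField A) h)) (ffBar_mono h)
    (fun x => coe_inclBar N M h x) (fun w => coe_inclK (IsLocalRing.ResidueField A) h w)
    hRN hRM (exists_primitive_smul N A hA)

set_option maxHeartbeats 4000000 in
/-- **DS5, core**: the place reduction at level `N ∣ M`, from the fibre data (GM-R) at the levels
`N`, `M` and the genus inequality at level `M`. -/
theorem reductionInputsModL_of_dvd (h : N ∣ M) (hA : A ≠ ⊤)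
    (hDN : Nonempty (FiberData (IsLocalRing.ResidueField A) (Fk (IsLocalRing.ResidueField A) N)
      (IsLocalRing.ResidueField A) ((jk (IsLocalRing.ResidueField A) N)⁻¹)
      (SL(2, ℤ) ⧸ Gamma0 N) ModularGroup.T))
    (hDM : Nonempty (FiberData (IsLocalRing.ResidueField A) (Fk (IsLocalRing.ResidueField A) M)
      (IsLocalRing.ResidueField A) ((jk (IsLocalRing.ResidueField A) M)⁻¹)
      (SL(2, ℤ) ⧸ Gamma0 M) ModularGroup.T))
    (hg : genusFF Kbar (FF M) ≤
      genusFF (IsLocalRing.ResidueField A) (Fk (IsLocalRing.ResidueField A) M)) :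
    ReductionInputsModL A N := by
  have hredN := hred_modL_of_fiberData N A hDN
  have hredM := hred_modL_of_fiberData M A hDM
  obtain ⟨R_N, hRN⟩ := exists_modConstRed N A hA hredN
  obtain ⟨R_M, hRM⟩ := exists_modConstRed M A hA hredM
  have : IsAlgClosed (IsLocalRing.ResidueField A) := isAlgClosed_residueField A
  have : RRHyp Kbar (FF N) := mod_rrHyp N
  obtain ⟨r, -, hr, -, -⟩ := dw_exists_isPlaceRed_gen (R_N := R_N) (R_M := R_M) h
    (dw_isTower h hA hRN hRM) (dw_jF_mem hRN) (dw_red_jF hRN) hDN hDM hg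
  exact ⟨r, isPlaceReductionModL_of_isPlaceRed N A R_N hRN r hr,
    principalGeneratedByIntegral N A hA hredN⟩

end Final

section Deliverable

theorem dw_ne_top {A : ValuationSubring Kbar} {ℓ : ℕ} (hℓ : ℓ.Prime) (hA : A.LiesOverPrime ℓ) :
    A ≠ ⊤ := by
  intro htop
  have hnu : ((ℓ : ℕ) : AlgebraicClosure ℚ) ∈ A.nonunits := hA
  rw [ValuationSubring.mem_nonunits_iff_exists_mem_maximalIdeal] at hnu
  obtain ⟨ha, hmax⟩ := hnu
  apply (IsLocalRing.mem_maximalIdeal _).mp hmax
  have hℓ0 : ((ℓ : ℕ) : AlgebraicClosure ℚ) ≠ 0 := Nat.cast_ne_zero.mpr hℓ.ne_zero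
  have hinv : ((ℓ : ℕ) : AlgebraicClosure ℚ)⁻¹ ∈ A := by
    rw [htop]
    exact ValuationSubring.mem_top _
  exact IsUnit.of_mul_eq_one (⟨_, hinv⟩ : A) (Subtype.ext (mul_inv_cancel₀ hℓ0))

theorem dw_not_dvd_baseLevel {ℓ : ℕ} (hℓ : ℓ.Prime) : ¬ ℓ ∣ baseLevel ℓ := by
  unfold baseLevel
  split_ifs with h2
  · subst h2
    norm_num
  · intro hd
    have h4 : ℓ ∣ 2 ^ 2 := by simpa using hd
    have := (Nat.prime_dvd_prime_iff_eq hℓ Nat.prime_two).mp (hℓ.dvd_of_dvd_pow h4)
    exact h2 this

theorem dw_isAuxLevel {N ℓ : ℕ} (hℓ : ℓ.Prime) (hN : ¬ ℓ ∣ N) :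
    IsAuxLevel ℓ (Nat.lcm N (baseLevel ℓ)) := by
  refine ⟨fun hd => ?_, ?_⟩
  · have h1 : ℓ ∣ N * baseLevel ℓ := hd.trans (Nat.lcm_dvd_mul N (baseLevel ℓ))
    rcases (Nat.Prime.dvd_mul hℓ).mp h1 with h | h
    · exact hN h
    · exact dw_not_dvd_baseLevel hℓ h
  · have hb : baseLevel ℓ ∣ Nat.lcm N (baseLevel ℓ) := Nat.dvd_lcm_right N (baseLevel ℓ)
    by_cases h2 : ℓ = 2
    · right
      refine ⟨h2, ?_⟩
      have : baseLevel ℓ = 9 := by unfold baseLevel; rw [if_pos h2]
      exact (this ▸ dvd_rfl : 9 ∣ baseLevel ℓ).trans hb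
    · left
      refine ⟨h2, ?_⟩
      have : baseLevel ℓ = 4 := by unfold baseLevel; rw [if_neg h2]
      exact (this ▸ dvd_rfl : 4 ∣ baseLevel ℓ).trans hb

/-- **75a, final deliverable (DESC)**: good reduction of `X₀(N)` at every prime `ℓ ∤ N`. -/
theorem reductionInputsModL_of_not_dvd (N ℓ : ℕ) [NeZero N] (hℓ : ℓ.Prime) (hN : ¬ ℓ ∣ N)
    (A : ValuationSubring (AlgebraicClosure ℚ)) (hA : A.LiesOverPrime ℓ) :
    ReductionInputsModL A N := by
  haveI : Fact ℓ.Prime := ⟨hℓ⟩
  haveI : NeZero (Nat.lcm N (baseLevel ℓ)) :=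
    ⟨Nat.lcm_ne_zero (NeZero.ne N) (NeZero.ne (baseLevel ℓ))⟩
  have haux := dw_isAuxLevel hℓ hN
  have : IsAlgClosed (IsLocalRing.ResidueField A) := isAlgClosed_residueField A
  have hDN := exists_fiberData_modL' N hN A hA
  have hDM := exists_fiberData_modL' (Nat.lcm N (baseLevel ℓ)) haux.1 A hA
  have hD₀ := exists_fiberData_modL' (baseLevel ℓ) (dw_not_dvd_baseLevel hℓ) A hA
  exact reductionInputsModL_of_dvd (Nat.dvd_lcm_left N (baseLevel ℓ)) (dw_ne_top hℓ hA) hDN hDM
    (genusFF_le_modL_of_fiberData (Nat.lcm N (baseLevel ℓ)) haux hD₀ hDM)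

end Deliverable

end Fermat.Agent.GoodRed

end
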