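/-
Item 75 GOODRED, final statement (helper16): `GoodRedStatement N` (the input of item 68 / S37)
for every level `N`, from 75a/DS5 `reductionInputsModL_of_not_dvd`.
-/
import Mathlib
import Fermat.Agent.GoodRed.DescWiring
import Fermat.Agent.S37lib.Defs

set_option autoImplicit false

namespace Fermat.Agent.GoodRed

/-- **good reduction of `X₀(N)`** at every prime `ℓ ∤ N`, in the form used by item 68. -/
theorem goodRedStatement (N : ℕ) [NeZero N] : Fermat.Agent.S37lib.GoodRedStatement N :=
  fun ℓ hℓ hN A hA => reductionInputsModL_of_not_dvd N ℓ hℓ hN A hA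

end Fermat.Agent.GoodRed
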