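/-
Item 75b GOODRED, piece B (helper27): **Theorem B** — reduction does not increase the number of
poles: if `f ∈ L(B) ∩ O`, `B ≥ 0`, `red f ≠ 0`, then the pole divisor of `red f` has degree
`≤ deg B`.  Growth argument: the `(m+1)·b` elements `fbarʲ · zbar_{Q,a}` (`j ≤ m`, `Q` a pole of
`fbar` of order `e_Q`, `0 ≤ a < e_Q`, `b = Σ e_Q`) are `k`-independent and lift to `L(mB + E)`.
Blueprint: NOTES/GOODRED_blueprint.md.  Helper lemmas are prefixed `gr_`.
-/
import Mathlib
import Fermat.Agent.GoodRed.Defs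
import Fermat.Agent.GoodRed.Lattice
import Fermat.Agent.GoodRed.Polar
import Fermat.Agent.RRlib.Basic
import Fermat.Agent.RRlib.LFinite

set_option autoImplicit false

noncomputable section

namespace Fermat.Agent.GoodRed

open AlgebraicCurve Fermat.Agent.RRlib

section OneField

variable {K F : Type*} [Field K] [Field F] [Algebra K F]

/-! ### products in Riemann–Roch spaces -/

theorem gr_mul_mem {D D' : Divisor K F} {x y : F} (hx : x ∈ riemannRochSpace (K := K) D)
    (hy : y ∈ riemannRochSpace (K := K) D') : x * y ∈ riemannRochSpace (K := K) (D + D') := by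
  rw [mem_riemannRochSpace_iff] at hx hy ⊢
  intro v
  by_cases h0 : x = 0
  · left; rw [h0, zero_mul]
  by_cases h0' : y = 0
  · left; rw [h0', mul_zero]
  right
  rw [Place.ord_mul _ h0 h0']
  have h1 := (hx v).resolve_left h0
  have h2 := (hy v).resolve_left h0'
  simp only [Finsupp.coe_add, Pi.add_apply]
  linarith

theorem gr_one_mem_zero : (1 : F) ∈ riemannRochSpace (K := K) (0 : Divisor K F) := by
  rw [mem_riemannRochSpace_iff]
  intro v
  right
  simp

theorem gr_pow_mem {B : Divisor K F} {x : F} (hx : x ∈ riemannRochSpace (K := K) B) (j : ℕ) :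
    x ^ j ∈ riemannRochSpace (K := K) (j • B) := by
  induction j with
  | zero =>
    rw [pow_zero, zero_smul]
    exact gr_one_mem_zero
  | succ j ih =>
    rw [pow_succ, succ_nsmul]
    exact gr_mul_mem ih hx

theorem gr_nsmul_le {B : Divisor K F} (hB : 0 ≤ B) {j m : ℕ} (h : j ≤ m) : j • B ≤ m • B := by
  intro v
  have h0 : 0 ≤ B v := hB v
  simp only [Finsupp.smul_apply, nsmul_eq_mul]
  have : (j : ℤ) ≤ m := by exact_mod_cast h
  exact mul_le_mul_of_nonneg_right this h0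

theorem polBall_anti (Q : Place K F) {n n' : ℤ} (h : n ≤ n') : polBall Q n' ≤ polBall Q n := by
  intro x hx
  rw [mem_polBall_iff] at hx ⊢
  rcases hx with hx | hx
  · exact Or.inl hx
  · exact Or.inr (h.trans hx)

/-! ### the index set: pairs `(Q, a)` with `0 ≤ a < X Q` -/

/-- pairs `(Q, a)` with `Q` in the support of `X` and `a < X Q` -/
def grIndex (X : Divisor K F) : Finset (Σ _ : Place K F, ℕ) :=
  X.support.sigma (fun Q => Finset.range (X Q).toNat)

theorem mem_grIndex {X : Divisor K F} {p : Σ _ : Place K F, ℕ} :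
    p ∈ grIndex X ↔ p.1 ∈ X.support ∧ p.2 < (X p.1).toNat := by
  rw [grIndex, Finset.mem_sigma, Finset.mem_range]

theorem gr_lt_of_mem {X : Divisor K F} {p : Σ _ : Place K F, ℕ} (hp : p ∈ grIndex X) :
    (p.2 : ℤ) + 1 ≤ X p.1 := by
  have := (mem_grIndex.mp hp).2
  omega

theorem card_grIndex [RRBase K F] {X : Divisor K F} (hX : 0 ≤ X) :
    ((grIndex X).card : ℤ) = Divisor.degree X := by
  rw [grIndex, Finset.card_sigma, degree_eq_sum, Finsupp.sum]
  push_cast
  refine Finset.sum_congr rfl fun Q _ => ?_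
  rw [Finset.card_range]
  exact Int.toNat_of_nonneg (hX Q)

/-- **independence modulo high order**: a combination of functions `z_{Q,a}` with
`ord_Q z_{Q,a} = a < X Q` and `ord_{Q'} z_{Q,a} ≥ X Q'` (`Q' ≠ Q`) which has order `≥ X Q` at
all `Q` is trivial. -/
theorem gr_indep_aux {X : Divisor K F} (z : ↥(grIndex X) → F)
    (hzQ : ∀ p : ↥(grIndex X), z p ≠ 0 ∧ p.1.1.ord (z p) = (p.1.2 : ℤ))
    (hzQ' : ∀ p : ↥(grIndex X), ∀ Q' ∈ X.support, Q' ≠ p.1.1 → X Q' ≤ Q'.ord (z p))
    (g : ↥(grIndex X) → K)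
    (hN : ∀ Q ∈ X.support, (∑ p, g p • z p) ∈ polBall Q (X Q)) : ∀ p, g p = 0 := by
  classical
  by_contra hcon
  obtain ⟨p₀, hp₀⟩ : ∃ p, g p ≠ 0 := by
    by_contra h
    apply hcon
    intro p
    by_contra hp
    exact h ⟨p, hp⟩
  set Q₀ : Place K F := p₀.1.1 with hQ₀
  have hQ₀mem : Q₀ ∈ X.support := (mem_grIndex.mp p₀.2).1
  -- the least `a` with `g (Q₀, a) ≠ 0`
  have hex : ∃ a : ℕ, ∃ h : (⟨Q₀, a⟩ : Σ _ : Place K F, ℕ) ∈ grIndex X, g ⟨⟨Q₀, a⟩, h⟩ ≠ 0 :=
    ⟨p₀.1.2, p₀.2, hp₀⟩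
  obtain ⟨h₁, hg₁⟩ := Nat.find_spec hex
  set a₀ : ℕ := Nat.find hex with ha₀
  set p₁ : ↥(grIndex X) := ⟨⟨Q₀, a₀⟩, h₁⟩ with hp₁
  have hmin : ∀ a : ℕ, a < a₀ → ∀ h : (⟨Q₀, a⟩ : Σ _ : Place K F, ℕ) ∈ grIndex X,
      g ⟨⟨Q₀, a⟩, h⟩ = 0 := by
    intro a ha h
    by_contra hne
    exact Nat.find_min hex ha ⟨h, hne⟩
  have ha₀X : (a₀ : ℤ) + 1 ≤ X Q₀ := gr_lt_of_mem h₁
  -- all other terms have order `≥ a₀ + 1` at `Q₀`
  have hrest : ∀ p : ↥(grIndex X), p ≠ p₁ → g p • z p ∈ polBall Q₀ ((a₀ : ℤ) + 1) := by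
    intro p hp
    by_cases hQ : p.1.1 = Q₀
    · obtain ⟨⟨Q, a⟩, hmem⟩ := p
      simp only at hQ
      subst hQ
      rcases lt_trichotomy a a₀ with hlt | heq | hgt
      · rw [hmin a hlt hmem, zero_smul]
        exact zero_mem _
      · exfalso
        apply hp
        apply Subtype.ext
        simp only [hp₁]
        rw [heq]
      · apply Submodule.smul_mem
        rw [mem_polBall_iff]
        right
        have := (hzQ ⟨⟨Q₀, a⟩, hmem⟩).2
        simp only at this
        rw [this]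
        exact_mod_cast hgt
    · apply Submodule.smul_mem
      rw [mem_polBall_iff]
      right
      exact ha₀X.trans (hzQ' p Q₀ hQ₀mem (Ne.symm hQ))
  have hsum : (∑ p, g p • z p) = g p₁ • z p₁ + ∑ p ∈ Finset.univ.erase p₁, g p • z p :=
    (Finset.add_sum_erase Finset.univ (fun p => g p • z p) (Finset.mem_univ p₁)).symm
  have htot : (∑ p, g p • z p) ∈ polBall Q₀ ((a₀ : ℤ) + 1) :=
    polBall_anti Q₀ ha₀X (hN Q₀ hQ₀mem)
  have hrestsum : (∑ p ∈ Finset.univ.erase p₁, g p • z p) ∈ polBall Q₀ ((a₀ : ℤ) + 1) :=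
    Submodule.sum_mem _ fun p hp => hrest p (Finset.ne_of_mem_erase hp)
  have hterm : g p₁ • z p₁ ∈ polBall Q₀ ((a₀ : ℤ) + 1) := by
    have : g p₁ • z p₁ = (∑ p, g p • z p) - ∑ p ∈ Finset.univ.erase p₁, g p • z p := by
      rw [hsum]
      abel
    rw [this]
    exact Submodule.sub_mem _ htot hrestsum
  have hz₁ : z p₁ ∈ polBall Q₀ ((a₀ : ℤ) + 1) := by
    have := Submodule.smul_mem (polBall Q₀ ((a₀ : ℤ) + 1)) (g p₁)⁻¹ hterm
    rwa [smul_smul, inv_mul_cancel₀ hg₁, one_smul] at this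
  rw [mem_polBall_iff] at hz₁
  have h2 := hzQ p₁
  rcases hz₁ with h | h
  · exact h2.1 h
  · have h3 : Q₀.ord (z p₁) = (a₀ : ℤ) := h2.2
    omega

/-- **polynomial lemma**: if `Σ_{j ≤ m} φʲ z_j = 0`, the `z_j` are integral at the poles of `φ`
and `z_j = 0` as soon as `z_j` has order `≥ X Q` at every pole `Q`, then all `z_j` vanish. -/
theorem gr_poly_aux {X : Divisor K F} {φ : F} (hφ : φ ≠ 0)
    (hX : ∀ Q ∈ X.support, X Q = -(Q.ord φ)) (hX0 : 0 ≤ X) (z : ℕ → F)
    (hint : ∀ j, ∀ Q ∈ X.support, z j ∈ polBall Q 0)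
    (hzero : ∀ j, (∀ Q ∈ X.support, z j ∈ polBall Q (X Q)) → z j = 0) :
    ∀ m : ℕ, (∑ j ∈ Finset.range (m + 1), φ ^ j * z j) = 0 →
      ∀ j ∈ Finset.range (m + 1), z j = 0 := by
  intro m
  induction m with
  | zero =>
    intro h j hj
    rw [Finset.mem_range, Nat.lt_one_iff] at hj
    subst hj
    simpa using h
  | succ m ih =>
    intro h
    rw [Finset.sum_range_succ] at h
    -- `z_{m+1} = - Σ_{j ≤ m} φ^{j - (m+1)} z_j` has high order at the poles
    have hz : z (m + 1) = -∑ j ∈ Finset.range (m + 1), (φ⁻¹) ^ (m + 1 - j) * z j := by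
      have h1 : φ ^ (m + 1) * z (m + 1) = -∑ j ∈ Finset.range (m + 1), φ ^ j * z j :=
        eq_neg_of_add_eq_zero_right h
      have hpow : φ ^ (m + 1) ≠ 0 := pow_ne_zero _ hφ
      have h2 : z (m + 1) = (φ ^ (m + 1))⁻¹ * -∑ j ∈ Finset.range (m + 1), φ ^ j * z j := by
        rw [← h1, ← mul_assoc, inv_mul_cancel₀ hpow, one_mul]
      rw [h2, mul_neg, Finset.mul_sum]
      congr 1
      refine Finset.sum_congr rfl fun j hj => ?_
      have hj' : j ≤ m + 1 := (Finset.mem_range.mp hj).le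
      rw [← mul_assoc]
      congr 1
      have hsplit : φ ^ (m + 1) = φ ^ (m + 1 - j) * φ ^ j := by
        rw [← pow_add, Nat.sub_add_cancel hj']
      rw [inv_pow, hsplit, mul_inv, mul_assoc, inv_mul_cancel₀ (pow_ne_zero j hφ), mul_one]
    have hhigh : ∀ Q ∈ X.support, z (m + 1) ∈ polBall Q (X Q) := by
      intro Q hQ
      rw [hz]
      apply Submodule.neg_mem
      apply Submodule.sum_mem
      intro j hj
      have hj' : 1 ≤ m + 1 - j := by
        have := Finset.mem_range.mp hj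
        omega
      rw [mem_polBall_iff]
      by_cases hzj : z j = 0
      · left
        rw [hzj, mul_zero]
      right
      have hinv : φ⁻¹ ≠ 0 := inv_ne_zero hφ
      have hpow0 : (φ⁻¹) ^ (m + 1 - j) ≠ 0 := pow_ne_zero _ hinv
      rw [Place.ord_mul _ hpow0 hzj, ← zpow_natCast, Place.ord_zpow, Place.ord_inv, ← hX Q hQ]
      have h1 := hint j Q hQ
      rw [mem_polBall_iff] at h1
      have h2 := h1.resolve_left hzj
      have h3 : 0 ≤ X Q := hX0 Q
      have h4 : (1 : ℤ) ≤ ((m + 1 - j : ℕ) : ℤ) := by exact_mod_cast hj'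
      nlinarith
    have hz0 : z (m + 1) = 0 := hzero (m + 1) hhigh
    rw [hz0, mul_zero, add_zero] at h
    intro j hj
    rw [Finset.mem_range] at hj
    rcases Nat.lt_succ_iff_lt_or_eq.mp hj with hlt | heq
    · exact ih h j (Finset.mem_range.mpr hlt)
    · rw [heq]
      exact hz0

/-- the family `φʲ · z_{Q,a}` (`j ≤ m`) is linearly independent -/
theorem gr_linearIndependent [RRHyp K F] {X : Divisor K F} {φ : F} (hφ : φ ≠ 0)
    (hX : ∀ Q ∈ X.support, X Q = -(Q.ord φ)) (hX0 : 0 ≤ X) (z : ↥(grIndex X) → F)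
    (hzQ : ∀ p : ↥(grIndex X), z p ≠ 0 ∧ p.1.1.ord (z p) = (p.1.2 : ℤ))
    (hzQ' : ∀ p : ↥(grIndex X), ∀ Q' ∈ X.support, Q' ≠ p.1.1 → X Q' ≤ Q'.ord (z p))
    (m : ℕ) :
    LinearIndependent K (fun q : Fin (m + 1) × ↥(grIndex X) => φ ^ (q.1 : ℕ) * z q.2) := by
  classical
  rw [Fintype.linearIndependent_iff]
  intro g hg
  -- the coefficient functions
  set zz : ℕ → F := fun j =>
    if h : j < m + 1 then ∑ p, g (⟨j, h⟩, p) • z p else 0 with hzz
  have hint0 : ∀ (p : ↥(grIndex X)) (Q : Place K F), Q ∈ X.support → z p ∈ polBall Q 0 := by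
    intro p Q hQ
    rw [mem_polBall_iff]
    right
    by_cases hQp : Q = p.1.1
    · rw [hQp, (hzQ p).2]
      exact Int.natCast_nonneg _
    · exact (hX0 Q).trans (hzQ' p Q hQ hQp)
  have hint : ∀ j, ∀ Q ∈ X.support, zz j ∈ polBall Q 0 := by
    intro j Q hQ
    simp only [hzz]
    split_ifs with h
    · exact Submodule.sum_mem _ fun p _ => Submodule.smul_mem _ _ (hint0 p Q hQ)
    · exact zero_mem _
  have hzero : ∀ j, (∀ Q ∈ X.support, zz j ∈ polBall Q (X Q)) →
      zz j = 0 ∧ ∀ h : j < m + 1, ∀ p, g (⟨j, h⟩, p) = 0 := by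
    intro j hj
    by_cases h : j < m + 1
    · have hj' : ∀ Q ∈ X.support, (∑ p, g (⟨j, h⟩, p) • z p) ∈ polBall Q (X Q) := by
        intro Q hQ
        have := hj Q hQ
        simp only [hzz, dif_pos h] at this
        exact this
      have hg0 := gr_indep_aux z hzQ hzQ' (fun p => g (⟨j, h⟩, p)) hj'
      refine ⟨?_, fun _ p => hg0 p⟩
      simp only [hzz, dif_pos h]
      exact Finset.sum_eq_zero fun p _ => by rw [hg0 p, zero_smul]
    · refine ⟨?_, fun h' => absurd h' h⟩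
      simp only [hzz, dif_neg h]
  have hsum : (∑ j ∈ Finset.range (m + 1), φ ^ j * zz j) = 0 := by
    rw [← hg, Fintype.sum_prod_type, ← Fin.sum_univ_eq_sum_range (fun j => φ ^ j * zz j) (m + 1)]
    refine Finset.sum_congr rfl fun j _ => ?_
    simp only [hzz, dif_pos j.2, Finset.mul_sum]
    refine Finset.sum_congr rfl fun p _ => ?_
    rw [mul_smul_comm]
  have hall := gr_poly_aux hφ hX hX0 zz hint (fun j hj => (hzero j hj).1) m hsum
  rintro ⟨j, p⟩
  have hj : (j : ℕ) ∈ Finset.range (m + 1) := Finset.mem_range.mpr j.2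
  have hzj := hall j hj
  have hhigh : ∀ Q ∈ X.support, zz j ∈ polBall Q (X Q) := by
    intro Q _
    rw [hzj]
    exact zero_mem _
  exact (hzero j hhigh).2 j.2 p

end OneField

variable {K F k Fk : Type*} [Field K] [Field F] [Algebra K F] [Field k] [Field Fk] [Algebra k Fk]
variable {A : ValuationSubring K} {π : A →+* k} (R : ConstRed A π Fk F)

namespace ConstRed

/-- if `f ∈ L(B) ∩ O`, `B ≥ 0`, then the pole divisor of `red f` has degree `≤ deg B` -/
theorem degree_le_of_red_poles [RRHyp K F] [RRHyp k Fk] (f : R.O) {B : Divisor K F} (hB : 0 ≤ B)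
    (hf : ((f : R.O) : F) ∈ riemannRochSpace (K := K) B) (hf0 : R.red f ≠ 0)
    {X : Divisor k Fk} (hX : ∀ Q : Place k Fk, X Q = max 0 (-(Q.ord (R.red f)))) :
    Divisor.degree X ≤ Divisor.degree B := by
  classical
  have hX0 : 0 ≤ X := by
    intro Q
    rw [hX Q]
    exact le_max_left _ _
  have hXs : ∀ Q ∈ X.support, X Q = -(Q.ord (R.red f)) := by
    intro Q hQ
    rw [Finsupp.mem_support_iff] at hQ
    have h1 := hX Q
    rcases max_cases (0 : ℤ) (-(Q.ord (R.red f))) with h | h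
    · rw [h.1] at h1
      exact absurd h1 hQ
    · rw [h.1] at h1
      exact h1
  -- the functions `zbar_{Q,a}` and their lifts
  have hz : ∀ p : ↥(grIndex X), ∃ z : Fk, z ≠ 0 ∧ p.1.1.ord z = (p.1.2 : ℤ) ∧
      ∀ Q' ∈ X.support, Q' ≠ p.1.1 → X Q' ≤ Q'.ord z := fun p =>
    exists_ord_eq_of_finset k Fk X.support p.1.1 (p.1.2 : ℤ) (fun Q' => X Q')
  choose zbar hzbar0 hzbarQ hzbarQ' using hz
  have hl : ∀ p : ↥(grIndex X), ∃ x : R.O, R.red x = zbar p := fun p => R.red_surjective _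
  choose zl hzl using hl
  have hzl0 : ∀ p, ((zl p : R.O) : F) ≠ 0 := by
    intro p h0
    apply hzbar0 p
    rw [← hzl p, show zl p = 0 from Subtype.ext h0, map_zero]
  -- a bound for the poles of the lifts
  set E : Divisor K F := ∑ p : ↥(grIndex X), ((-divOf (K := K) ((zl p : R.O) : F)) ⊔ 0) with hE
  have hE0 : 0 ≤ E := Finset.sum_nonneg fun p _ => le_sup_right
  have hzlE : ∀ p, ((zl p : R.O) : F) ∈ riemannRochSpace (K := K) E := by
    intro p
    rw [mem_riemannRochSpace_iff_divOf (hzl0 p)]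
    have h1 : (-divOf (K := K) ((zl p : R.O) : F)) ⊔ 0 ≤ E :=
      Finset.single_le_sum (f := fun p : ↥(grIndex X) =>
        ((-divOf (K := K) ((zl p : R.O) : F)) ⊔ 0)) (fun p _ => le_sup_right)
        (Finset.mem_univ p)
    have h2 : -divOf (K := K) ((zl p : R.O) : F) ≤ E := le_sup_left.trans h1
    have h3 := sub_nonneg.mpr h2
    rwa [sub_neg_eq_add] at h3
  have hdegE : 0 ≤ Divisor.degree E := degree_nonneg hE0
  have hdegB : 0 ≤ Divisor.degree B := degree_nonneg hB
  -- the growth estimate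
  have hgrowth : ∀ m : ℕ, ((m : ℤ) + 1) * Divisor.degree X
      ≤ (m : ℤ) * Divisor.degree B + Divisor.degree E + 1 := by
    intro m
    have hfin := finite_riemannRochSpace (K := K) (m • B + E)
    have hmem : ∀ q : Fin (m + 1) × ↥(grIndex X),
        (((f ^ (q.1 : ℕ) * zl q.2 : R.O) : R.O) : F) ∈ riemannRochSpace (K := K) (m • B + E) := by
      intro q
      have h1 : ((f : R.O) : F) ^ (q.1 : ℕ) ∈ riemannRochSpace (K := K) (m • B) :=
        riemannRochSpace_mono (gr_nsmul_le hB (Nat.lt_succ_iff.mp q.1.2)) (gr_pow_mem hf _)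
      have h2 := gr_mul_mem h1 (hzlE q.2)
      simpa using h2
    have hind : LinearIndependent k
        (fun q : Fin (m + 1) × ↥(grIndex X) => R.red (f ^ (q.1 : ℕ) * zl q.2)) := by
      have := gr_linearIndependent (K := k) (F := Fk) hf0 hXs hX0 zbar
        (fun p => ⟨hzbar0 p, hzbarQ p⟩) hzbarQ' m
      convert this using 2 with q
      rw [map_mul, map_pow, hzl]
    have hcard := R.card_le_finrank_of_red (riemannRochSpace (K := K) (m • B + E))
      (fun q : Fin (m + 1) × ↥(grIndex X) => f ^ (q.1 : ℕ) * zl q.2) hmem hind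
    rw [Fintype.card_prod, Fintype.card_fin, Fintype.card_coe] at hcard
    have hell : (ell (m • B + E) : ℤ) ≤ Divisor.degree (m • B + E) + 1 := by
      apply ell_le_degree_add_one
      rw [map_add, map_nsmul]
      have : 0 ≤ m • Divisor.degree B := nsmul_nonneg hdegB m
      linarith
    rw [map_add, map_nsmul, nsmul_eq_mul] at hell
    have hcard' : (((m + 1) * (grIndex X).card : ℕ) : ℤ) ≤ (ell (m • B + E) : ℤ) := by
      exact_mod_cast hcard
    rw [Nat.cast_mul, card_grIndex hX0] at hcard'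
    push_cast at hcard'
    linarith
  -- conclusion
  by_contra hcon
  rw [not_le] at hcon
  have h := hgrowth ((Divisor.degree E).toNat + 1)
  push_cast at h
  rw [Int.toNat_of_nonneg hdegE] at h
  have h5 : (0 : ℤ) ≤ (Divisor.degree E + 1 + 1) * (Divisor.degree X - Divisor.degree B - 1) :=
    mul_nonneg (by linarith) (by linarith)
  nlinarith

end ConstRed

end Fermat.Agent.GoodRed

end
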