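/-
Item 75b GOODRED, piece C part 1 (helper5): polar bounds of `W(D)`, the dimension comparison and
the semicontinuity of the genus `genusFF_le`.  Helper lemmas are prefixed `mn_`.
-/
import Mathlib
import Fermat.Agent.GoodRed.Defs
import Fermat.Agent.GoodRed.Lattice
import Fermat.Agent.GoodRed.Polar
import Fermat.Agent.GoodRed.Growth
import Fermat.Agent.RRlib.Basic
import Fermat.Agent.RRlib.LFinite
import Fermat.Agent.RRlib.H1Finite
import Fermat.Agent.RRlib.Duality

set_option autoImplicit false

noncomputable section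

namespace Fermat.Agent.GoodRed

open AlgebraicCurve Fermat.Agent.RRlib

variable {K F k Fk : Type*} [Field K] [Field F] [Algebra K F] [Field k] [Field Fk] [Algebra k Fk]
variable {A : ValuationSubring K} {π : A →+* k} (R : ConstRed A π Fk F)

namespace ConstRed

/-! ### C1: the polar divisor of a finite set of functions -/

/-- a finite set of functions has a least effective polar bound, attained at every place of its
support -/
theorem mn_exists_polar_finset [RRBase k Fk] (s : Finset Fk) :
    ∃ X : Divisor k Fk, 0 ≤ X ∧ (∀ w ∈ s, w ∈ riemannRochSpace (K := k) X) ∧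
      ∀ Q : Place k Fk, 0 < X Q → ∃ w ∈ s, w ≠ 0 ∧ Q.ord w = -X Q := by
  classical
  induction s using Finset.induction_on with
  | empty => exact ⟨0, le_refl _, by simp, fun Q hQ => by simp at hQ⟩
  | insert w₀ s hw₀ ih =>
    obtain ⟨X, hX0, hXs, hXatt⟩ := ih
    by_cases h0 : w₀ = 0
    · refine ⟨X, hX0, ?_, ?_⟩
      · intro w hw
        rcases Finset.mem_insert.mp hw with rfl | hw
        · rw [h0]; exact Submodule.zero_mem _
        · exact hXs w hw
      · intro Q hQ
        obtain ⟨w, hw, hw0, hwQ⟩ := hXatt Q hQ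
        exact ⟨w, Finset.mem_insert_of_mem hw, hw0, hwQ⟩
    · refine ⟨X ⊔ (-divOf (K := k) w₀), le_sup_of_le_left hX0, ?_, ?_⟩
      · intro w hw
        rcases Finset.mem_insert.mp hw with rfl | hw
        · rw [mem_riemannRochSpace_iff]
          intro v
          right
          have : (-divOf (K := k) w) v ≤ (X ⊔ (-divOf (K := k) w)) v :=
            (le_sup_right : (-divOf (K := k) w) ≤ X ⊔ (-divOf (K := k) w)) v
          rw [Finsupp.neg_apply, divOf_apply h0] at this
          linarith
        · exact riemannRochSpace_mono le_sup_left (hXs w hw)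
      · intro Q hQ
        rw [Finsupp.sup_apply] at hQ ⊢
        rcases le_total (X Q) ((-divOf (K := k) w₀) Q) with h | h
        · rw [sup_eq_right.mpr h]
          refine ⟨w₀, Finset.mem_insert_self _ _, h0, ?_⟩
          rw [Finsupp.neg_apply, divOf_apply h0, neg_neg]
        · rw [sup_eq_left.mpr h] at hQ ⊢
          obtain ⟨w, hw, hw0, hwQ⟩ := hXatt Q hQ
          exact ⟨w, Finset.mem_insert_of_mem hw, hw0, hwQ⟩

/-- **C1**: for `D ≥ 0` the space `W(D)` has an effective polar bound of degree `≤ deg D` -/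
theorem mn_exists_polar [RRHyp K F] [RRHyp k Fk] [Infinite k] {D : Divisor K F} (hD : 0 ≤ D) :
    ∃ X : Divisor k Fk, 0 ≤ X ∧ R.W D ≤ riemannRochSpace (K := k) X ∧
      Divisor.degree X ≤ Divisor.degree D := by
  classical
  have : Module.Finite k (R.W D) := (R.finrank_W D).1
  obtain ⟨s, hs⟩ : (R.W D).FG := Module.Finite.iff_fg.mp inferInstance
  obtain ⟨X, hX0, hXs, hXatt⟩ := mn_exists_polar_finset (k := k) (Fk := Fk) s
  have hsW : ∀ w ∈ s, w ∈ R.W D := fun w hw => hs ▸ Submodule.subset_span hw
  have hWX : R.W D ≤ riemannRochSpace (K := k) X := by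
    rw [← hs]
    exact Submodule.span_le.mpr fun w hw => hXs w hw
  refine ⟨X, hX0, hWX, ?_⟩
  -- a generic element
  have h1 : (1 : Fk) ∈ R.W D := R.one_mem_W hD
  have hWbot : R.W D ≠ ⊥ := fun h => by
    have : (1 : Fk) ∈ (⊥ : Submodule k Fk) := h ▸ h1
    exact one_ne_zero ((Submodule.mem_bot k).mp this)
  obtain ⟨w, hwW, hw0, hwatt⟩ := exists_generic k Fk (R.W D) X.support
    (fun Q => -X Q)
    (fun Q _ w hw hw0 => by
      have := (mem_riemannRochSpace_iff.mp (hWX hw)) Q
      rcases this with h | h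
      · exact absurd h hw0
      · exact h)
    (fun Q hQ => by
      have hpos : 0 < X Q := lt_of_le_of_ne (hX0 Q) (Ne.symm (Finsupp.mem_support_iff.mp hQ))
      obtain ⟨w, hw, hw0, hwQ⟩ := hXatt Q hpos
      exact ⟨w, hsW w hw, hw0, hwQ⟩) hWbot
  obtain ⟨f, hfD, hfw⟩ := (R.mem_W_iff D w).mp hwW
  have hred0 : R.red f ≠ 0 := by rw [hfw]; exact hw0
  refine R.degree_le_of_red_poles f hD hfD hred0 (X := X) ?_
  intro Q
  rw [hfw]
  by_cases hQ : Q ∈ X.support
  · rw [hwatt Q hQ, neg_neg]
    exact (max_eq_right (hX0 Q)).symm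
  · have hXQ : X Q = 0 := by simpa using hQ
    have := (mem_riemannRochSpace_iff.mp (hWX hwW)) Q
    rcases this with h | h
    · exact absurd h hw0
    · rw [hXQ] at h ⊢
      rw [max_eq_left (by linarith)]

/-- the threshold degree -/
def mn_c (K F k Fk : Type*) [Field K] [Field F] [Algebra K F] [Field k] [Field Fk]
    [Algebra k Fk] : ℤ :=
  2 * (genusFF k Fk : ℤ) + genusFF K F

/-- **C2**: comparison of dimensions -/
theorem mn_key [RRHyp K F] [RRHyp k Fk] [Infinite k] {D : Divisor K F} (hD : 0 ≤ D)
    (hdeg : mn_c K F k Fk ≤ Divisor.degree D) :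
    genusFF k Fk ≤ genusFF K F ∧
      (genusFF K F ≤ genusFF k Fk →
        ∃ X : Divisor k Fk, 0 ≤ X ∧ R.W D = riemannRochSpace (K := k) X ∧
          Divisor.degree X = Divisor.degree D) := by
  obtain ⟨X, hX0, hWX, hXdeg⟩ := R.mn_exists_polar hD
  have hfin : Module.Finite k (riemannRochSpace (K := k) X) := finite_riemannRochSpace X
  have h1 : (ell D : ℤ) ≤ ell X := by
    have := Submodule.finrank_mono hWX
    rw [(R.finrank_W D).2] at this
    exact_mod_cast this
  have h2 := riemann_inequality (K := K) D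
  have h3 := ell_le_degree_add_one (K := k) (degree_nonneg hX0)
  unfold mn_c at hdeg
  have h4 : 2 * (genusFF k Fk : ℤ) - 2 < Divisor.degree X := by
    by_contra hcon
    push Not at hcon
    linarith
  have h5 := ell_eq_of_degree_gt (K := k) h4
  have hg1 : (genusFF k Fk : ℤ) ≤ genusFF K F := by linarith
  refine ⟨by exact_mod_cast hg1, fun hg => ?_⟩
  have hg2 : (genusFF K F : ℤ) ≤ genusFF k Fk := by exact_mod_cast hg
  have hdegeq : Divisor.degree X = Divisor.degree D := by linarith
  refine ⟨X, hX0, ?_, hdegeq⟩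
  have hell : ell D = ell X := by
    have : (ell D : ℤ) = ell X := by linarith
    exact_mod_cast this
  apply Submodule.eq_of_le_of_finrank_eq hWX
  rw [(R.finrank_W D).2, hell]
  rfl

include R in
/-- semicontinuity of the genus (no hypothesis on the genus) -/
theorem genusFF_le [RRHyp K F] [RRHyp k Fk] [Infinite k] : genusFF k Fk ≤ genusFF K F := by
  obtain ⟨P₀⟩ := RRBase.nonempty_place (K := K) (F := F)
  set n : ℕ := (mn_c K F k Fk).toNat with hn
  have hD : (0 : Divisor K F) ≤ n • Finsupp.single P₀ (1 : ℤ) := by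
    intro v
    rw [Finsupp.smul_apply, Finsupp.zero_apply]
    have : (0 : ℤ) ≤ Finsupp.single P₀ (1 : ℤ) v := by
      classical
      rw [Finsupp.single_apply]
      split_ifs <;> norm_num
    exact nsmul_nonneg this n
  have hdeg : mn_c K F k Fk ≤ Divisor.degree (n • Finsupp.single P₀ (1 : ℤ)) := by
    rw [map_nsmul, degree_single_one, hn]
    simp only [nsmul_eq_mul, mul_one]
    exact Int.self_le_toNat _
  exact (R.mn_key hD hdeg).1

end ConstRed

end Fermat.Agent.GoodRed

end
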