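/-
Item 75b GOODRED, piece U part 1 (helper5): consequences of `IsPlaceRed` —
`W(D) ≤ L(r_* D)` always, and `W(D) = L(r_* D)` for `deg D > 2g − 2` under genus equality (F3).
-/
import Mathlib
import Fermat.Agent.GoodRed.Genus

set_option autoImplicit false

noncomputable section

namespace Fermat.Agent.GoodRed

open AlgebraicCurve Fermat.Agent.RRlib

variable {K F k Fk : Type*} [Field K] [Field F] [Algebra K F] [Field k] [Field Fk] [Algebra k Fk]
variable {A : ValuationSubring K} {π : A →+* k} {R : ConstRed A π Fk F}

namespace ConstRed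

/-- all places have degree one, so every map of places preserves degrees -/
theorem mn_degree_mapDomain [RRBase K F] [RRBase k Fk] (r : Place K F → Place k Fk)
    (D : Divisor K F) : Divisor.degree (Finsupp.mapDomain r D) = Divisor.degree D := by
  induction D using Finsupp.induction with
  | zero => simp
  | single_add P n D _ _ ih =>
    rw [Finsupp.mapDomain_add, map_add, map_add, ih, Finsupp.mapDomain_single,
      Divisor.degree_single, Divisor.degree_single, deg_eq_one, deg_eq_one]

/-- `r_* (div y) = div (red y)` as divisors -/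
theorem IsPlaceRed.mapDomain_divOf [RRBase K F] [RRBase k Fk] {r : Place K F → Place k Fk}
    (hr : R.IsPlaceRed r) (y : R.O) (hy : R.red y ≠ 0) :
    Finsupp.mapDomain r (divOf (K := K) ((y : R.O) : F)) = divOf (K := k) (R.red y) := by
  ext Q
  rw [hr.2 y hy Q, divOf_apply hy]

theorem IsPlaceRed.W_le [RRBase K F] [RRBase k Fk] {r : Place K F → Place k Fk}
    (hr : R.IsPlaceRed r) (D : Divisor K F) :
    R.W D ≤ riemannRochSpace (K := k) (Finsupp.mapDomain r D) := by
  intro w hw
  obtain ⟨x, hx, rfl⟩ := (R.mem_W_iff D w).mp hw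
  by_cases h0 : R.red x = 0
  · rw [h0]; exact Submodule.zero_mem _
  have hx0 : ((x : R.O) : F) ≠ 0 := fun h => h0 (by rw [show x = 0 from Subtype.ext h, map_zero])
  rw [mem_riemannRochSpace_iff_divOf h0]
  have h1 : 0 ≤ D + divOf (K := K) ((x : R.O) : F) := (mem_riemannRochSpace_iff_divOf hx0 D).mp hx
  have h2 := Finsupp.mapDomain_nonneg (f := r) h1
  rwa [Finsupp.mapDomain_add, hr.mapDomain_divOf x h0] at h2

/-- **(F3)**, the lifting property: under genus equality every function in `L(r_* D)` is the
reduction of an integral function in `L(D)`, if `deg D > 2g − 2`. -/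
theorem IsPlaceRed.W_eq [RRHyp K F] [RRHyp k Fk] [Infinite k] {r : Place K F → Place k Fk}
    (hr : R.IsPlaceRed r) (hg : genusFF K F ≤ genusFF k Fk) {D : Divisor K F}
    (hD : 2 * (genusFF K F : ℤ) - 2 < Divisor.degree D) :
    R.W D = riemannRochSpace (K := k) (Finsupp.mapDomain r D) := by
  have hle := hr.W_le D
  have hgeq : genusFF k Fk = genusFF K F := le_antisymm R.genusFF_le hg
  have hfin := finite_riemannRochSpace (K := k) (Finsupp.mapDomain r D)
  apply Submodule.eq_of_le_of_finrank_eq hle
  rw [(R.finrank_W D).2]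
  have h1 := ell_eq_of_degree_gt (K := K) hD
  have hD' : 2 * (genusFF k Fk : ℤ) - 2 < Divisor.degree (Finsupp.mapDomain r D) := by
    rw [mn_degree_mapDomain, hgeq]; exact hD
  have h2 := ell_eq_of_degree_gt (K := k) hD'
  rw [mn_degree_mapDomain, hgeq] at h2
  have : (ell D : ℤ) = ell (Finsupp.mapDomain r D) := by linarith
  have h3 : ell D = ell (Finsupp.mapDomain r D) := by exact_mod_cast this
  rw [h3]
  rfl

/-- evaluation property: a unit of `O` that vanishes at `P` (and has no pole in the fibre of `r`
through `P`) has reduction vanishing at `r P` -/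
theorem IsPlaceRed.ord_red_pos [RRBase K F] [RRBase k Fk] {r : Place K F → Place k Fk}
    (hr : R.IsPlaceRed r) (y : R.O) (hy : R.red y ≠ 0) (P : Place K F)
    (hpole : ∀ P' : Place K F, r P' = r P → 0 ≤ P'.ord ((y : R.O) : F))
    (hP : 0 < P.ord ((y : R.O) : F)) : 0 < (r P).ord (R.red y) := by
  classical
  have hy0 : ((y : R.O) : F) ≠ 0 := fun h => hy (by rw [show y = 0 from Subtype.ext h, map_zero])
  rw [← hr.2 y hy (r P)]
  set d := divOf (K := K) ((y : R.O) : F) with hd
  rw [Finsupp.mapDomain, Finsupp.sum_apply, Finsupp.sum]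
  have hterm : ∀ P' ∈ d.support, 0 ≤ (Finsupp.single (r P') (d P')) (r P) := by
    intro P' _
    rw [Finsupp.single_apply]
    split_ifs with h
    · rw [hd, divOf_apply hy0]; exact hpole P' h
    · exact le_refl _
  have hPs : P ∈ d.support := by
    rw [Finsupp.mem_support_iff, hd, divOf_apply hy0]
    exact ne_of_gt hP
  refine lt_of_lt_of_le ?_ (Finset.single_le_sum hterm hPs)
  rw [Finsupp.single_apply, if_pos rfl, hd, divOf_apply hy0]
  exact hP

end ConstRed

end Fermat.Agent.GoodRed

end
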