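/-
Item 75b GOODRED, piece C part 2 (helper5): **Theorem C** — under genus equality there is a place
reduction `r` with `r_*(div y) = div (red y)`, and `W(D) = L(r_* D)` for `deg D > 2g − 2`.
Helper lemmas are prefixed `mn_`.
-/
import Mathlib
import Fermat.Agent.GoodRed.Genus
import Fermat.Agent.GoodRed.PlaceRed

set_option autoImplicit false

noncomputable section

namespace Fermat.Agent.GoodRed

open AlgebraicCurve Fermat.Agent.RRlib

variable {K F k Fk : Type*} [Field K] [Field F] [Algebra K F] [Field k] [Field Fk] [Algebra k Fk]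
variable {A : ValuationSubring K} {π : A →+* k} (R : ConstRed A π Fk F)

namespace ConstRed

/-! ### the reduction of a big effective divisor -/

/-- big effective divisors -/
def mn_Big (K F k Fk : Type*) [Field K] [Field F] [Algebra K F] [Field k] [Field Fk]
    [Algebra k Fk] (D : Divisor K F) : Prop :=
  0 ≤ D ∧ mn_c K F k Fk ≤ Divisor.degree D

theorem mn_Big.add [RRBase K F] {D D' : Divisor K F} (h : mn_Big K F k Fk D) (h' : 0 ≤ D') :
    mn_Big K F k Fk (D + D') := by
  refine ⟨add_nonneg h.1 h', ?_⟩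
  rw [map_add]
  have := degree_nonneg h'
  have := h.2
  linarith

/-- the reduction `X` of a big effective divisor `D`: `W(D) = L(X)` -/
def mn_bar (D : Divisor K F) : Divisor k Fk :=
  letI := Classical.propDecidable
  if h : ∃ X : Divisor k Fk, 0 ≤ X ∧ R.W D = riemannRochSpace (K := k) X ∧
      Divisor.degree X = Divisor.degree D
  then h.choose else 0

theorem mn_bar_spec [RRHyp K F] [RRHyp k Fk] [Infinite k] (hg : genusFF K F ≤ genusFF k Fk)
    {D : Divisor K F} (hD : mn_Big K F k Fk D) :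
    0 ≤ R.mn_bar D ∧ R.W D = riemannRochSpace (K := k) (R.mn_bar D) ∧
      Divisor.degree (R.mn_bar D) = Divisor.degree D := by
  have h := (R.mn_key hD.1 hD.2).2 hg
  rw [mn_bar, dif_pos h]
  exact h.choose_spec

theorem mn_two_genus_le [RRHyp K F] [RRHyp k Fk] [Infinite k]
    (hg : genusFF K F ≤ genusFF k Fk) {D : Divisor K F} (hD : mn_Big K F k Fk D) :
    2 * (genusFF k Fk : ℤ) ≤ Divisor.degree (R.mn_bar D) := by
  rw [(R.mn_bar_spec hg hD).2.2]
  have := hD.2
  unfold mn_c at this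
  have h0 : (0 : ℤ) ≤ genusFF K F := Int.natCast_nonneg _
  linarith

theorem mn_eq_of_L_eq [RRHyp k Fk] {X Y : Divisor k Fk}
    (hX : 2 * (genusFF k Fk : ℤ) ≤ Divisor.degree X)
    (hY : 2 * (genusFF k Fk : ℤ) ≤ Divisor.degree Y)
    (h : riemannRochSpace (K := k) X = riemannRochSpace (K := k) Y) : X = Y :=
  le_antisymm (le_of_riemannRochSpace_le k Fk hX h.le) (le_of_riemannRochSpace_le k Fk hY h.ge)

theorem mn_bar_mono [RRHyp K F] [RRHyp k Fk] [Infinite k] (hg : genusFF K F ≤ genusFF k Fk)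
    {D D' : Divisor K F} (hD : mn_Big K F k Fk D) (hD' : mn_Big K F k Fk D') (h : D ≤ D') :
    R.mn_bar D ≤ R.mn_bar D' := by
  apply le_of_riemannRochSpace_le k Fk (R.mn_two_genus_le hg hD)
  rw [← (R.mn_bar_spec hg hD).2.1, ← (R.mn_bar_spec hg hD').2.1]
  exact R.W_mono h

/-- **C3**: additivity -/
theorem mn_bar_add_bar [RRHyp K F] [RRHyp k Fk] [Infinite k] (hg : genusFF K F ≤ genusFF k Fk)
    {D D' : Divisor K F} (hD : mn_Big K F k Fk D) (hD' : mn_Big K F k Fk D') :
    R.mn_bar (D + D') = R.mn_bar D + R.mn_bar D' := by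
  have hDD' : mn_Big K F k Fk (D + D') := hD.add hD'.1
  symm
  apply eq_of_le_of_degree_le
  · intro Q
    obtain ⟨w, hw, hw0, hwQ⟩ := exists_ord_eq_neg k Fk (R.mn_two_genus_le hg hD) Q
    obtain ⟨w', hw', hw0', hwQ'⟩ := exists_ord_eq_neg k Fk (R.mn_two_genus_le hg hD') Q
    rw [← (R.mn_bar_spec hg hD).2.1] at hw
    rw [← (R.mn_bar_spec hg hD').2.1] at hw'
    have hmul := R.mul_mem_W hw hw'
    rw [(R.mn_bar_spec hg hDD').2.1, mem_riemannRochSpace_iff] at hmul
    rcases hmul Q with h | h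
    · exact absurd h (mul_ne_zero hw0 hw0')
    · rw [Place.ord_mul Q hw0 hw0', hwQ, hwQ'] at h
      rw [Finsupp.add_apply]
      linarith
  · rw [(R.mn_bar_spec hg hDD').2.2, map_add, map_add, (R.mn_bar_spec hg hD).2.2,
      (R.mn_bar_spec hg hD').2.2]

/-! ### the place reduction -/

theorem mn_single_nonneg (P : Place K F) : (0 : Divisor K F) ≤ Finsupp.single P (1 : ℤ) := by
  classical
  intro v
  rw [Finsupp.single_apply, Finsupp.zero_apply]
  split_ifs <;> norm_num

/-- a big effective divisor -/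
def mn_E0 (K F k Fk : Type*) [Field K] [Field F] [Algebra K F] [Field k] [Field Fk]
    [Algebra k Fk] [RRBase K F] : Divisor K F :=
  (mn_c K F k Fk).toNat •
    Finsupp.single (Classical.choice (RRBase.nonempty_place (K := K) (F := F))) (1 : ℤ)

theorem mn_E0_big [RRBase K F] : mn_Big K F k Fk (mn_E0 K F k Fk) := by
  refine ⟨nsmul_nonneg (mn_single_nonneg _) _, ?_⟩
  rw [mn_E0, map_nsmul, degree_single_one]
  simp only [nsmul_eq_mul, mul_one]
  exact Int.self_le_toNat _

theorem mn_exists_r [RRHyp K F] [RRHyp k Fk] [Infinite k] (hg : genusFF K F ≤ genusFF k Fk)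
    {E : Divisor K F} (hE : mn_Big K F k Fk E) (P : Place K F) :
    ∃ Q : Place k Fk, R.mn_bar (E + Finsupp.single P 1) = R.mn_bar E + Finsupp.single Q 1 := by
  have hEP : mn_Big K F k Fk (E + Finsupp.single P 1) := hE.add (mn_single_nonneg P)
  have hle : R.mn_bar E ≤ R.mn_bar (E + Finsupp.single P 1) :=
    R.mn_bar_mono hg hE hEP (le_add_of_nonneg_right (mn_single_nonneg P))
  have h0 : 0 ≤ R.mn_bar (E + Finsupp.single P 1) - R.mn_bar E := sub_nonneg.mpr hle
  have h1 : Divisor.degree (R.mn_bar (E + Finsupp.single P 1) - R.mn_bar E) = 1 := by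
    rw [map_sub, (R.mn_bar_spec hg hEP).2.2, (R.mn_bar_spec hg hE).2.2, map_add,
      degree_single_one]
    ring
  obtain ⟨Q, hQ⟩ := exists_eq_single_of_degree_one k Fk h0 h1
  exact ⟨Q, by rw [← hQ]; abel⟩

/-- the place reduction -/
def mn_r [RRBase K F] [RRBase k Fk] (P : Place K F) : Place k Fk :=
  letI := Classical.propDecidable
  if h : ∃ Q : Place k Fk, R.mn_bar (mn_E0 K F k Fk + Finsupp.single P 1) =
      R.mn_bar (mn_E0 K F k Fk) + Finsupp.single Q 1
  then h.choose else Classical.choice (RRBase.nonempty_place (K := k) (F := Fk))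

theorem mn_r_spec [RRHyp K F] [RRHyp k Fk] [Infinite k] (hg : genusFF K F ≤ genusFF k Fk)
    (P : Place K F) :
    R.mn_bar (mn_E0 K F k Fk + Finsupp.single P 1) =
      R.mn_bar (mn_E0 K F k Fk) + Finsupp.single (R.mn_r P) 1 := by
  have h := R.mn_exists_r hg (mn_E0_big (K := K) (F := F) (k := k) (Fk := Fk)) P
  rw [mn_r, dif_pos h]
  exact h.choose_spec

/-- **C4**: `bar (E + P) = bar E + r P` for every big `E` -/
theorem mn_bar_add_single [RRHyp K F] [RRHyp k Fk] [Infinite k]
    (hg : genusFF K F ≤ genusFF k Fk) {E : Divisor K F} (hE : mn_Big K F k Fk E)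
    (P : Place K F) :
    R.mn_bar (E + Finsupp.single P 1) = R.mn_bar E + Finsupp.single (R.mn_r P) 1 := by
  have hE0 : mn_Big K F k Fk (mn_E0 K F k Fk) := mn_E0_big
  have hEP : mn_Big K F k Fk (E + Finsupp.single P 1) := hE.add (mn_single_nonneg P)
  have hE0P : mn_Big K F k Fk (mn_E0 K F k Fk + Finsupp.single P 1) :=
    hE0.add (mn_single_nonneg P)
  have h1 := R.mn_bar_add_bar hg hEP hE0
  have h2 := R.mn_bar_add_bar hg hE0P hE
  have h3 : E + Finsupp.single P 1 + mn_E0 K F k Fk =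
      mn_E0 K F k Fk + Finsupp.single P 1 + E := by abel
  rw [h3, h2, R.mn_r_spec hg P] at h1
  have h4 : R.mn_bar (E + Finsupp.single P 1) + R.mn_bar (mn_E0 K F k Fk) =
      (R.mn_bar E + Finsupp.single (R.mn_r P) 1) + R.mn_bar (mn_E0 K F k Fk) := by
    rw [← h1]; abel
  exact add_right_cancel h4

theorem mn_bar_add_nsmul [RRHyp K F] [RRHyp k Fk] [Infinite k]
    (hg : genusFF K F ≤ genusFF k Fk) {E : Divisor K F} (hE : mn_Big K F k Fk E)
    (P : Place K F) (n : ℕ) :
    R.mn_bar (E + n • Finsupp.single P 1) = R.mn_bar E + n • Finsupp.single (R.mn_r P) 1 := by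
  induction n with
  | zero => simp
  | succ n ih =>
    have hEn : mn_Big K F k Fk (E + n • Finsupp.single P 1) :=
      hE.add (nsmul_nonneg (mn_single_nonneg P) n)
    rw [succ_nsmul, ← add_assoc, R.mn_bar_add_single hg hEn P, ih, succ_nsmul, add_assoc]

theorem mn_bar_add [RRHyp K F] [RRHyp k Fk] [Infinite k]
    (hg : genusFF K F ≤ genusFF k Fk) {D : Divisor K F} (hD : 0 ≤ D) :
    ∀ {E : Divisor K F}, mn_Big K F k Fk E →
      R.mn_bar (E + D) = R.mn_bar E + Finsupp.mapDomain R.mn_r D := by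
  classical
  induction D using Finsupp.induction with
  | zero => intro E _; simp
  | single_add P n D hP hn ih =>
    intro E hE
    have hDP : D P = 0 := by simpa using hP
    have hn0 : 0 ≤ n := by
      have := hD P
      rw [Finsupp.add_apply, Finsupp.single_apply, if_pos rfl, hDP, Finsupp.zero_apply] at this
      linarith
    have hD0 : 0 ≤ D := by
      intro Q
      have := hD Q
      rw [Finsupp.add_apply, Finsupp.single_apply, Finsupp.zero_apply] at this
      rw [Finsupp.zero_apply]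
      split_ifs at this with h
      · rw [← h, hDP]
      · linarith
    obtain ⟨m, rfl⟩ := Int.eq_ofNat_of_zero_le hn0
    have hsingle : ∀ Q : Place K F, Finsupp.single Q (m : ℤ) = m • Finsupp.single Q (1 : ℤ) := by
      intro Q
      rw [Finsupp.smul_single]
      simp
    have hsingle' : ∀ Q : Place k Fk, Finsupp.single Q (m : ℤ) = m • Finsupp.single Q (1 : ℤ) := by
      intro Q
      rw [Finsupp.smul_single]
      simp
    have hED : mn_Big K F k Fk (E + D) := hE.add hD0
    rw [show E + (Finsupp.single P (m : ℤ) + D) = (E + D) + m • Finsupp.single P (1 : ℤ) by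
      rw [hsingle]; abel]
    rw [R.mn_bar_add_nsmul hg hED P m, ih hD0 hE, Finsupp.mapDomain_add,
      Finsupp.mapDomain_single, hsingle']
    abel

/-! ### (Ax) -/

/-- **C5**: `r_* (div y) = div (red y)` -/
theorem mn_ax [RRHyp K F] [RRHyp k Fk] [Infinite k] (hg : genusFF K F ≤ genusFF k Fk)
    (y : R.O) (hy : R.red y ≠ 0) :
    Finsupp.mapDomain R.mn_r (divOf (K := K) ((y : R.O) : F)) = divOf (K := k) (R.red y) := by
  obtain ⟨d, hd⟩ : ∃ d : Divisor K F, d = divOf (K := K) ((y : R.O) : F) := ⟨_, rfl⟩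
  rw [← hd]
  obtain ⟨p, n, hp, hn, hpn⟩ : ∃ p n : Divisor K F, 0 ≤ p ∧ 0 ≤ n ∧ p = d + n :=
    ⟨d⁺, d⁻, posPart_nonneg d, negPart_nonneg d, by
      have := posPart_sub_negPart d
      exact (sub_eq_iff_eq_add.mp this)⟩
  have hE0 : mn_Big K F k Fk (mn_E0 K F k Fk) := mn_E0_big
  have h1 : mn_Big K F k Fk (mn_E0 K F k Fk + p) := hE0.add hp
  have h2 : mn_Big K F k Fk (mn_E0 K F k Fk + n) := hE0.add hn
  have hsub : mn_E0 K F k Fk + p - divOf (K := K) ((y : R.O) : F) = mn_E0 K F k Fk + n := by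
    rw [hpn, ← hd]; abel
  have hL : riemannRochSpace (K := k) (R.mn_bar (mn_E0 K F k Fk + n) + divOf (K := k) (R.red y))
      = riemannRochSpace (K := k) (R.mn_bar (mn_E0 K F k Fk + p)) := by
    ext w
    rw [← mul_mem_riemannRochSpace_iff hy, ← (R.mn_bar_spec hg h2).2.1,
      ← (R.mn_bar_spec hg h1).2.1, ← hsub]
    exact R.red_mul_mem_W_iff y hy _ w
  have hdeg1 := R.mn_two_genus_le hg h1
  have hdeg2 : 2 * (genusFF k Fk : ℤ) ≤
      Divisor.degree (R.mn_bar (mn_E0 K F k Fk + n) + divOf (K := k) (R.red y)) := by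
    rw [map_add, degree_divOf, add_zero]
    exact R.mn_two_genus_le hg h2
  have heq := mn_eq_of_L_eq hdeg2 hdeg1 hL
  rw [R.mn_bar_add hg hn hE0, R.mn_bar_add hg hp hE0, hpn, Finsupp.mapDomain_add] at heq
  have h4 : R.mn_bar (mn_E0 K F k Fk) + Finsupp.mapDomain R.mn_r n + divOf (K := k) (R.red y) =
      R.mn_bar (mn_E0 K F k Fk) + Finsupp.mapDomain R.mn_r n + Finsupp.mapDomain R.mn_r d := by
    rw [heq]; abel
  exact (add_left_cancel h4).symm

theorem mn_isPlaceRed [RRHyp K F] [RRHyp k Fk] [Infinite k] (hg : genusFF K F ≤ genusFF k Fk) :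
    R.IsPlaceRed R.mn_r := by
  refine ⟨fun P => by rw [deg_eq_one, deg_eq_one], fun y hy Q => ?_⟩
  rw [R.mn_ax hg y hy, divOf_apply hy]

/-- **Theorem C**: under genus equality there is a place reduction `r`, and `W(D) = L(r_* D)` for
`deg D > 2g − 2` (lifting property (F3)). -/
theorem exists_isPlaceRed [RRHyp K F] [RRHyp k Fk] [Infinite k]
    (hg : genusFF K F ≤ genusFF k Fk) :
    ∃ r : Place K F → Place k Fk, R.IsPlaceRed r ∧
      ∀ D : Divisor K F, 2 * (genusFF K F : ℤ) - 2 < Divisor.degree D →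
        R.W D = riemannRochSpace (K := k) (Finsupp.mapDomain r D) :=
  ⟨R.mn_r, R.mn_isPlaceRed hg, fun _ hD => (R.mn_isPlaceRed hg).W_eq hg hD⟩

end ConstRed

end Fermat.Agent.GoodRed

end
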