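/-
Item 75b GOODRED, piece U part 2 (helper27): uniqueness of a place reduction `r` (`IsPlaceRed`)
and its compatibility with semilinear automorphisms (Galois); also semicontinuity of the genus
and `W(D) = L(r_* D)` (`deg D > 2g − 2`) WITHOUT the hypothesis `[Infinite k]`, given `r`.
(`W_le`, `W_eq`, `ord_red_pos` are in GoodRed/PlaceRed.lean, helper5.)
Blueprint: NOTES/GOODRED_blueprint.md.  Helper lemmas are prefixed `uq_`.
-/
import Mathlib
import Fermat.Agent.GoodRed.Defs
import Fermat.Agent.GoodRed.Lattice
import Fermat.Agent.GoodRed.Polar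
import Fermat.Agent.GoodRed.PlaceRed
import Fermat.Agent.RRlib.Basic
import Fermat.Agent.RRlib.LFinite
import Fermat.Agent.RRlib.Duality
import Fermat.Prelude.Def_AlgebraicCurve_BaseChangeGalois

set_option autoImplicit false

noncomputable section

namespace Fermat.Agent.GoodRed

open AlgebraicCurve Fermat.Agent.RRlib

variable {K F k Fk : Type*} [Field K] [Field F] [Algebra K F] [Field k] [Field Fk] [Algebra k Fk]

/-! ### push-forward of divisors along a map of places -/

open scoped Classical in
theorem uq_mapDomain_apply (r : Place K F → Place k Fk) (E : Divisor K F) (Q : Place k Fk) :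
    Finsupp.mapDomain r E Q = ∑ P ∈ E.support, if r P = Q then E P else 0 := by
  rw [Finsupp.mapDomain, Finsupp.sum, Finsupp.finsetSum_apply]
  refine Finset.sum_congr rfl fun P _ => ?_
  rw [Finsupp.single_apply]

theorem uq_mapDomain_nonneg (r : Place K F → Place k Fk) {E : Divisor K F} (hE : 0 ≤ E) :
    0 ≤ Finsupp.mapDomain r E := by
  classical
  intro Q
  rw [uq_mapDomain_apply, Finsupp.zero_apply]
  refine Finset.sum_nonneg fun P _ => ?_
  split_ifs
  · exact hE P
  · exact le_rfl

theorem uq_degree_mapDomain {r : Place K F → Place k Fk} (hdeg : ∀ P, (r P).deg = P.deg)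
    (D : Divisor K F) : Divisor.degree (Finsupp.mapDomain r D) = Divisor.degree D := by
  induction D using Finsupp.induction with
  | zero => simp
  | single_add P n D _ _ ih =>
    rw [Finsupp.mapDomain_add, map_add, map_add, ih, Finsupp.mapDomain_single,
      Divisor.degree_single, Divisor.degree_single, hdeg]

theorem uq_mapDomain_nsmul_single (r : Place K F → Place k Fk) (n : ℕ) (P : Place K F) :
    Finsupp.mapDomain r (n • Finsupp.single P (1 : ℤ)) = n • Finsupp.single (r P) (1 : ℤ) := by
  rw [Finsupp.mapDomain_smul, Finsupp.mapDomain_single]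

variable {A : ValuationSubring K} {π : A →+* k} {R : ConstRed A π Fk F}

namespace ConstRed

/-! ## U -/

/-- semicontinuity of the genus, given a place reduction -/
theorem IsPlaceRed.genus_le [RRHyp K F] [RRHyp k Fk] {r : Place K F → Place k Fk}
    (hr : R.IsPlaceRed r) : genusFF k Fk ≤ genusFF K F := by
  obtain ⟨P⟩ := RRBase.nonempty_place (K := K) (F := F)
  set n : ℕ := 2 * genusFF K F + 2 * genusFF k Fk with hn
  set D : Divisor K F := n • Finsupp.single P (1 : ℤ) with hD
  have hdeg : Divisor.degree D = (n : ℤ) := by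
    rw [hD, map_nsmul, degree_single_one, nsmul_eq_mul, mul_one]
  have hdeg' : Divisor.degree (Finsupp.mapDomain r D) = (n : ℤ) := by
    rw [uq_degree_mapDomain hr.1, hdeg]
  have hl : (ell D : ℤ) = n + 1 - genusFF K F := by
    rw [← hdeg]
    apply ell_eq_of_degree_gt
    rw [hdeg, hn]
    push_cast
    linarith
  have hl' : (ell (Finsupp.mapDomain r D) : ℤ) = n + 1 - genusFF k Fk := by
    rw [← hdeg']
    apply ell_eq_of_degree_gt
    rw [hdeg', hn]
    push_cast
    linarith
  have hfin := finite_riemannRochSpace (K := k) (Finsupp.mapDomain r D)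
  have hle := Submodule.finrank_mono (hr.W_le D)
  rw [(R.finrank_W D).2] at hle
  have hle' : (ell D : ℤ) ≤ ell (Finsupp.mapDomain r D) := by exact_mod_cast hle
  rw [hl, hl'] at hle'
  have : (genusFF k Fk : ℤ) ≤ genusFF K F := by linarith
  exact_mod_cast this

/-- `IsPlaceRed.W_eq` without `[Infinite k]` -/
theorem IsPlaceRed.W_eq' [RRHyp K F] [RRHyp k Fk] {r : Place K F → Place k Fk}
    (hr : R.IsPlaceRed r) (hg : genusFF K F ≤ genusFF k Fk) {D : Divisor K F}
    (hD : 2 * (genusFF K F : ℤ) - 2 < Divisor.degree D) :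
    R.W D = riemannRochSpace (K := k) (Finsupp.mapDomain r D) := by
  have hgeq : genusFF k Fk = genusFF K F := le_antisymm hr.genus_le hg
  have hdeg' : Divisor.degree (Finsupp.mapDomain r D) = Divisor.degree D :=
    uq_degree_mapDomain hr.1 D
  have hl : (ell D : ℤ) = Divisor.degree D + 1 - genusFF K F := ell_eq_of_degree_gt hD
  have hl' : (ell (Finsupp.mapDomain r D) : ℤ)
      = Divisor.degree (Finsupp.mapDomain r D) + 1 - genusFF k Fk := by
    apply ell_eq_of_degree_gt
    rw [hdeg', hgeq]
    exact hD
  have hfin := finite_riemannRochSpace (K := k) (Finsupp.mapDomain r D)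
  apply Submodule.eq_of_le_of_finrank_eq (hr.W_le D)
  rw [(R.finrank_W D).2]
  have : (ell D : ℤ) = ell (Finsupp.mapDomain r D) := by
    rw [hl, hl', hdeg', hgeq]
  exact_mod_cast this

theorem IsPlaceRed.unique [RRHyp K F] [RRHyp k Fk] {r r' : Place K F → Place k Fk}
    (hr : R.IsPlaceRed r) (hr' : R.IsPlaceRed r') (hg : genusFF K F ≤ genusFF k Fk) :
    r = r' := by
  classical
  funext P
  set n : ℕ := 2 * genusFF K F + 2 * genusFF k Fk + 1 with hn
  set D : Divisor K F := n • Finsupp.single P (1 : ℤ) with hD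
  have hdeg : Divisor.degree D = (n : ℤ) := by
    rw [hD, map_nsmul, degree_single_one, nsmul_eq_mul, mul_one]
  have hDbig : 2 * (genusFF K F : ℤ) - 2 < Divisor.degree D := by
    rw [hdeg, hn]
    push_cast
    linarith
  have h1 := hr.W_eq' hg hDbig
  have h2 := hr'.W_eq' hg hDbig
  have hle : riemannRochSpace (K := k) (Finsupp.mapDomain r D)
      ≤ riemannRochSpace (K := k) (Finsupp.mapDomain r' D) := by
    rw [← h1, h2]
  have hX : 2 * (genusFF k Fk : ℤ) ≤ Divisor.degree (Finsupp.mapDomain r D) := by
    rw [uq_degree_mapDomain hr.1, hdeg, hn]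
    push_cast
    linarith
  have h3 := le_of_riemannRochSpace_le k Fk hX hle
  rw [hD, uq_mapDomain_nsmul_single, uq_mapDomain_nsmul_single] at h3
  have h4 := h3 (r P)
  rw [Finsupp.smul_apply, Finsupp.smul_apply, Finsupp.single_eq_same, Finsupp.single_apply] at h4
  by_contra hne
  rw [if_neg (Ne.symm hne)] at h4
  simp only [nsmul_eq_mul, mul_one, mul_zero] at h4
  have : (0 : ℤ) < n := by
    rw [hn]
    positivity
  linarith

/-- compatibility with semilinear automorphisms (Galois): if `g` preserves `O` and induces `gk`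
on the residue field then `r (g • P) = gk • r P`. -/
theorem IsPlaceRed.smul_comm [RRHyp K F] [RRHyp k Fk] {r : Place K F → Place k Fk}
    (hr : R.IsPlaceRed r) (hg : genusFF K F ≤ genusFF k Fk)
    (g : SemilinearAut K F) (gk : SemilinearAut k Fk)
    (hO : ∀ x : F, x ∈ R.O → g • x ∈ R.O)
    (hred : ∀ (x : R.O), R.red ⟨g • ((x : R.O) : F), hO _ x.2⟩ = gk • R.red x)
    (P : Place K F) : r (g • P) = gk • r P := by
  -- `r' := gk⁻¹ ∘ r ∘ g` is a place reduction, hence equal to `r`
  set r' : Place K F → Place k Fk := fun P => gk⁻¹ • r (g • P) with hr'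
  have hcomp : r' = (fun Q : Place k Fk => gk⁻¹ • Q) ∘ r ∘ (fun P : Place K F => g • P) := rfl
  have hr'red : R.IsPlaceRed r' := by
    refine ⟨fun P => ?_, fun y hy Q => ?_⟩
    · show (gk⁻¹ • r (g • P)).deg = P.deg
      rw [SemilinearAut.deg_smul, hr.1, SemilinearAut.deg_smul]
    · have hgy0 : R.red ⟨g • ((y : R.O) : F), hO _ y.2⟩ ≠ 0 := by
        rw [hred y]
        intro h0
        apply hy
        have := congrArg (fun z => gk⁻¹ • z) h0
        simpa using this
      have hax := hr.2 ⟨g • ((y : R.O) : F), hO _ y.2⟩ hgy0 (gk • Q)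
      rw [hred y, SemilinearAut.ord_smul] at hax
      rw [← hax, hcomp, Finsupp.mapDomain_comp, Finsupp.mapDomain_comp,
        ← SemilinearAut.divisor_smul_def, SemilinearAut.divisor_smul_apply, inv_inv,
        ← SemilinearAut.divisor_smul_def]
      congr 2
      ext w
      rw [SemilinearAut.divisor_smul_apply, divOf_apply', divOf_apply']
      have h := SemilinearAut.ord_smul g (g⁻¹ • w) ((y : R.O) : F)
      rw [smul_inv_smul] at h
      exact h.symm
  have heq := hr'red.unique hr hg
  have := congrFun heq P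
  simp only [hr'] at this
  rw [← this, smul_inv_smul]

end ConstRed

end Fermat.Agent.GoodRed

end
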