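/-
Item 75b, piece M1d (helper24) — generic algebra for `hred_of_finrank`:
* `hr_exists_normalise` : in a valuation ring, a finite family of elements, not all zero, can be
  divided by one of its members so that all quotients are integral;
* `PolyIndep J v` : the family `v` of Laurent series is linearly independent over the polynomials
  in `J` with constant coefficients;
* `PolyIndep.lift` : independence of the reductions implies independence of the lifts.
No sorry.
-/
import Mathlib
import Fermat.Prelude.Def_ModularCurve_X0ModL

set_option autoImplicit false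

open ModularCurve

namespace Fermat.Agent.GoodRed

noncomputable section

/-! ### Normalising a finite family in a valuation ring -/

/-- In a valuation subring, a finite family of elements with a nonzero member has a nonzero member
dividing all the others. -/
theorem hr_exists_normalise {K : Type*} [Field K] (A : ValuationSubring K) (s : Finset K)
    (hs : ∃ x ∈ s, x ≠ 0) : ∃ x₀ ∈ s, x₀ ≠ 0 ∧ ∀ x ∈ s, x / x₀ ∈ A := by
  classical
  obtain ⟨x₁, hx₁, hx₁0⟩ := hs
  obtain ⟨x₀, hx₀, hmax⟩ := Finset.exists_max_image s (fun x => A.valuation x) ⟨x₁, hx₁⟩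
  have hx₀0 : x₀ ≠ 0 := by
    intro h
    have h1 := hmax x₁ hx₁
    rw [h, map_zero] at h1
    exact hx₁0 ((map_eq_zero _).mp (le_antisymm h1 zero_le'))
  refine ⟨x₀, hx₀, hx₀0, fun x hx => ?_⟩
  rw [← ValuationSubring.valuation_le_one_iff, map_div₀]
  exact div_le_one_of_le₀ (hmax x hx) zero_le'

/-! ### Polynomial independence -/

/-- `v` is linearly independent over the polynomials in `J` with constant coefficients. -/
def PolyIndep {R : Type*} [CommRing R] {ι : Type*} [Fintype ι] (J : LaurentSeries R)
    (v : ι → LaurentSeries R) : Prop :=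
  ∀ c : ι → Polynomial R,
    ∑ i, Polynomial.eval₂ HahnSeries.C J (c i) * v i = 0 → ∀ i, c i = 0

theorem hr_coeffMap_eval₂ {R S : Type*} [CommRing R] [CommRing S] (f : R →+* S)
    (J : LaurentSeries R) (p : Polynomial R) :
    coeffMap f (Polynomial.eval₂ HahnSeries.C J p) =
      Polynomial.eval₂ HahnSeries.C (coeffMap f J) (p.map f) := by
  rw [Polynomial.hom_eval₂, Polynomial.eval₂_map]
  congr 1
  ext a : 1
  exact coeffMap_single f 0 a

theorem hr_coeffMap_subtype_injective {K : Type*} [Field K] (A : ValuationSubring K) :
    Function.Injective (coeffMap A.subtype) := by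
  intro x y h
  ext n
  have := congrArg (fun z : LaurentSeries K => z.coeff n) h
  simpa using this

/-- **Lifting independence.** If the reductions of `y i ∈ A((q))` are independent over the
polynomials in `J̄`, then the `y i` are independent over the polynomials in `J` with coefficients
in `K`. -/
theorem PolyIndep.lift {K : Type*} [Field K] (A : ValuationSubring K) {ι : Type*} [Fintype ι]
    (J : LaurentSeries A) (y : ι → LaurentSeries A)
    (h : PolyIndep (coeffMap (IsLocalRing.residue A) J)
      (fun i => coeffMap (IsLocalRing.residue A) (y i))) :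
    PolyIndep (coeffMap A.subtype J) (fun i => coeffMap A.subtype (y i)) := by
  classical
  intro c hc
  by_contra hne
  push Not at hne
  obtain ⟨i₁, hi₁⟩ := hne
  -- the finite family of all coefficients
  set s : Finset K := Finset.univ.biUnion (fun i => (c i).coeffs) with hs
  have hs1 : ∃ x ∈ s, x ≠ 0 := by
    refine ⟨(c i₁).leadingCoeff, ?_, Polynomial.leadingCoeff_ne_zero.mpr hi₁⟩
    rw [hs, Finset.mem_biUnion]
    exact ⟨i₁, Finset.mem_univ _, Polynomial.coeff_mem_coeffs
      (Polynomial.leadingCoeff_ne_zero.mpr hi₁)⟩
  obtain ⟨x₀, hx₀, hx₀0, hall⟩ := hr_exists_normalise A s hs1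
  -- the normalised coefficients
  have hmem : ∀ i n, (c i).coeff n / x₀ ∈ A := by
    intro i n
    by_cases h0 : (c i).coeff n = 0
    · rw [h0, zero_div]; exact A.zero_mem
    · exact hall _ (by
        rw [hs, Finset.mem_biUnion]
        exact ⟨i, Finset.mem_univ _, Polynomial.coeff_mem_coeffs h0⟩)
  let a : ι → Polynomial A := fun i =>
    ∑ n ∈ Finset.range ((c i).natDegree + 1),
      Polynomial.monomial n (⟨(c i).coeff n / x₀, hmem i n⟩ : A)
  have ha_coeff : ∀ i n, ((a i).coeff n : K) = (c i).coeff n / x₀ := by
    intro i n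
    simp only [a, Polynomial.finset_sum_coeff, Polynomial.coeff_monomial]
    rw [Finset.sum_ite_eq' (Finset.range ((c i).natDegree + 1)) n]
    split_ifs with hn
    · rfl
    · have : (c i).natDegree < n := by
        rw [Finset.mem_range] at hn; omega
      rw [Polynomial.coeff_eq_zero_of_natDegree_lt this, zero_div]
      rfl
  have ha : ∀ i, (a i).map A.subtype = Polynomial.C x₀⁻¹ * c i := by
    intro i
    ext n
    rw [Polynomial.coeff_map, Polynomial.coeff_C_mul]
    show ((a i).coeff n : K) = _
    rw [ha_coeff, div_eq_inv_mul]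
  -- the relation over `A`
  have hrel : ∑ i, Polynomial.eval₂ HahnSeries.C J (a i) * y i = 0 := by
    apply hr_coeffMap_subtype_injective A
    rw [map_sum, map_zero]
    have h1 : ∀ i, coeffMap A.subtype (Polynomial.eval₂ HahnSeries.C J (a i) * y i) =
        HahnSeries.C x₀⁻¹ *
          (Polynomial.eval₂ HahnSeries.C (coeffMap A.subtype J) (c i) *
            coeffMap A.subtype (y i)) := by
      intro i
      rw [map_mul, hr_coeffMap_eval₂, ha, Polynomial.eval₂_mul, Polynomial.eval₂_C, mul_assoc]
    simp_rw [h1]
    rw [← Finset.mul_sum, hc, mul_zero]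
  -- reduce
  have hred := congrArg (coeffMap (IsLocalRing.residue A)) hrel
  rw [map_sum, map_zero] at hred
  have h2 : ∀ i, coeffMap (IsLocalRing.residue A)
      (Polynomial.eval₂ HahnSeries.C J (a i) * y i) =
      Polynomial.eval₂ HahnSeries.C (coeffMap (IsLocalRing.residue A) J)
        ((a i).map (IsLocalRing.residue A)) * coeffMap (IsLocalRing.residue A) (y i) := by
    intro i
    rw [map_mul, hr_coeffMap_eval₂]
  simp_rw [h2] at hred
  have h3 := h (fun i => (a i).map (IsLocalRing.residue A)) hred
  -- but one coefficient of `a` is `1`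
  obtain ⟨i₀, -, hi₀⟩ := Finset.mem_biUnion.mp (hs ▸ hx₀)
  obtain ⟨n₀, -, hn₀⟩ := Polynomial.mem_coeffs_iff.mp hi₀
  have h4 : (a i₀).coeff n₀ = 1 := by
    apply Subtype.ext
    rw [ha_coeff, ← hn₀, div_self hx₀0]
    rfl
  have h5 := congrArg (fun p => Polynomial.coeff p n₀) (h3 i₀)
  simp only [Polynomial.coeff_map, Polynomial.coeff_zero] at h5
  rw [h4, map_one] at h5
  exact one_ne_zero h5

end

end Fermat.Agent.GoodRed
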