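/-
Item 75 (GOODRED), piece `hred` (helper4, wiring): for `ℓ ∤ N` the coefficientwise reduction of every
integral `q`-expansion lying in `F_N` lies in `F_{N,k}` — UNCONDITIONAL.
= `GM/HredM.lean hred_modL_of_fiberData` (helper8) ∘ `GM/RedMain.lean exists_fiberData_modL'`.
Also: Igusa's degree statement (★), separability and the number of cusps of `F_{N,k}`, unconditional.
No sorry.
-/
import Mathlib
import Fermat.Agent.GM.HredM
import Fermat.Agent.GM.RedMain

set_option autoImplicit false
set_option synthInstance.maxHeartbeats 400000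

noncomputable section

namespace Fermat.Agent.GoodRed

open AlgebraicCurve ModularCurve IntermediateField CongruenceSubgroup
open Fermat.Agent.S24lib Fermat.Agent.GM Fermat.Agent.FFlib
open scoped MatrixGroups

/-- **hred**, unconditional -/
theorem hred_modL (N : ℕ) [NeZero N] {ℓ : ℕ} [Fact ℓ.Prime] (hℓN : ¬ ℓ ∣ N)
    (A : ValuationSubring (AlgebraicClosure ℚ)) (hA : A.LiesOverPrime ℓ) :
    ∀ y : LaurentSeries A, coeffMap A.subtype y ∈ modularFunctionFieldBar N →
      coeffMap (IsLocalRing.residue A) y ∈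
        modularFunctionFieldFullC (IsLocalRing.ResidueField A) N :=
  hred_modL_of_fiberData N A (exists_fiberData_modL' N hℓN A hA)

/-- **(★) Igusa**: `[F_{N,k} : k(j̄⁻¹)] = ψ(N)`, unconditional -/
theorem finrank_Fk_modL (N : ℕ) [NeZero N] {ℓ : ℕ} [Fact ℓ.Prime] (hℓN : ¬ ℓ ∣ N)
    (A : ValuationSubring (AlgebraicClosure ℚ)) (hA : A.LiesOverPrime ℓ) :
    Module.finrank (IsLocalRing.ResidueField A)⟮(jk (IsLocalRing.ResidueField A) N)⁻¹⟯
      (Fk (IsLocalRing.ResidueField A) N) = dedekindPsi N :=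
  haveI : IsAlgClosed (IsLocalRing.ResidueField A) := isAlgClosed_residueField A
  finrank_Fk_of_fiberData N (exists_fiberData_modL' N hℓN A hA)

/-- `F_{N,k} / k(j̄⁻¹)` is finite separable, unconditional -/
theorem ffSep_jk_inv_modL (N : ℕ) [NeZero N] {ℓ : ℕ} [Fact ℓ.Prime] (hℓN : ¬ ℓ ∣ N)
    (A : ValuationSubring (AlgebraicClosure ℚ)) (hA : A.LiesOverPrime ℓ) :
    FFSep (IsLocalRing.ResidueField A) ((jk (IsLocalRing.ResidueField A) N)⁻¹) :=
  haveI : IsAlgClosed (IsLocalRing.ResidueField A) := isAlgClosed_residueField A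
  ffSep_jk_inv_of_fiberData N (exists_fiberData_modL' N hℓN A hA)

/-- the number of cusps of `F_{N,k}`, unconditional -/
theorem card_cusps_Fk_modL (N : ℕ) [NeZero N] {ℓ : ℕ} [Fact ℓ.Prime] (hℓN : ¬ ℓ ∣ N)
    (A : ValuationSubring (AlgebraicClosure ℚ)) (hA : A.LiesOverPrime ℓ) :
    Nat.card {v : Place (IsLocalRing.ResidueField A) (Fk (IsLocalRing.ResidueField A) N) //
      0 < v.ord ((jk (IsLocalRing.ResidueField A) N)⁻¹)} = cuspCount N :=
  haveI : IsAlgClosed (IsLocalRing.ResidueField A) := isAlgClosed_residueField A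
  card_cusps_Fk_of_fiberData N (exists_fiberData_modL' N hℓN A hA)

end Fermat.Agent.GoodRed

end
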